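/-
S36, block BP (owner helper192): the ABSTRACT ASSEMBLY of statement (B').

Everything lives inside one field `F` (= the function field of `X₀(q² M'')` over the inertia field
`K₀`), in the language of `S18/Defs.lean` (`IsUnif`, `chart`).

* `V : Fin 3 → ValuationSubring F` : the three vertical valuations
    `V 0 = v_∞` (e = 1), `V 1 = v_mid` (e = q - 1), `V 2 = v_0` (e = 1).
* `Eα Eβ : Subfield F`  : the images of the function field of level `q M''` under the two
    degeneracy embeddings `f(z) ↦ f(z)`, `f(z) ↦ f(q z)`.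
* `Nα Nβ : F →* F`      : (embedding) ∘ (norm).
* closed points         : maximal ideals `𝔫 ∋ q` of the two charts `chart A₀ x`, `chart A₀ x⁻¹`;
                          the local ring is the subring `locSub B 𝔫` of `F`.

Conventions: "`y` is a unit of `V`" is `V.valuation y = 1`, "`a ≡ b` mod the maximal ideal of `V`"
is `V.valuation (a - b) < 1`, "`ord_V y = k`" is `V.valuation y = V.valuation ϖ ^ k`.
Imports Mathlib and `S18/Defs.lean` only.
-/
import Mathlib
import Fermat.Agent.S18.Defs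

set_option autoImplicit false

noncomputable section

namespace Fermat.Agent.S36.BP

open Fermat.Agent.S18 IntermediateField

section Basic

variable {F : Type*} [Field F]

/-- `y` is a unit of the subring `R` of the field `F`. -/
def RUnit (R : Subring F) (y : F) : Prop := y ≠ 0 ∧ y ∈ R ∧ y⁻¹ ∈ R

/-- The set of nonunits of the subring `R` of `F` (the maximal ideal if `R` is local). -/
def rad (R : Subring F) : Set F := {y | y ∈ R ∧ ¬ RUnit R y}

/-- The localisation of the subring `B` of `F` at the prime ideal `𝔫`, as a subring of `F`. -/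
def locSub (B : Subring F) (𝔫 : Ideal B) [h𝔫 : 𝔫.IsPrime] : Subring F where
  carrier := {y | ∃ a s : B, s ∉ 𝔫 ∧ y * (s : F) = (a : F)}
  mul_mem' := by
    rintro y y' ⟨a, s, hs, e⟩ ⟨a', s', hs', e'⟩
    refine ⟨a * a', s * s', fun h => (h𝔫.mem_or_mem h).elim hs hs', ?_⟩
    push_cast
    rw [← e, ← e']; ring
  one_mem' := ⟨1, 1, fun h => h𝔫.ne_top ((Ideal.eq_top_iff_one _).2 h), by simp⟩
  add_mem' := by
    rintro y y' ⟨a, s, hs, e⟩ ⟨a', s', hs', e'⟩
    refine ⟨a * s' + a' * s, s * s', fun h => (h𝔫.mem_or_mem h).elim hs hs', ?_⟩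
    push_cast
    rw [← e, ← e']; ring
  zero_mem' := ⟨0, 1, fun h => h𝔫.ne_top ((Ideal.eq_top_iff_one _).2 h), by simp⟩
  neg_mem' := by
    rintro y ⟨a, s, hs, e⟩
    exact ⟨-a, s, hs, by push_cast; rw [← e]; ring⟩

theorem mem_locSub {B : Subring F} {𝔫 : Ideal B} [𝔫.IsPrime] {y : F} :
    y ∈ locSub B 𝔫 ↔ ∃ a s : B, s ∉ 𝔫 ∧ y * (s : F) = (a : F) := Iff.rfl

/-- The component `V` passes through the point `R`: `R ⊆ V`, `V` is the localisation of `R` at
`P = R ∩ 𝔪_V`, and the maximal ideal of `R / P` is principal (so `R / P` is a discrete valuation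
ring with fraction field the residue field of `V`). -/
structure Through (R : Subring F) (V : ValuationSubring F) : Prop where
  le : ∀ r ∈ R, r ∈ V
  loc : ∀ y ∈ V, ∃ s ∈ R, V.valuation s = 1 ∧ s * y ∈ R
  dvr : ∃ t ∈ rad R, ∀ y ∈ rad R, ∃ r ∈ R, V.valuation (y - r * t) < 1

/-- The component `V` does not pass through the point `R`. -/
def Away (R : Subring F) (V : ValuationSubring F) : Prop := ∃ e : F, RUnit R e ∧ V.valuation e < 1

/-- The prime `R ∩ 𝔪_V` of `R` is principal. -/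
def Princ (R : Subring F) (V : ValuationSubring F) : Prop :=
  ∃ z ∈ R, z ≠ 0 ∧ V.valuation z < 1 ∧ ∀ y ∈ R, V.valuation y < 1 → y / z ∈ R

/-- "The divisor of `u` on the generic fibre is divisible by `n`" (same as
`S18.Descent.DivisibleDivVS`). -/
def HorDiv (K₀ : Type*) [Field K₀] [Algebra K₀ F] (n : ℕ) (u : F) : Prop :=
  ∀ W : ValuationSubring F, (∀ a : K₀, algebraMap K₀ F a ∈ W) →
    ∃ t : F, t ≠ 0 ∧ W.valuation (u * t ^ n) = 1

/-- `y ∈ K₀ˣ · (Eˣ)ⁿ`. -/
def IsConstPow (K₀ : Type*) [Field K₀] [Algebra K₀ F] (E : Subfield F) (n : ℕ) (y : F) : Prop :=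
  ∃ (c : K₀) (w : F), c ≠ 0 ∧ w ≠ 0 ∧ w ∈ E ∧ y = algebraMap K₀ F c * w ^ n

end Basic

/-- Hypotheses on the base: `A₀` is a discrete valuation ring with uniformiser `q`, algebraically
closed residue field, and Hensel's lemma for `m`-th roots, `q ∤ m`
(the ring of integers of the inertia field: `Lib/InertiaField`). -/
structure BaseHyp {K₀ : Type*} [Field K₀] (A₀ : ValuationSubring K₀) (q : ℕ) : Prop where
  prime : q.Prime
  charZero : CharZero K₀
  unif : IsUnif A₀ (q : K₀)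
  algClosed : IsAlgClosed (IsLocalRing.ResidueField A₀)
  root : ∀ m : ℕ, ¬ q ∣ m → ∀ a : K₀, A₀.valuation a = 1 → ∃ b : K₀, b ^ m = a
  prim : ∀ m : ℕ, ¬ q ∣ m → ∃ ζ : K₀, IsPrimitiveRoot ζ m

section Model

variable {F : Type*} [Field F]

/-- One degeneracy map `F₁ → F` (`E` = its image, `N` = embedding ∘ norm).  Above the vertical
valuation `Va ∩ E = Vm ∩ E` of `E` lie `Va` (`e = f = 1`) and `Vm` (`e = q - 1`, `f = 1`); above
`Vb ∩ E` lies only `Vb` (`e = 1`, residue extension purely inseparable of degree `q`).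
For `α`: `(Va, Vm, Vb) = (V 0, V 1, V 2)`; for `β`: `(V 2, V 1, V 0)`. -/
structure Half (q : ℕ) (ϖm : F) (E : Subfield F) (N : F →* F) (Va Vm Vb : ValuationSubring F) :
    Prop where
  norm_mem : ∀ y, N y ∈ E
  compat : ∀ y ∈ E, y ∈ Va ↔ y ∈ Vm
  dense_a : ∀ y ∈ Va, ∃ y' ∈ E, Va.valuation (y' - y) < 1
  dense_m : ∀ y ∈ Vm, ∃ y' ∈ E, Vm.valuation (y' - y) < 1
  ord_a : ∀ (y : F) (a b : ℤ), Va.valuation y = Va.valuation (q : F) ^ a →
    Vm.valuation y = Vm.valuation ϖm ^ b → Va.valuation (N y) = Va.valuation (q : F) ^ (a + b)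
  ord_b : ∀ y : F, Vb.valuation (N y) = Vb.valuation y ^ q
  res_a : ∀ y a b : F, Va.valuation y = 1 → Vm.valuation y = 1 → a ∈ E → b ∈ E →
    Va.valuation (a - y) < 1 → Vm.valuation (b - y) < 1 →
    Va.valuation (N y - a * b ^ (q - 1)) < 1
  res_b : ∀ y : F, Vb.valuation y = 1 → Vb.valuation (N y - y ^ q) < 1

/-- One degeneracy map at a crossing point `R`: `R ∩ E` surjects onto `R / P_a` and `R / P_m`, and
the norm preserves the units of `R` (`R` is the only point above its image). -/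
structure HalfPt (E : Subfield F) (N : F →* F) (Va Vm : ValuationSubring F) (R : Subring F) :
    Prop where
  dense_a : ∀ r ∈ R, ∃ r' ∈ R, r' ∈ E ∧ Va.valuation (r' - r) < 1
  dense_m : ∀ r ∈ R, ∃ r' ∈ R, r' ∈ E ∧ Vm.valuation (r' - r) < 1
  norm_unit : ∀ ε : F, RUnit R ε → RUnit R (N ε)

/-- The local hypotheses at a closed point `R`. -/
structure PtHyp (V : Fin 3 → ValuationSubring F) (Eα Eβ : Subfield F) (Nα Nβ : F →* F)
    (R : Subring F) : Prop where
  through_or_away : ∀ c, Through R (V c) ∨ Away R (V c)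
  princ : ∃ c, Through R (V c) ∧ Princ R (V c)
  cross : (∃ c, ∀ c', c' ≠ c → Away R (V c')) ∨
    ((∀ c, Through R (V c)) ∧ HalfPt Eα Nα (V 0) (V 1) R ∧ HalfPt Eβ Nβ (V 2) (V 1) R)

variable {K₀ : Type*} [Field K₀] [Algebra K₀ F]

/-- **The abstract model of `X₀(q² M'')` over the ring of integers `A₀` of the inertia field.** -/
structure Model (A₀ : ValuationSubring K₀) (q : ℕ) (x : F) (V : Fin 3 → ValuationSubring F)
    (ϖm : F) (Eα Eβ : Subfield F) (Nα Nβ : F →* F) : Prop where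
  base : BaseHyp A₀ q
  transc : Transcendental K₀ x
  finite : FiniteDimensional K₀⟮x⟯ F
  const_mem : ∀ c, ∀ a ∈ A₀, algebraMap K₀ F a ∈ V c
  x_unit : ∀ c, (V c).valuation x = 1
  inj : Function.Injective V
  unif0 : IsUnif (V 0) (q : F)
  unif1 : IsUnif (V 1) ϖm
  unif2 : IsUnif (V 2) (q : F)
  ram1 : (V 1).valuation ϖm ^ (q - 1) = (V 1).valuation (q : F)
  qep₁ : ∀ y : F, (q : F) * y ∈ chart A₀.toSubring x → (∀ c, y ∈ V c) → y ∈ chart A₀.toSubring x
  qep₂ : ∀ y : F, (q : F) * y ∈ chart A₀.toSubring x⁻¹ → (∀ c, y ∈ V c) →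
    y ∈ chart A₀.toSubring x⁻¹
  constα : ∀ a : K₀, algebraMap K₀ F a ∈ Eα
  constβ : ∀ a : K₀, algebraMap K₀ F a ∈ Eβ
  normα_const : ∀ a : K₀, Nα (algebraMap K₀ F a) = algebraMap K₀ F a ^ q
  normβ_const : ∀ a : K₀, Nβ (algebraMap K₀ F a) = algebraMap K₀ F a ^ q
  halfα : Half q ϖm Eα Nα (V 0) (V 1) (V 2)
  halfβ : Half q ϖm Eβ Nβ (V 2) (V 1) (V 0)
  pts₁ : ∀ (𝔫 : Ideal (chart A₀.toSubring x)) [𝔫.IsMaximal], (q : chart A₀.toSubring x) ∈ 𝔫 →
    PtHyp V Eα Eβ Nα Nβ (locSub (chart A₀.toSubring x) 𝔫)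
  pts₂ : ∀ (𝔫 : Ideal (chart A₀.toSubring x⁻¹)) [𝔫.IsMaximal],
    (q : chart A₀.toSubring x⁻¹) ∈ 𝔫 → PtHyp V Eα Eβ Nα Nβ (locSub (chart A₀.toSubring x⁻¹) 𝔫)

/-- What the holonomy argument uses about a local ring `R ⊆ F` of the model. -/
structure IsPt (A₀ : ValuationSubring K₀) (R : Subring F) : Prop where
  add_rad : ∀ a ∈ rad R, ∀ b ∈ rad R, a + b ∈ rad R
  const_mem : ∀ a ∈ A₀, algebraMap K₀ F a ∈ R
  const_rad : ∀ a : K₀, A₀.valuation a < 1 → algebraMap K₀ F a ∈ rad R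
  res : ∀ r ∈ R, ∃ a ∈ A₀, r - algebraMap K₀ F a ∈ rad R
  intClosed : ∀ y : F, IsIntegral R y → y ∈ R
  noeth : IsNoetherianRing R

/-- A gluing datum of `u` at the point `R`, relative to the `n`-th roots `(lam c)⁻¹` of the
residues of `u`: a local `n`-th root `g⁻¹` of `u` up to units, such that the function
`g / lam c` on the component `V c` takes the value `ζ c` at the point. -/
def Datum (V : Fin 3 → ValuationSubring F) (R : Subring F) (n : ℕ) (u : F) (lam : Fin 3 → F)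
    (g : F) (ζ : Fin 3 → K₀) : Prop :=
  RUnit R (g ^ n * u) ∧ ∀ c, ∃ r ∈ R, (V c).valuation (g / lam c - r) < 1 ∧
    r - algebraMap K₀ F (ζ c) ∈ rad R

/-- Trivial gluing datum at `R` (only the components through `R` matter). -/
def TrivDatum (V : Fin 3 → ValuationSubring F) (R : Subring F) (n : ℕ) (u : F)
    (lam : Fin 3 → F) : Prop :=
  ∃ g : F, RUnit R (g ^ n * u) ∧ ∀ c, Through R (V c) →
    ∃ r ∈ R, (V c).valuation (g / lam c - r) < 1 ∧ r - 1 ∈ rad R

end Model

end Fermat.Agent.S36.BP
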