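/-
S36, block BP, layer 0 (task BP-ORD): the vertical orders of `u` from the two norm relations.
This file: everything except the appeal to weak approximation.
-/
import Mathlib
import Fermat.Agent.S18.Defs
import Fermat.Agent.S36.BP.Defs

set_option autoImplicit false

noncomputable section

namespace Fermat.Agent.S36.BP

open Fermat.Agent.S18 IntermediateField

variable {K₀ F : Type*} [Field K₀] [Field F] [Algebra K₀ F]

section ORDAUX

theorem ord_val_eq_one {L : Type*} [Field L] {W : ValuationSubring L} {y : L} (h0 : y ≠ 0)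
    (h1 : y ∈ W) (h2 : y⁻¹ ∈ W) : W.valuation y = 1 := by
  have e1 : W.valuation y ≤ 1 := (W.valuation_le_one_iff _).2 h1
  have e2 : W.valuation y⁻¹ ≤ 1 := (W.valuation_le_one_iff _).2 h2
  rw [map_inv₀] at e2
  have h3 : W.valuation y ≠ 0 := (W.valuation.ne_zero_iff).2 h0
  exact le_antisymm e1 ((inv_le_one₀ (zero_lt_iff.2 h3)).1 e2)

theorem ord_unif_ne_zero {L : Type*} [Field L] {W : ValuationSubring L} {ϖ : L}
    (h : IsUnif W ϖ) : ϖ ≠ 0 := by
  intro h0
  apply h.inv_notMem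
  rw [h0, inv_zero]
  exact W.zero_mem

theorem ord_val_unif_ne_zero {L : Type*} [Field L] {W : ValuationSubring L} {ϖ : L}
    (h : IsUnif W ϖ) : W.valuation ϖ ≠ 0 :=
  (W.valuation.ne_zero_iff).2 (ord_unif_ne_zero h)

theorem ord_val_unif_ne_one {L : Type*} [Field L] {W : ValuationSubring L} {ϖ : L}
    (h : IsUnif W ϖ) : W.valuation ϖ ≠ 1 := by
  intro h1
  apply h.inv_notMem
  rw [← W.valuation_le_one_iff, map_inv₀, h1, inv_one]

theorem ord_exists_val {L : Type*} [Field L] {W : ValuationSubring L} {ϖ : L} (h : IsUnif W ϖ)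
    {y : L} (hy : y ≠ 0) : ∃ a : ℤ, W.valuation y = W.valuation ϖ ^ a := by
  have hϖ := ord_unif_ne_zero h
  obtain ⟨a, h1, h2⟩ := h.exists_zpow y hy
  refine ⟨a, ?_⟩
  have h3 := ord_val_eq_one (div_ne_zero hy (zpow_ne_zero _ hϖ)) h1 h2
  rw [map_div₀, map_zpow₀, div_eq_one_iff_eq (zpow_ne_zero _ (ord_val_unif_ne_zero h))] at h3
  exact h3

theorem ord_zpow_inj {L : Type*} [Field L] {W : ValuationSubring L} {ϖ : L} (h : IsUnif W ϖ)
    {a b : ℤ} (hab : W.valuation ϖ ^ a = W.valuation ϖ ^ b) : a = b :=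
  zpow_right_injective₀ (zero_lt_iff.2 (ord_val_unif_ne_zero h)) (ord_val_unif_ne_one h) hab

/-- private copy of `BaseHyp.exists_zpow_mul`. -/
theorem ord_exists_zpow_mul {A₀ : ValuationSubring K₀} {q : ℕ} (hb : BaseHyp A₀ q) {c : K₀}
    (hc : c ≠ 0) : ∃ (s : ℤ) (e : K₀), A₀.valuation e = 1 ∧ c = (q : K₀) ^ s * e := by
  have hq := ord_unif_ne_zero hb.unif
  obtain ⟨s, h1, h2⟩ := hb.unif.exists_zpow c hc
  refine ⟨s, c / (q : K₀) ^ s, ord_val_eq_one (div_ne_zero hc (zpow_ne_zero _ hq)) h1 h2, ?_⟩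
  rw [mul_div_cancel₀ _ (zpow_ne_zero _ hq)]

theorem ord_val_const_unit {A₀ : ValuationSubring K₀} {W : ValuationSubring F}
    (hW : ∀ a ∈ A₀, algebraMap K₀ F a ∈ W) {e : K₀} (he : A₀.valuation e = 1) :
    W.valuation (algebraMap K₀ F e) = 1 := by
  have he0 : e ≠ 0 := by
    intro h0
    rw [h0, map_zero] at he
    exact zero_ne_one he
  have h1 : e ∈ A₀ := (A₀.valuation_le_one_iff _).1 he.le
  have h2 : e⁻¹ ∈ A₀ := (A₀.valuation_le_one_iff _).1 (by rw [map_inv₀, he, inv_one])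
  refine ord_val_eq_one ?_ (hW _ h1) ?_
  · rwa [Ne, map_eq_zero]
  · rw [← map_inv₀]
    exact hW _ h2

variable {A₀ : ValuationSubring K₀} {q : ℕ} {ϖm : F}

/-- The congruence between the vertical orders coming from one norm relation. -/
theorem Half.ord_congr (hb : BaseHyp A₀ q) {E : Subfield F} {N : F →* F}
    {Va Vm Vb : ValuationSubring F} (H : Half q ϖm E N Va Vm Vb)
    (hca : ∀ a ∈ A₀, algebraMap K₀ F a ∈ Va) (hcb : ∀ a ∈ A₀, algebraMap K₀ F a ∈ Vb)
    (hUa : IsUnif Va (q : F)) (hUb : IsUnif Vb (q : F)) {n : ℕ} {u : F}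
    (hN : IsConstPow K₀ E n (N u)) {a m b : ℤ}
    (ha : Va.valuation u = Va.valuation (q : F) ^ a)
    (hm : Vm.valuation u = Vm.valuation ϖm ^ m)
    (hb' : Vb.valuation u = Vb.valuation (q : F) ^ b) :
    ∃ t : ℤ, a + m - q * b = n * t := by
  obtain ⟨c, w, hc, hw, -, e⟩ := hN
  obtain ⟨s, e', he', rfl⟩ := ord_exists_zpow_mul hb hc
  obtain ⟨wa, hwa⟩ := ord_exists_val hUa hw
  obtain ⟨wb, hwb⟩ := ord_exists_val hUb hw
  have h1 : a + m = s + wa * n := by
    apply ord_zpow_inj hUa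
    rw [← H.ord_a u a m ha hm, e, map_mul, map_mul, map_mul, map_pow, map_zpow₀, map_natCast,
      map_zpow₀, ord_val_const_unit hca he', mul_one, hwa,
      zpow_add₀ (ord_val_unif_ne_zero hUa), zpow_mul, zpow_natCast]
  have h2 : b * q = s + wb * n := by
    apply ord_zpow_inj hUb
    have h3 := H.ord_b u
    rw [hb', e, map_mul, map_mul, map_mul, map_pow, map_zpow₀, map_natCast,
      map_zpow₀, ord_val_const_unit hcb he', mul_one, hwb] at h3
    rw [zpow_add₀ (ord_val_unif_ne_zero hUb), zpow_mul, zpow_mul, zpow_natCast, zpow_natCast, h3]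
  refine ⟨wa - wb, ?_⟩
  linear_combination h1 - h2

end ORDAUX

variable {A₀ : ValuationSubring K₀} {q : ℕ} {x : F} {V : Fin 3 → ValuationSubring F} {ϖm : F}
  {Eα Eβ : Subfield F} {Nα Nβ : F →* F}

/-- `Model.exists_unit_rep`, with weak approximation as an explicit hypothesis. -/
theorem Model.exists_unit_rep_of (M : Model A₀ q x V ϖm Eα Eβ Nα Nβ)
    (happrox : ∀ k : Fin 3 → ℤ, ∃ h : F, h ≠ 0 ∧
      (V 0).valuation h = (V 0).valuation (q : F) ^ k 0 ∧
      (V 1).valuation h = (V 1).valuation ϖm ^ k 1 ∧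
      (V 2).valuation h = (V 2).valuation (q : F) ^ k 2)
    {n : ℕ} {u : F}
    (hu : u ≠ 0) (hα : IsConstPow K₀ Eα n (Nα u)) (hβ : IsConstPow K₀ Eβ n (Nβ u)) :
    ∃ (h : F) (k : ℤ), h ≠ 0 ∧
      ∀ c, (V c).valuation (u ^ (q + 1) * algebraMap K₀ F ((q : K₀) ^ k) * h ^ n) = 1 := by
  obtain ⟨a0, h0⟩ := ord_exists_val M.unif0 hu
  obtain ⟨a1, h1⟩ := ord_exists_val M.unif1 hu
  obtain ⟨a2, h2⟩ := ord_exists_val M.unif2 hu
  obtain ⟨t1, ht1⟩ := M.halfα.ord_congr M.base (M.const_mem 0) (M.const_mem 2) M.unif0 M.unif2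
    hα h0 h1 h2
  obtain ⟨t2, ht2⟩ := M.halfβ.ord_congr M.base (M.const_mem 2) (M.const_mem 0) M.unif2 M.unif0
    hβ h2 h1 h0
  obtain ⟨h, hh0, e0, e1, e2⟩ := happrox ![-(t1 - t2), -(q * t1 + t2), 0]
  have hq1 : ((q - 1 : ℕ) : ℤ) = (q : ℤ) - 1 := by
    have := M.base.prime.one_le
    push_cast [this]
    ring
  refine ⟨h, -((q : ℤ) + 1) * a2, hh0, ?_⟩
  intro c
  fin_cases c
  · show (V 0).valuation _ = 1
    have hγ := ord_val_unif_ne_zero M.unif0
    rw [map_mul, map_mul, map_pow, map_pow, map_zpow₀, map_natCast, map_zpow₀, h0, e0,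
      ← zpow_natCast, ← zpow_natCast, ← zpow_mul, ← zpow_mul, ← zpow_add₀ hγ, ← zpow_add₀ hγ]
    convert zpow_zero _ using 2
    simp only [Matrix.cons_val_zero]
    push_cast
    linear_combination ht1 - ht2
  · show (V 1).valuation _ = 1
    have hγ := ord_val_unif_ne_zero M.unif1
    rw [map_mul, map_mul, map_pow, map_pow, map_zpow₀, map_natCast, map_zpow₀, h1, e1,
      ← M.ram1, ← zpow_natCast, ← zpow_natCast, ← zpow_natCast, ← zpow_mul, ← zpow_mul,
      ← zpow_mul, ← zpow_add₀ hγ, ← zpow_add₀ hγ]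
    convert zpow_zero _ using 2
    simp only [Matrix.cons_val_one, Matrix.cons_val_zero]
    rw [hq1]
    push_cast
    linear_combination (q : ℤ) * ht1 + ht2
  · show (V 2).valuation _ = 1
    have hγ := ord_val_unif_ne_zero M.unif2
    rw [map_mul, map_mul, map_pow, map_pow, map_zpow₀, map_natCast, map_zpow₀, h2, e2,
      ← zpow_natCast, ← zpow_natCast, ← zpow_mul, ← zpow_mul, ← zpow_add₀ hγ, ← zpow_add₀ hγ]
    convert zpow_zero _ using 2
    simp only [Matrix.cons_val_two, Matrix.tail_cons, Matrix.head_cons]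
    push_cast
    ring

end Fermat.Agent.S36.BP
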