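/-
S36, block BP, layer 0 (task BP-ORD): prescribed orders at finitely many distinct discrete
valuation subrings, deduced from Mathlib's abstract weak approximation theorem for real absolute
values.
-/
import Mathlib
import Fermat.Agent.S18.Defs
import Fermat.Agent.S36.BP.OrdersAux

set_option autoImplicit false

noncomputable section

namespace Fermat.Agent.S36.BP

open Fermat.Agent.S18
open scoped Classical

variable {F : Type*} [Field F] {W : ValuationSubring F} {ϖ : F}

theorem ord_val_unif_lt_one (h : IsUnif W ϖ) : W.valuation ϖ < 1 :=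
  lt_of_le_of_ne ((W.valuation_le_one_iff _).2 h.mem) (ord_val_unif_ne_one h)

/-- the order function of a discrete valuation subring. -/
def ordZ (h : IsUnif W ϖ) (y : F) : ℤ :=
  if hy : y = 0 then 0 else Classical.choose (ord_exists_val h hy)

theorem ordZ_spec (h : IsUnif W ϖ) {y : F} (hy : y ≠ 0) :
    W.valuation y = W.valuation ϖ ^ ordZ h y := by
  rw [ordZ, dif_neg hy]
  exact Classical.choose_spec (ord_exists_val h hy)

/-- `|y| = 2 ^ (- ord y)`. -/
def ordAbsFun (h : IsUnif W ϖ) (y : F) : ℝ := if y = 0 then 0 else (2 : ℝ)⁻¹ ^ ordZ h y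

theorem ordAbsFun_zero (h : IsUnif W ϖ) : ordAbsFun h 0 = 0 := if_pos rfl

theorem ordAbsFun_of_ne (h : IsUnif W ϖ) {y : F} (hy : y ≠ 0) :
    ordAbsFun h y = (2 : ℝ)⁻¹ ^ ordZ h y := if_neg hy

theorem ordAbsFun_pos (h : IsUnif W ϖ) {y : F} (hy : y ≠ 0) : 0 < ordAbsFun h y := by
  rw [ordAbsFun_of_ne h hy]
  positivity

theorem ordAbsFun_nonneg (h : IsUnif W ϖ) (y : F) : 0 ≤ ordAbsFun h y := by
  rcases eq_or_ne y 0 with rfl | hy
  · rw [ordAbsFun_zero]
  · exact (ordAbsFun_pos h hy).le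

theorem ordAbsFun_le_iff (h : IsUnif W ϖ) (x y : F) :
    ordAbsFun h x ≤ ordAbsFun h y ↔ W.valuation x ≤ W.valuation y := by
  rcases eq_or_ne x 0 with rfl | hx
  · simp [ordAbsFun_zero, ordAbsFun_nonneg]
  rcases eq_or_ne y 0 with rfl | hy
  · rw [ordAbsFun_zero, map_zero]
    constructor
    · intro h1
      exact absurd h1 (not_le.2 (ordAbsFun_pos h hx))
    · intro h1
      exact absurd (le_zero_iff.1 h1) ((W.valuation.ne_zero_iff).2 hx)
  rw [ordAbsFun_of_ne h hx, ordAbsFun_of_ne h hy, ordZ_spec h hx, ordZ_spec h hy,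
    zpow_le_zpow_iff_right_of_lt_one₀ (by norm_num) (by norm_num),
    zpow_le_zpow_iff_right_of_lt_one₀ (zero_lt_iff.2 (ord_val_unif_ne_zero h))
      (ord_val_unif_lt_one h)]

/-- the real absolute value of a discrete valuation subring. -/
def ordAbs (h : IsUnif W ϖ) : AbsoluteValue F ℝ where
  toFun := ordAbsFun h
  map_mul' x y := by
    rcases eq_or_ne x 0 with rfl | hx
    · rw [zero_mul, ordAbsFun_zero, zero_mul]
    rcases eq_or_ne y 0 with rfl | hy
    · rw [mul_zero, ordAbsFun_zero, mul_zero]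
    rw [ordAbsFun_of_ne h hx, ordAbsFun_of_ne h hy, ordAbsFun_of_ne h (mul_ne_zero hx hy),
      ← zpow_add₀ (by norm_num)]
    congr 1
    apply ord_zpow_inj h
    rw [← ordZ_spec h (mul_ne_zero hx hy), map_mul, ordZ_spec h hx, ordZ_spec h hy,
      zpow_add₀ (ord_val_unif_ne_zero h)]
  nonneg' := ordAbsFun_nonneg h
  eq_zero' x := ⟨fun hx => by_contra fun h0 => (ordAbsFun_pos h h0).ne' hx,
    fun hx => hx ▸ ordAbsFun_zero h⟩
  add_le' x y := by
    rcases le_max_iff.1 (W.valuation.map_add x y) with h1 | h1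
    · exact ((ordAbsFun_le_iff h _ _).2 h1).trans (le_add_of_nonneg_right (ordAbsFun_nonneg h y))
    · exact ((ordAbsFun_le_iff h _ _).2 h1).trans (le_add_of_nonneg_left (ordAbsFun_nonneg h x))

theorem ordAbs_le_iff (h : IsUnif W ϖ) (x y : F) :
    ordAbs h x ≤ ordAbs h y ↔ W.valuation x ≤ W.valuation y := ordAbsFun_le_iff h x y

theorem ordAbs_lt_iff (h : IsUnif W ϖ) (x y : F) :
    ordAbs h x < ordAbs h y ↔ W.valuation x < W.valuation y := by
  rw [← not_le, ← not_le, ordAbs_le_iff]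

/-- weak approximation: prescribed orders at finitely many distinct discrete valuation subrings. -/
theorem ord_exists_prescribed_orders {ι : Type*} [Finite ι] (W : ι → ValuationSubring F)
    (ϖ : ι → F) (hU : ∀ c, IsUnif (W c) (ϖ c)) (hinj : Function.Injective W) (k : ι → ℤ) :
    ∃ h : F, h ≠ 0 ∧ ∀ c, (W c).valuation h = (W c).valuation (ϖ c) ^ k c := by
  classical
  cases nonempty_fintype ι
  rcases isEmpty_or_nonempty ι with hE | hN
  · exact ⟨1, one_ne_zero, fun c => isEmptyElim c⟩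
  have hnt : ∀ c, (ordAbs (hU c)).IsNontrivial := fun c =>
    ⟨ϖ c, ord_unif_ne_zero (hU c), by
      have h1 : ordAbs (hU c) (ϖ c) < ordAbs (hU c) 1 := by
        rw [ordAbs_lt_iff, map_one]
        exact ord_val_unif_lt_one (hU c)
      rw [map_one] at h1
      exact h1.ne⟩
  have hne : Pairwise fun i j => ¬ (ordAbs (hU i)).IsEquiv (ordAbs (hU j)) := by
    intro i j hij he
    apply hij
    apply hinj
    ext y
    rw [← (W i).valuation_le_one_iff, ← (W j).valuation_le_one_iff, ← map_one (W i).valuation,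
      ← map_one (W j).valuation, ← ordAbs_le_iff (hU i), ← ordAbs_le_iff (hU j)]
    exact he y 1
  have hd := AbsoluteValue.denseRange_algebraMap_pi hnt hne
  obtain ⟨c₀, hc₀⟩ := Finite.exists_min (fun c => ordAbs (hU c) (ϖ c ^ k c))
  have hr : 0 < ordAbs (hU c₀) (ϖ c₀ ^ k c₀) :=
    (ordAbs (hU c₀)).pos (zpow_ne_zero _ (ord_unif_ne_zero (hU c₀)))
  obtain ⟨h, hh⟩ := Metric.denseRange_iff.mp hd (fun c => WithAbs.toAbs _ (ϖ c ^ k c)) _ hr
  have key : ∀ c, (W c).valuation h = (W c).valuation (ϖ c) ^ k c := by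
    intro c
    have h1 := (dist_pi_lt_iff hr).1 hh c
    rw [dist_eq_norm] at h1
    have h2 : ordAbs (hU c) (ϖ c ^ k c - h) < ordAbs (hU c) (ϖ c ^ k c) :=
      lt_of_lt_of_le h1 (hc₀ c)
    rw [ordAbs_lt_iff] at h2
    have h3 := Valuation.map_sub_eq_of_lt_left (W c).valuation h2
    rw [sub_sub_cancel, map_zpow₀] at h3
    exact h3
  refine ⟨h, ?_, key⟩
  rintro rfl
  have h4 := key c₀
  rw [map_zero] at h4
  exact zpow_ne_zero _ (ord_val_unif_ne_zero (hU c₀)) h4.symm

end Fermat.Agent.S36.BP
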