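/-
S36, block BP, layer 0 (task BP-ORD): after multiplying `u ^ (q + 1)` by a power of `q` and an
`n`-th power, it becomes a unit at the three vertical valuations.
-/
import Mathlib
import Fermat.Agent.S18.Defs
import Fermat.Agent.S36.BP.Defs
import Fermat.Agent.S36.BP.OrdersAux
import Fermat.Agent.S36.BP.OrdersApprox

set_option autoImplicit false

noncomputable section

namespace Fermat.Agent.S36.BP

open Fermat.Agent.S18 IntermediateField

variable {K₀ F : Type*} [Field K₀] [Field F] [Algebra K₀ F]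

variable {A₀ : ValuationSubring K₀} {q : ℕ} {x : F} {V : Fin 3 → ValuationSubring F} {ϖm : F}
  {Eα Eβ : Subfield F} {Nα Nβ : F →* F}

section ORD

theorem Model.exists_unit_rep (M : Model A₀ q x V ϖm Eα Eβ Nα Nβ) {n : ℕ} (hn : ¬ q ∣ n) {u : F}
    (hu : u ≠ 0) (hα : IsConstPow K₀ Eα n (Nα u)) (hβ : IsConstPow K₀ Eβ n (Nβ u)) :
    ∃ (h : F) (k : ℤ), h ≠ 0 ∧
      ∀ c, (V c).valuation (u ^ (q + 1) * algebraMap K₀ F ((q : K₀) ^ k) * h ^ n) = 1 := by
  refine M.exists_unit_rep_of (fun k => ?_) hu hα hβ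
  have hU : ∀ c, IsUnif (V c) ((![(q : F), ϖm, (q : F)] : Fin 3 → F) c) := by
    intro c
    fin_cases c
    · exact M.unif0
    · exact M.unif1
    · exact M.unif2
  obtain ⟨h, hh0, hh⟩ := ord_exists_prescribed_orders V _ hU M.inj k
  exact ⟨h, hh0, hh 0, hh 1, hh 2⟩

end ORD

end Fermat.Agent.S36.BP
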