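/-
S36, block BP (architect helper192), BASE: consequences of `BaseHyp`.   Proofs: helper49.
-/
import Mathlib
import Fermat.Agent.S18.Defs
import Fermat.Agent.S36.BP.Defs

set_option autoImplicit false

noncomputable section

namespace Fermat.Agent.S36.BP

open Fermat.Agent.S18 IntermediateField

variable {K₀ F : Type*} [Field K₀] [Field F] [Algebra K₀ F]

section Aux

/-- an element which lies in `W` together with its inverse has valuation one. -/
theorem valuation_eq_one_of_mem_of_inv_mem (W : ValuationSubring F) {y : F} (hy0 : y ≠ 0)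
    (h : y ∈ W) (h' : y⁻¹ ∈ W) : W.valuation y = 1 := by
  have h1 := (W.valuation_le_one_iff y).mpr h
  have h2 := (W.valuation_le_one_iff y⁻¹).mpr h'
  rw [map_inv₀] at h2
  have hv0 : W.valuation y ≠ 0 := (W.valuation.ne_zero_iff).mpr hy0
  exact le_antisymm h1 ((inv_le_one₀ (zero_lt_iff.mpr hv0)).mp h2)

/-- a uniformiser has valuation `< 1`. -/
theorem valuation_lt_one_of_isUnif {W : ValuationSubring F} {ϖ : F} (h : IsUnif W ϖ) :
    W.valuation ϖ < 1 := by
  have h2 : ¬ W.valuation ϖ⁻¹ ≤ 1 := fun h3 => h.inv_notMem ((W.valuation_le_one_iff _).mp h3)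
  rw [map_inv₀, not_le] at h2
  have hv0 : W.valuation ϖ ≠ 0 := by
    intro h0
    rw [h0, inv_zero] at h2
    exact absurd h2 (not_lt.mpr zero_le_one)
  exact (one_lt_inv₀ (zero_lt_iff.mpr hv0)).mp h2

/-- roots of unity have valuation one. -/
theorem valuation_eq_one_of_pow_eq_one (W : ValuationSubring F) {n : ℕ} (hn : n ≠ 0) {ζ : F}
    (h : ζ ^ n = 1) : W.valuation ζ = 1 := by
  have h1 : W.valuation ζ ^ n = 1 := by rw [← map_pow, h, map_one]
  exact (pow_eq_one_iff.mp h1).resolve_right hn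

/-- congruent elements have congruent powers. -/
theorem valuation_pow_sub_pow_lt (W : ValuationSubring F) {a b : F} (ha : W.valuation a ≤ 1)
    (hb : W.valuation b ≤ 1) (h : W.valuation (a - b) < 1) (k : ℕ) :
    W.valuation (a ^ k - b ^ k) < 1 := by
  induction k with
  | zero => simp
  | succ k ih =>
    have e : a ^ (k + 1) - b ^ (k + 1) = a * (a ^ k - b ^ k) + (a - b) * b ^ k := by ring
    rw [e]
    refine lt_of_le_of_lt (W.valuation.map_add _ _) (max_lt ?_ ?_)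
    · rw [map_mul]
      exact lt_of_le_of_lt (mul_le_of_le_one_left' ha) ih
    · rw [map_mul, map_pow]
      exact lt_of_le_of_lt (mul_le_of_le_one_right' (pow_le_one' hb k)) h

end Aux

section BASE

variable {A₀ : ValuationSubring K₀} {q : ℕ}

theorem BaseHyp.q_ne_zero (hb : BaseHyp A₀ q) : (q : K₀) ≠ 0 := by
  have := hb.charZero
  exact_mod_cast hb.prime.ne_zero

theorem BaseHyp.exists_zpow_mul (hb : BaseHyp A₀ q) {c : K₀} (hc : c ≠ 0) :
    ∃ (s : ℤ) (e : K₀), A₀.valuation e = 1 ∧ c = (q : K₀) ^ s * e := by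
  obtain ⟨s, h1, h2⟩ := hb.unif.exists_zpow c hc
  have hq : (q : K₀) ^ s ≠ 0 := zpow_ne_zero _ hb.q_ne_zero
  refine ⟨s, c / (q : K₀) ^ s,
    valuation_eq_one_of_mem_of_inv_mem A₀ (div_ne_zero hc hq) h1 h2, ?_⟩
  rw [mul_div_cancel₀ _ hq]

theorem BaseHyp.natCast_unit (hb : BaseHyp A₀ q) {n : ℕ} (hn : ¬ q ∣ n) :
    A₀.valuation (n : K₀) = 1 := by
  have hq : A₀.valuation (q : K₀) < 1 := valuation_lt_one_of_isUnif hb.unif
  have hn1 : A₀.valuation (n : K₀) ≤ 1 := (A₀.valuation_le_one_iff _).mpr (natCast_mem A₀ n)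
  refine le_antisymm hn1 (not_lt.mp fun hlt => ?_)
  have hcop : IsCoprime (n : ℤ) (q : ℤ) :=
    Nat.isCoprime_iff_coprime.mpr ((Nat.Prime.coprime_iff_not_dvd hb.prime).mpr hn).symm
  obtain ⟨a, b, hab⟩ := hcop
  have h1 : ((a : K₀)) * (n : K₀) + (b : K₀) * (q : K₀) = 1 := by exact_mod_cast congrArg (fun z : ℤ => (z : K₀)) hab
  have ha : A₀.valuation (a : K₀) ≤ 1 := (A₀.valuation_le_one_iff _).mpr (intCast_mem A₀ a)
  have hb' : A₀.valuation (b : K₀) ≤ 1 := (A₀.valuation_le_one_iff _).mpr (intCast_mem A₀ b)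
  have h2 : A₀.valuation ((a : K₀) * (n : K₀) + (b : K₀) * (q : K₀)) < 1 := by
    refine lt_of_le_of_lt (A₀.valuation.map_add _ _) (max_lt ?_ ?_)
    · rw [map_mul]; exact lt_of_le_of_lt (mul_le_of_le_one_left' ha) hlt
    · rw [map_mul]; exact lt_of_le_of_lt (mul_le_of_le_one_left' hb') hq
  rw [h1, map_one] at h2
  exact lt_irrefl _ h2

/-- `n`-th roots of unity are distinct modulo the maximal ideal. -/
theorem BaseHyp.root_of_unity_inj (hb : BaseHyp A₀ q) {n : ℕ} (hn : ¬ q ∣ n) {ζ ζ' : K₀}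
    (h : ζ ^ n = 1) (h' : ζ' ^ n = 1) (hlt : A₀.valuation (ζ - ζ') < 1) : ζ = ζ' := by
  have hn0 : n ≠ 0 := by rintro rfl; exact hn (dvd_zero q)
  by_contra hne
  have hζ'0 : ζ' ≠ 0 := by
    rintro rfl
    rw [zero_pow hn0] at h'
    exact zero_ne_one h'
  have hv' : A₀.valuation ζ' = 1 := valuation_eq_one_of_pow_eq_one A₀ hn0 h'
  set η : K₀ := ζ * ζ'⁻¹ with hη
  have hηn : η ^ n = 1 := by rw [hη, mul_pow, inv_pow, h, h', inv_one, mul_one]
  have hη1 : η ≠ 1 := by
    intro h1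
    apply hne
    rw [hη] at h1
    field_simp at h1
    exact h1
  have hvη : A₀.valuation η = 1 := valuation_eq_one_of_pow_eq_one A₀ hn0 hηn
  have hlt' : A₀.valuation (η - 1) < 1 := by
    have e : η - 1 = (ζ - ζ') * ζ'⁻¹ := by rw [hη]; field_simp
    rw [e, map_mul, map_inv₀, hv', inv_one, mul_one]
    exact hlt
  have hsum : ∑ i ∈ Finset.range n, η ^ i = 0 := by
    have h1 := geom_sum_mul η n
    rw [hηn, sub_self] at h1
    exact (mul_eq_zero.mp h1).resolve_right (sub_ne_zero.mpr hη1)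
  have hsum2 : ∑ i ∈ Finset.range n, (η ^ i - 1 ^ i) = -(n : K₀) := by
    rw [Finset.sum_sub_distrib, hsum]
    simp
  have h3 : A₀.valuation (∑ i ∈ Finset.range n, (η ^ i - 1 ^ i)) < 1 :=
    A₀.valuation.map_sum_lt one_ne_zero fun i _ =>
      valuation_pow_sub_pow_lt A₀ hvη.le (by rw [map_one]) hlt' i
  rw [hsum2, Valuation.map_neg, hb.natCast_unit hn] at h3
  exact lt_irrefl _ h3

/-- in any valuation subring containing `A₀`, an element with `T ^ n ≡ 1` is congruent to an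
`n`-th root of unity of `K₀`. -/
theorem BaseHyp.exists_root_of_unity_congr (hb : BaseHyp A₀ q) {n : ℕ} (hn : ¬ q ∣ n)
    (W : ValuationSubring F) (hW : ∀ a ∈ A₀, algebraMap K₀ F a ∈ W) {T : F}
    (hT : W.valuation (T ^ n - 1) < 1) :
    ∃ κ : K₀, κ ^ n = 1 ∧ W.valuation (T - algebraMap K₀ F κ) < 1 := by
  have hn0 : n ≠ 0 := by rintro rfl; exact hn (dvd_zero q)
  have : NeZero n := ⟨hn0⟩
  obtain ⟨ζ, hζ⟩ := hb.prim n hn
  have hζF : IsPrimitiveRoot (algebraMap K₀ F ζ) n :=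
    hζ.map_of_injective (algebraMap K₀ F).injective
  by_contra hcon
  push Not at hcon
  have hprod := hζF.pow_sub_pow_eq_prod_sub_mul T 1 (Nat.pos_of_ne_zero hn0)
  rw [one_pow] at hprod
  rw [hprod, map_prod] at hT
  refine absurd hT (not_lt.mpr (Finset.one_le_prod' fun μ hμ => ?_))
  have hμ1 : μ ^ n = 1 := (Polynomial.mem_nthRootsFinset (Nat.pos_of_ne_zero hn0) 1).mp hμ
  obtain ⟨i, -, hi⟩ := hζF.eq_pow_of_pow_eq_one hμ1
  have h1 := hcon (ζ ^ i) (by rw [← pow_mul, mul_comm, pow_mul, hζ.pow_eq_one, one_pow])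
  rw [map_pow, hi] at h1
  rwa [mul_one]

end BASE

end Fermat.Agent.S36.BP
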