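/-
S36, block BP: congruence API modulo the maximal ideal of a valuation subring (helper264).
`Cong V a b` unfolds (by `Iff.rfl`) to `V.valuation (a - b) < 1`.
Mathlib only.
-/
import Mathlib

set_option autoImplicit false

namespace Fermat.Agent.S36.BP

variable {F : Type*} [Field F] {V : ValuationSubring F} {a b c d : F}

/-- `a ≡ b` modulo the maximal ideal of `V`. -/
def Cong (V : ValuationSubring F) (a b : F) : Prop := V.valuation (a - b) < 1

theorem cong_iff : Cong V a b ↔ V.valuation (a - b) < 1 := Iff.rfl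

namespace Cong

theorem refl (V : ValuationSubring F) (a : F) : Cong V a a := by
  rw [cong_iff, sub_self, map_zero]; exact zero_lt_one

theorem of_eq (h : a = b) : Cong V a b := h ▸ refl V a

theorem symm (h : Cong V a b) : Cong V b a := by
  rw [cong_iff, ← neg_sub, Valuation.map_neg]; exact h

theorem trans (h : Cong V a b) (h' : Cong V b c) : Cong V a c := by
  rw [cong_iff, show a - c = (a - b) + (b - c) by ring]
  exact lt_of_le_of_lt (V.valuation.map_add _ _) (max_lt h h')

theorem add (h : Cong V a b) (h' : Cong V c d) : Cong V (a + c) (b + d) := by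
  rw [cong_iff, show a + c - (b + d) = (a - b) + (c - d) by ring]
  exact lt_of_le_of_lt (V.valuation.map_add _ _) (max_lt h h')

theorem neg (h : Cong V a b) : Cong V (-a) (-b) := by
  rw [cong_iff, show -a - -b = -(a - b) by ring, Valuation.map_neg]; exact h

theorem sub (h : Cong V a b) (h' : Cong V c d) : Cong V (a - c) (b - d) := by
  rw [sub_eq_add_neg, sub_eq_add_neg]; exact h.add h'.neg

theorem mul_left (hc : V.valuation c ≤ 1) (h : Cong V a b) : Cong V (c * a) (c * b) := by
  rw [cong_iff, ← mul_sub, map_mul]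
  exact lt_of_le_of_lt (mul_le_of_le_one_left' hc) h

theorem mul_right (hc : V.valuation c ≤ 1) (h : Cong V a b) : Cong V (a * c) (b * c) := by
  rw [mul_comm a, mul_comm b]; exact h.mul_left hc

/-- the two sides of a congruence are integral together. -/
theorem le_one (h : Cong V a b) (hb : V.valuation b ≤ 1) : V.valuation a ≤ 1 := by
  rw [show a = (a - b) + b by ring]
  exact le_trans (V.valuation.map_add _ _) (max_le h.le hb)

/-- the two sides of a congruence are units together. -/
theorem eq_one (h : Cong V a b) (hb : V.valuation b = 1) : V.valuation a = 1 := by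
  rw [show a = b + (a - b) by ring, Valuation.map_add_eq_of_lt_left _ (by rw [hb]; exact h), hb]

/-- the two sides of a congruence are nonunits together. -/
theorem lt_one (h : Cong V a b) (hb : V.valuation b < 1) : V.valuation a < 1 := by
  rw [show a = (a - b) + b by ring]
  exact lt_of_le_of_lt (V.valuation.map_add _ _) (max_lt h hb)

theorem mul (h : Cong V a b) (h' : Cong V c d) (hb : V.valuation b ≤ 1)
    (hc : V.valuation c ≤ 1) : Cong V (a * c) (b * d) :=
  (h.mul_right hc).trans (h'.mul_left hb)

theorem pow (h : Cong V a b) (hb : V.valuation b ≤ 1) (k : ℕ) : Cong V (a ^ k) (b ^ k) := by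
  induction k with
  | zero => simpa using refl V (1 : F)
  | succ k ih =>
    rw [pow_succ, pow_succ]
    exact ih.mul h (by rw [map_pow]; exact pow_le_one' hb k) (h.le_one hb)

theorem inv (h : Cong V a b) (hb : V.valuation b = 1) : Cong V a⁻¹ b⁻¹ := by
  have ha : V.valuation a = 1 := h.eq_one hb
  have ha0 : a ≠ 0 := by
    rintro rfl
    rw [map_zero] at ha
    exact zero_ne_one ha
  have hb0 : b ≠ 0 := by
    rintro rfl
    rw [map_zero] at hb
    exact zero_ne_one hb
  rw [cong_iff, show a⁻¹ - b⁻¹ = (b - a) * (a⁻¹ * b⁻¹) by field_simp, map_mul, map_mul, map_inv₀,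
    map_inv₀, ha, hb, inv_one, mul_one, mul_one]
  exact h.symm

theorem zpow (h : Cong V a b) (hb : V.valuation b = 1) (k : ℤ) : Cong V (a ^ k) (b ^ k) := by
  cases k with
  | ofNat k =>
    simp only [Int.ofNat_eq_natCast, zpow_natCast]
    exact h.pow hb.le k
  | negSucc k =>
    simp only [zpow_negSucc]
    exact (h.pow hb.le (k + 1)).inv (by rw [map_pow, hb, one_pow])

theorem div (h : Cong V a b) (h' : Cong V c d) (hb : V.valuation b ≤ 1)
    (hd : V.valuation d = 1) : Cong V (a / c) (b / d) := by
  rw [div_eq_mul_inv, div_eq_mul_inv]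
  refine h.mul (h'.inv hd) hb ?_
  rw [map_inv₀, h'.eq_one hd, inv_one]

/-- cancel a unit factor. -/
theorem of_mul_left (hc : V.valuation c = 1) (h : Cong V (c * a) (c * b)) : Cong V a b := by
  rw [cong_iff, ← mul_sub, map_mul, hc, one_mul] at h
  exact h

theorem of_mul_right (hc : V.valuation c = 1) (h : Cong V (a * c) (b * c)) : Cong V a b := by
  rw [mul_comm a, mul_comm b] at h; exact h.of_mul_left hc

end Cong

/-- valuation of an integral power of a unit -/
theorem valuation_zpow_eq_one (h : V.valuation a = 1) (k : ℤ) : V.valuation (a ^ k) = 1 := by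
  rw [map_zpow₀, h, one_zpow]

theorem valuation_pow_eq_one (h : V.valuation a = 1) (k : ℕ) : V.valuation (a ^ k) = 1 := by
  rw [map_pow, h, one_pow]

theorem valuation_mul_eq_one (h : V.valuation a = 1) (h' : V.valuation b = 1) :
    V.valuation (a * b) = 1 := by
  rw [map_mul, h, h', one_mul]

theorem valuation_inv_eq_one (h : V.valuation a = 1) : V.valuation a⁻¹ = 1 := by
  rw [map_inv₀, h, inv_one]

/-- roots of units are units -/
theorem valuation_eq_one_of_pow {k : ℕ} (hk : k ≠ 0) (h : V.valuation (a ^ k) = 1) :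
    V.valuation a = 1 := by
  rw [map_pow] at h
  exact (pow_eq_one_iff_left hk).mp h

/-- a nonzero `y` is a unit of `V` iff `y` and `y⁻¹` lie in `V` -/
theorem valuation_eq_one_iff_mem (ha : a ≠ 0) : V.valuation a = 1 ↔ a ∈ V ∧ a⁻¹ ∈ V := by
  rw [← V.valuation_le_one_iff, ← V.valuation_le_one_iff, map_inv₀]
  have h0 : V.valuation a ≠ 0 := (Valuation.ne_zero_iff _).mpr ha
  constructor
  · intro h
    rw [h, inv_one]
    exact ⟨le_rfl, le_rfl⟩
  · rintro ⟨h1, h2⟩
    exact le_antisymm h1 ((inv_le_one₀ (zero_lt_iff.mpr h0)).mp h2)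

theorem ne_zero_of_valuation_eq_one (h : V.valuation a = 1) : a ≠ 0 := by
  rintro rfl
  rw [map_zero] at h
  exact zero_ne_one h

/-- `y` is a nonunit of `V` iff `y = 0` or `y⁻¹ ∉ V` -/
theorem valuation_lt_one_iff_inv_not_mem (ha : a ≠ 0) : V.valuation a < 1 ↔ a⁻¹ ∉ V := by
  rw [← V.valuation_le_one_iff, map_inv₀, not_le]
  have h0 : V.valuation a ≠ 0 := (Valuation.ne_zero_iff _).mpr ha
  exact (one_lt_inv₀ (zero_lt_iff.mpr h0)).symm

end Fermat.Agent.S36.BP
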