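/-
S36, block BP, task BP-RES (helper264): layer 0' = the residues of a new vertical unit are
`n`-th powers (up to the exponent `q - 1`).
-/
import Mathlib
import Fermat.Agent.S18.Defs
import Fermat.Agent.S36.BP.Defs
import Fermat.Agent.S36.BP.Base
import Fermat.Agent.S36.BP.Cong

set_option autoImplicit false

noncomputable section

namespace Fermat.Agent.S36.BP

open Fermat.Agent.S18 IntermediateField

variable {K₀ F : Type*} [Field K₀] [Field F] [Algebra K₀ F]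

variable {A₀ : ValuationSubring K₀} {q : ℕ} {x : F} {V : Fin 3 → ValuationSubring F} {ϖm : F}
  {Eα Eβ : Subfield F} {Nα Nβ : F →* F}

section RES

/-- valuation form of `IsUnif.exists_zpow`. -/
theorem res_exists_valuation_eq_zpow {W : ValuationSubring F} {ϖ : F} (h : IsUnif W ϖ) {y : F}
    (hy : y ≠ 0) : ∃ j : ℤ, W.valuation y = W.valuation ϖ ^ j := by
  have hϖ0 : ϖ ≠ 0 := by
    rintro rfl
    exact h.inv_notMem (by rw [inv_zero]; exact W.zero_mem)
  obtain ⟨j, h1, h2⟩ := h.exists_zpow y hy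
  have h3 := valuation_eq_one_of_mem_of_inv_mem W (div_ne_zero hy (zpow_ne_zero _ hϖ0)) h1 h2
  refine ⟨j, ?_⟩
  rw [map_div₀, map_zpow₀] at h3
  exact (div_eq_one_iff_eq (zpow_ne_zero _ ((Valuation.ne_zero_iff _).mpr hϖ0))).mp h3

/-- the exponent is determined by the valuation. -/
theorem res_eq_zero_of_zpow_eq_one {W : ValuationSubring F} {ϖ : F} (h : IsUnif W ϖ) {j : ℤ}
    (hj : W.valuation ϖ ^ j = 1) : j = 0 := by
  have hlt := valuation_lt_one_of_isUnif h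
  have hϖ0 : ϖ ≠ 0 := by
    rintro rfl
    exact h.inv_notMem (by rw [inv_zero]; exact W.zero_mem)
  have h0 : 0 < W.valuation ϖ := zero_lt_iff.mpr ((Valuation.ne_zero_iff _).mpr hϖ0)
  by_contra hne
  rcases lt_or_gt_of_ne hne with hneg | hpos
  · have : 1 < W.valuation ϖ ^ j := one_lt_zpow_of_neg₀ h0 hlt hneg
    exact absurd hj this.ne'
  · have : W.valuation ϖ ^ j < 1 := zpow_lt_one₀ h0 hlt hpos
    exact absurd hj this.ne

/-- units of `A₀` are units of every valuation subring containing `A₀`. -/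
theorem res_valuation_algebraMap_eq_one {W : ValuationSubring F}
    (hW : ∀ a ∈ A₀, algebraMap K₀ F a ∈ W) {e : K₀} (he : A₀.valuation e = 1) :
    W.valuation (algebraMap K₀ F e) = 1 := by
  have he0 : e ≠ 0 := ne_zero_of_valuation_eq_one he
  obtain ⟨h1, h2⟩ := (valuation_eq_one_iff_mem he0).mp he
  refine valuation_eq_one_of_mem_of_inv_mem W ?_ (hW e h1) ?_
  · rwa [Ne, map_eq_zero]
  · rw [← map_inv₀]; exact hW _ h2

/-- for a vertical unit, the constant can be absorbed. -/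
theorem Half.exists_norm_root (hb : BaseHyp A₀ q) {E : Subfield F} {N : F →* F}
    {Va Vm Vb : ValuationSubring F} (H : Half q ϖm E N Va Vm Vb)
    (hc : ∀ a : K₀, algebraMap K₀ F a ∈ E) (hVb : ∀ a ∈ A₀, algebraMap K₀ F a ∈ Vb)
    (hUb : IsUnif Vb (q : F)) {n : ℕ} (hn : ¬ q ∣ n) {u : F} (hu : Vb.valuation u = 1)
    (hN : IsConstPow K₀ E n (N u)) : ∃ w ∈ E, N u = w ^ n := by
  obtain ⟨c, w0, hc0, hw0, hw0E, hNu⟩ := hN
  obtain ⟨s, e, he, hce⟩ := hb.exists_zpow_mul hc0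
  obtain ⟨j, hj⟩ := res_exists_valuation_eq_zpow hUb hw0
  obtain ⟨b, hbe⟩ := hb.root n hn e he
  have hq0 : (q : F) ≠ 0 := by
    rintro h0
    exact hUb.inv_notMem (by rw [h0, inv_zero]; exact Vb.zero_mem)
  have hvq0 : Vb.valuation (q : F) ≠ 0 := (Valuation.ne_zero_iff _).mpr hq0
  have h1 : Vb.valuation (N u) = 1 := by rw [H.ord_b, hu, one_pow]
  have hcF : algebraMap K₀ F c = (q : F) ^ s * algebraMap K₀ F e := by
    rw [hce, map_mul, map_zpow₀, map_natCast]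
  have h2 : s + n * j = 0 := by
    apply res_eq_zero_of_zpow_eq_one hUb
    rw [hNu, hcF, map_mul, map_mul, map_zpow₀, res_valuation_algebraMap_eq_one hVb he, mul_one,
      map_pow, hj, ← zpow_natCast, ← zpow_mul, ← zpow_add₀ hvq0, mul_comm j] at h1
    exact h1
  refine ⟨(q : F) ^ (-j) * algebraMap K₀ F b * w0, ?_, ?_⟩
  · refine E.mul_mem (E.mul_mem (E.zpow_mem ?_ _) (hc b)) hw0E
    have := hc (q : K₀)
    rwa [map_natCast] at this
  · have h3 : ((q : F) ^ (-j)) ^ n = (q : F) ^ s := by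
      rw [← zpow_natCast, ← zpow_mul, show s = -j * (n : ℤ) by linarith]
    rw [hNu, hcF, mul_pow, mul_pow, ← map_pow, hbe, h3]

/-- if `ν ^ n ≡ t` with `ν` a unit then `(ν⁻¹) ^ n * t ≡ 1`. -/
theorem res_cong_one_of_pow_cong {W : ValuationSubring F} {ν t : F} {n : ℕ}
    (hν : W.valuation ν = 1) (h : Cong W (ν ^ n) t) : Cong W (ν⁻¹ ^ n * t) 1 := by
  have hν0 : ν ≠ 0 := ne_zero_of_valuation_eq_one hν
  have h1 : Cong W (ν⁻¹ ^ n * t) (ν⁻¹ ^ n * ν ^ n) :=
    h.symm.mul_left (valuation_pow_eq_one (valuation_inv_eq_one hν) n).le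
  rwa [← mul_pow, inv_mul_cancel₀ hν0, one_pow] at h1

/-- powers of a congruence `≡ 1`. -/
theorem res_cong_one_pow {W : ValuationSubring F} {μ t : F} {n : ℕ} (h : Cong W (μ ^ n * t) 1)
    (k : ℕ) : Cong W ((μ ^ k) ^ n * t ^ k) 1 := by
  have h1 := h.pow (by rw [map_one]) k
  rwa [one_pow, mul_pow, ← pow_mul, mul_comm n k, pow_mul] at h1

/-- `compat` for nonunits. -/
theorem Half.res_lt_one_iff {E : Subfield F} {N : F →* F} {Va Vm Vb : ValuationSubring F}
    (H : Half q ϖm E N Va Vm Vb) {y : F} (hy : y ∈ E) :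
    Va.valuation y < 1 ↔ Vm.valuation y < 1 := by
  rcases eq_or_ne y 0 with rfl | hy0
  · simp
  · rw [valuation_lt_one_iff_inv_not_mem hy0, valuation_lt_one_iff_inv_not_mem hy0,
      H.compat _ (E.inv_mem hy)]

/-- `compat` for units. -/
theorem Half.res_eq_one_iff {E : Subfield F} {N : F →* F} {Va Vm Vb : ValuationSubring F}
    (H : Half q ϖm E N Va Vm Vb) {y : F} (hy : y ∈ E) :
    Va.valuation y = 1 ↔ Vm.valuation y = 1 := by
  rcases eq_or_ne y 0 with rfl | hy0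
  · simp
  · rw [valuation_eq_one_iff_mem hy0, valuation_eq_one_iff_mem hy0, H.compat _ hy,
      H.compat _ (E.inv_mem hy)]

/-- the residue of `u` on the component `Vb` is an `n`-th power. -/
theorem Half.res_root_b (hq : q.Prime) {E : Subfield F} {N : F →* F}
    {Va Vm Vb : ValuationSubring F} (H : Half q ϖm E N Va Vm Vb) {n : ℕ} (hn : ¬ q ∣ n) {u w : F}
    (hu : Vb.valuation u = 1) (hN : N u = w ^ n) :
    ∃ μ : F, Vb.valuation μ = 1 ∧ Cong Vb (μ ^ n * u) 1 := by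
  have hn0 : n ≠ 0 := by
    rintro rfl
    exact hn (dvd_zero q)
  have hu0 : u ≠ 0 := ne_zero_of_valuation_eq_one hu
  have hw : Vb.valuation w = 1 := by
    apply valuation_eq_one_of_pow hn0
    rw [← hN, H.ord_b, hu, one_pow]
  obtain ⟨i, j, hij⟩ : IsCoprime (q : ℤ) (n : ℤ) :=
    Nat.isCoprime_iff_coprime.mpr ((Nat.Prime.coprime_iff_not_dvd hq).mpr hn)
  have h1 : Cong Vb (w ^ n) (u ^ q) := by
    rw [← hN]; exact H.res_b u hu
  have hν : Vb.valuation (w ^ i * u ^ j) = 1 :=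
    valuation_mul_eq_one (valuation_zpow_eq_one hw i) (valuation_zpow_eq_one hu j)
  refine ⟨(w ^ i * u ^ j)⁻¹, valuation_inv_eq_one hν, res_cong_one_of_pow_cong hν ?_⟩
  have h2 : (w ^ i * u ^ j) ^ n = (w ^ n) ^ i * (u ^ j) ^ n := by
    rw [mul_pow, ← zpow_natCast (w ^ i), ← zpow_mul, mul_comm i, zpow_mul, zpow_natCast]
  have h3 : u = (u ^ q) ^ i * (u ^ j) ^ n := by
    rw [← zpow_natCast u q, ← zpow_mul, ← zpow_natCast (u ^ j), ← zpow_mul, ← zpow_add₀ hu0,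
      mul_comm (q : ℤ), hij, zpow_one]
  have h4 : Cong Vb ((w ^ n) ^ i * (u ^ j) ^ n) ((u ^ q) ^ i * (u ^ j) ^ n) :=
    (h1.zpow (valuation_pow_eq_one hu q) i).mul_right
      (valuation_pow_eq_one (valuation_zpow_eq_one hu j) n).le
  rw [h2]
  rwa [← h3] at h4

/-- the residue of `u ^ (q - 1)` on the middle component is an `n`-th power. -/
theorem Half.res_root_m {E : Subfield F} {N : F →* F}
    {Va Vm Vb : ValuationSubring F} (H : Half q ϖm E N Va Vm Vb) {n : ℕ} (hn0 : n ≠ 0)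
    {u w μa : F} (hua : Va.valuation u = 1) (hum : Vm.valuation u = 1) (hw : w ∈ E)
    (hN : N u = w ^ n) (hμa : Va.valuation μa = 1) (hμ : Cong Va (μa ^ n * u) 1) :
    ∃ lm : F, Vm.valuation lm = 1 ∧ Cong Vm (lm ^ n * u ^ (q - 1)) 1 := by
  obtain ⟨a, haE, ha⟩ := H.dense_a u ((Va.valuation_le_one_iff _).mp hua.le)
  obtain ⟨b, hbE, hb⟩ := H.dense_m u ((Vm.valuation_le_one_iff _).mp hum.le)
  obtain ⟨μ', hμ'E, hμ'⟩ := H.dense_a μa ((Va.valuation_le_one_iff _).mp hμa.le)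
  have ha : Cong Va a u := ha
  have hb : Cong Vm b u := hb
  have hμ' : Cong Va μ' μa := hμ'
  have hres : Cong Va (N u) (a * b ^ (q - 1)) := H.res_a u a b hua hum haE hbE ha hb
  have hva : Va.valuation a = 1 := ha.eq_one hua
  have hvb : Va.valuation b = 1 := (H.res_eq_one_iff hbE).mpr (hb.eq_one hum)
  have hvμ' : Va.valuation μ' = 1 := hμ'.eq_one hμa
  have hvw : Va.valuation w = 1 := by
    apply valuation_eq_one_of_pow hn0
    rw [← hN, H.ord_a u 0 0 (by rw [hua, zpow_zero]) (by rw [hum, zpow_zero]), add_zero, zpow_zero]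
  have hν : Va.valuation (w * μ') = 1 := valuation_mul_eq_one hvw hvμ'
  have hνE : w * μ' ∈ E := E.mul_mem hw hμ'E
  -- `μ' ^ n * a ≡ 1`
  have h1 : Cong Va (μ' ^ n * a) 1 :=
    ((hμ'.pow hμa.le n).mul ha (valuation_pow_eq_one hμa n).le hva.le).trans hμ
  -- `(w μ') ^ n ≡ b ^ (q - 1)` on `Va`
  have h2 : Cong Va ((w * μ') ^ n) (b ^ (q - 1)) := by
    have h3 : Cong Va (N u * μ' ^ n) (a * b ^ (q - 1) * μ' ^ n) :=
      hres.mul_right (valuation_pow_eq_one hvμ' n).le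
    have h4 : Cong Va ((μ' ^ n * a) * b ^ (q - 1)) (1 * b ^ (q - 1)) :=
      h1.mul_right (valuation_pow_eq_one hvb _).le
    rw [mul_pow, ← hN]
    rw [one_mul] at h4
    refine h3.trans ?_
    rw [show a * b ^ (q - 1) * μ' ^ n = (μ' ^ n * a) * b ^ (q - 1) by ring]
    exact h4
  -- transfer to `Vm`
  have h5 : Cong Vm ((w * μ') ^ n) (b ^ (q - 1)) :=
    (H.res_lt_one_iff (E.sub_mem (E.pow_mem hνE n) (E.pow_mem hbE _))).mp h2
  have h6 : Cong Vm ((w * μ') ^ n) (u ^ (q - 1)) := h5.trans (hb.pow hum.le _)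
  have hνm : Vm.valuation (w * μ') = 1 := (H.res_eq_one_iff hνE).mp hν
  exact ⟨(w * μ')⁻¹, valuation_inv_eq_one hνm, res_cong_one_of_pow_cong hνm h6⟩

theorem Model.exists_lambda (M : Model A₀ q x V ϖm Eα Eβ Nα Nβ) {n : ℕ} (hn : ¬ q ∣ n) {u : F}
    (hu : ∀ c, (V c).valuation u = 1)
    (hα : IsConstPow K₀ Eα n (Nα u)) (hβ : IsConstPow K₀ Eβ n (Nβ u)) :
    ∃ lam : Fin 3 → F, (∀ c, (V c).valuation (lam c) = 1) ∧
      ∀ c, (V c).valuation (lam c ^ n * u ^ (q - 1) - 1) < 1 := by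
  have hn0 : n ≠ 0 := by
    rintro rfl
    exact hn (dvd_zero q)
  obtain ⟨wα, hwαE, hwα⟩ :=
    M.halfα.exists_norm_root M.base M.constα (M.const_mem 2) M.unif2 hn (hu 2) hα
  obtain ⟨wβ, hwβE, hwβ⟩ :=
    M.halfβ.exists_norm_root M.base M.constβ (M.const_mem 0) M.unif0 hn (hu 0) hβ
  obtain ⟨μ2, hμ2, h2⟩ := M.halfα.res_root_b M.base.prime hn (hu 2) hwα
  obtain ⟨μ0, hμ0, h0⟩ := M.halfβ.res_root_b M.base.prime hn (hu 0) hwβ
  obtain ⟨l1, hl1, h1⟩ := M.halfα.res_root_m hn0 (hu 0) (hu 1) hwαE hwα hμ0 h0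
  refine ⟨![μ0 ^ (q - 1), l1, μ2 ^ (q - 1)], ?_, ?_⟩
  · intro c
    fin_cases c
    · exact valuation_pow_eq_one hμ0 _
    · exact hl1
    · exact valuation_pow_eq_one hμ2 _
  · intro c
    fin_cases c
    · exact res_cong_one_pow h0 (q - 1)
    · exact h1
    · exact res_cong_one_pow h2 (q - 1)

end RES

end Fermat.Agent.S36.BP
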