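/-
S36, block BP, section SYMM (task BP-SYMM, helper224): the two charts of a `Model` play symmetric
roles; closure lemmas for `HorDiv` and `IsConstPow`.
-/
import Mathlib
import Fermat.Agent.S18.Defs
import Fermat.Agent.S18.Chart.Const
import Fermat.Agent.S36.BP.Defs

set_option autoImplicit false

noncomputable section

namespace Fermat.Agent.S36.BP

open Fermat.Agent.S18 IntermediateField

variable {K₀ F : Type*} [Field K₀] [Field F] [Algebra K₀ F]

variable {A₀ : ValuationSubring K₀} {q : ℕ} {x : F} {V : Fin 3 → ValuationSubring F} {ϖm : F}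
  {Eα Eβ : Subfield F} {Nα Nβ : F →* F}

section SYMM

/-- the two charts play symmetric roles. -/
theorem Model.inv (M : Model A₀ q x V ϖm Eα Eβ Nα Nβ) : Model A₀ q x⁻¹ V ϖm Eα Eβ Nα Nβ where
  base := M.base
  transc := transcendental_inv M.transc
  finite := by
    rw [adjoin_simple_inv_eq]
    exact M.finite
  const_mem := M.const_mem
  x_unit c := by rw [map_inv₀, M.x_unit, inv_one]
  inj := M.inj
  unif0 := M.unif0
  unif1 := M.unif1
  unif2 := M.unif2
  ram1 := M.ram1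
  qep₁ := M.qep₂
  qep₂ := by
    rw [inv_inv]
    exact M.qep₁
  constα := M.constα
  constβ := M.constβ
  normα_const := M.normα_const
  normβ_const := M.normβ_const
  halfα := M.halfα
  halfβ := M.halfβ
  pts₁ := M.pts₂
  pts₂ := by
    rw [inv_inv]
    exact M.pts₁

/-- a nonzero constant is a unit of every valuation subring containing the constants. -/
theorem valuation_const_eq_one (W : ValuationSubring F) (hW : ∀ a : K₀, algebraMap K₀ F a ∈ W)
    {c : K₀} (hc : c ≠ 0) : W.valuation (algebraMap K₀ F c) = 1 := by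
  have hne : algebraMap K₀ F c ≠ 0 := by
    rwa [Ne, map_eq_zero]
  have h1 : W.valuation (algebraMap K₀ F c) ≤ 1 := (W.valuation_le_one_iff _).2 (hW c)
  have h2 : W.valuation (algebraMap K₀ F c⁻¹) ≤ 1 := (W.valuation_le_one_iff _).2 (hW c⁻¹)
  rw [map_inv₀, map_inv₀] at h2
  have hpos : 0 < W.valuation (algebraMap K₀ F c) :=
    zero_lt_iff.2 ((Valuation.ne_zero_iff _).2 hne)
  exact le_antisymm h1 ((inv_le_one₀ hpos).1 h2)

theorem HorDiv.pow {n : ℕ} {u : F} (h : HorDiv K₀ n u) (k : ℕ) : HorDiv K₀ n (u ^ k) := by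
  intro W hW
  obtain ⟨t, ht, hv⟩ := h W hW
  refine ⟨t ^ k, pow_ne_zero _ ht, ?_⟩
  have e : u ^ k * (t ^ k) ^ n = (u * t ^ n) ^ k := by ring
  rw [e, map_pow, hv, one_pow]

theorem HorDiv.mul_const {n : ℕ} {u : F} (h : HorDiv K₀ n u) {c : K₀} (hc : c ≠ 0) :
    HorDiv K₀ n (u * algebraMap K₀ F c) := by
  intro W hW
  obtain ⟨t, ht, hv⟩ := h W hW
  refine ⟨t, ht, ?_⟩
  have e : u * algebraMap K₀ F c * t ^ n = (u * t ^ n) * algebraMap K₀ F c := by ring
  rw [e, map_mul, hv, valuation_const_eq_one W hW hc, one_mul]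

theorem HorDiv.mul_pow {n : ℕ} {u : F} (h : HorDiv K₀ n u) {t : F} (ht : t ≠ 0) :
    HorDiv K₀ n (u * t ^ n) := by
  intro W hW
  obtain ⟨t₀, ht₀, hv⟩ := h W hW
  refine ⟨t₀ / t, div_ne_zero ht₀ ht, ?_⟩
  have e : u * t ^ n * (t₀ / t) ^ n = u * t₀ ^ n := by
    rw [div_pow]
    field_simp
  rw [e, hv]

theorem IsConstPow.pow {E : Subfield F} {n : ℕ} {y : F} (h : IsConstPow K₀ E n y) (k : ℕ) :
    IsConstPow K₀ E n (y ^ k) := by
  obtain ⟨c, w, hc, hw, hE, rfl⟩ := h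
  refine ⟨c ^ k, w ^ k, pow_ne_zero _ hc, pow_ne_zero _ hw, pow_mem hE k, ?_⟩
  rw [map_pow]
  ring

theorem IsConstPow.mul {E : Subfield F} {n : ℕ} {y y' : F} (h : IsConstPow K₀ E n y)
    (h' : IsConstPow K₀ E n y') : IsConstPow K₀ E n (y * y') := by
  obtain ⟨c, w, hc, hw, hE, rfl⟩ := h
  obtain ⟨c', w', hc', hw', hE', rfl⟩ := h'
  refine ⟨c * c', w * w', mul_ne_zero hc hc', mul_ne_zero hw hw', mul_mem hE hE', ?_⟩
  rw [map_mul]
  ring

theorem isConstPow_const (E : Subfield F) (n : ℕ) {c : K₀} (hc : c ≠ 0) :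
    IsConstPow K₀ E n (algebraMap K₀ F c) :=
  ⟨c, 1, hc, one_ne_zero, one_mem E, by rw [one_pow, mul_one]⟩

theorem isConstPow_pow (E : Subfield F) (n : ℕ) {w : F} (hw : w ≠ 0) (hE : w ∈ E) :
    IsConstPow K₀ E n (w ^ n) :=
  ⟨1, w, one_ne_zero, hw, hE, by rw [map_one, one_mul]⟩

end SYMM

end Fermat.Agent.S36.BP
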