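/-
S36, block BP, task BP-NORMAL (owner helper69): a component `W` through the point `R` is normal
at `R`: `R / P` (`P = R ∩ 𝔪_W`) is a noetherian local domain with principal maximal ideal, hence a
valuation ring, so `m`-th roots (in the residue field of `W`) of residues of `R` are residues of
`R`.
-/
import Mathlib
import Fermat.Agent.S18.Defs
import Fermat.Agent.S36.BP.Defs

set_option autoImplicit false

noncomputable section

namespace Fermat.Agent.S36.BP

open Fermat.Agent.S18 IntermediateField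

variable {K₀ F : Type*} [Field K₀] [Field F] [Algebra K₀ F]

variable {A₀ : ValuationSubring K₀}

theorem isUnit_iff_rUnit {R : Subring F} (a : R) : IsUnit a ↔ RUnit R (a : F) := by
  constructor
  · rintro ⟨u, rfl⟩
    have h1 : ((u : R) : F) * (((u⁻¹ : Rˣ) : R) : F) = 1 := by
      have h := congrArg (Subtype.val) (u.mul_inv)
      exact h
    have h0 : ((u : R) : F) ≠ 0 := left_ne_zero_of_mul_eq_one h1
    refine ⟨h0, (u : R).2, ?_⟩
    rw [← eq_inv_of_mul_eq_one_right h1]
    exact ((u⁻¹ : Rˣ) : R).2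
  · rintro ⟨h0, -, h2⟩
    exact ⟨⟨a, ⟨_, h2⟩, Subtype.ext (mul_inv_cancel₀ h0), Subtype.ext (inv_mul_cancel₀ h0)⟩, rfl⟩

theorem mem_rad_iff_not_isUnit {R : Subring F} (a : R) : (a : F) ∈ rad R ↔ ¬ IsUnit a := by
  rw [isUnit_iff_rUnit]
  exact ⟨fun h => h.2, fun h => ⟨a.2, h⟩⟩

theorem IsPt.isLocalRing {R : Subring F} (hR : IsPt A₀ R) : IsLocalRing R :=
  IsLocalRing.of_nonunits_add (by
    intro a b ha hb
    have ha' : (a : F) ∈ rad R := (mem_rad_iff_not_isUnit a).2 ha
    have hb' : (b : F) ∈ rad R := (mem_rad_iff_not_isUnit b).2 hb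
    exact (mem_rad_iff_not_isUnit (a + b)).1 (hR.add_rad _ ha' _ hb'))

/-- the components are normal at `R`. -/
theorem Through.normal {R : Subring F} (hR : IsPt A₀ R) {W : ValuationSubring F}
    (hT : Through R W) {m : ℕ} (hm : m ≠ 0) {y ε : F} (hε : ε ∈ R)
    (h : W.valuation (y ^ m - ε) < 1) : ∃ r ∈ R, W.valuation (y - r) < 1 := by
  classical
  have := hR.isLocalRing
  have := hR.noeth
  let f : R →+* W := Subring.inclusion (show R ≤ W.toSubring from hT.le)
  let P : Ideal R := (IsLocalRing.maximalIdeal W).comap f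
  have hPp : P.IsPrime := Ideal.comap_isPrime f _
  have hP : ∀ r : R, r ∈ P ↔ W.valuation (r : F) < 1 := fun r => by
    rw [Ideal.mem_comap, ValuationSubring.valuation_lt_one_iff]
    rfl
  have : IsLocalRing (R ⧸ P) :=
    IsLocalRing.of_surjective' (Ideal.Quotient.mk P) Ideal.Quotient.mk_surjective
  have hPle : P ≤ IsLocalRing.maximalIdeal R := IsLocalRing.le_maximalIdeal hPp.ne_top
  obtain ⟨t, ht, hdvr⟩ := hT.dvr
  have hprin : (IsLocalRing.maximalIdeal (R ⧸ P)).IsPrincipal := by
    refine ⟨⟨Ideal.Quotient.mk P ⟨t, ht.1⟩, ?_⟩⟩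
    apply le_antisymm
    · intro z hz
      obtain ⟨y, rfl⟩ := Ideal.Quotient.mk_surjective z
      have hy : (y : F) ∈ rad R := by
        rw [mem_rad_iff_not_isUnit]
        intro hu
        exact hz (hu.map (Ideal.Quotient.mk P))
      obtain ⟨r, hr, hlt⟩ := hdvr _ hy
      rw [Ideal.submodule_span_eq, Ideal.mem_span_singleton']
      refine ⟨Ideal.Quotient.mk P ⟨r, hr⟩, ?_⟩
      rw [← map_mul, eq_comm, Ideal.Quotient.eq, hP]
      exact hlt
    · rw [Ideal.submodule_span_eq, Ideal.span_le, Set.singleton_subset_iff, SetLike.mem_coe,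
        IsLocalRing.mem_maximalIdeal, mem_nonunits_iff]
      intro hu
      obtain ⟨b', hb'⟩ := isUnit_iff_exists_inv.1 hu
      obtain ⟨b, rfl⟩ := Ideal.Quotient.mk_surjective b'
      rw [← map_mul, ← map_one (Ideal.Quotient.mk P), Ideal.Quotient.eq] at hb'
      have h1 : (⟨t, ht.1⟩ : R) ∈ IsLocalRing.maximalIdeal R := by
        rw [IsLocalRing.mem_maximalIdeal, mem_nonunits_iff, ← mem_rad_iff_not_isUnit]
        exact ht
      have h2 : (1 : R) ∈ IsLocalRing.maximalIdeal R := by
        have := (IsLocalRing.maximalIdeal R).sub_mem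
          ((IsLocalRing.maximalIdeal R).mul_mem_right b h1) (hPle hb')
        simp at this
      exact (Ideal.ne_top_iff_one _).1 (IsLocalRing.maximalIdeal.isMaximal R).ne_top h2
  have : ValuationRing (R ⧸ P) :=
    ((tfae_of_isNoetherianRing_of_isLocalRing_of_isDomain (R ⧸ P)).out 4 1).1 hprin
  have hεW : W.valuation ε ≤ 1 := (W.valuation_le_one_iff ε).2 (hT.le ε hε)
  have hyW : y ∈ W := by
    have h1 : W.valuation (y ^ m) ≤ 1 := by
      have := W.valuation.map_add (y ^ m - ε) ε
      rw [sub_add_cancel] at this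
      exact this.trans (max_le h.le hεW)
    rw [map_pow] at h1
    exact (W.valuation_le_one_iff y).1 ((pow_le_one_iff hm).1 h1)
  obtain ⟨s, hs, hs1, hsy⟩ := hT.loc y hyW
  set a : R := ⟨s * y, hsy⟩ with ha
  set s' : R := ⟨s, hs⟩ with hs'
  set ε' : R := ⟨ε, hε⟩ with hε'
  have hrel : Ideal.Quotient.mk P a ^ m = Ideal.Quotient.mk P ε' * Ideal.Quotient.mk P s' ^ m := by
    rw [← map_pow, ← map_pow, ← map_mul, Ideal.Quotient.eq, hP]
    have : ((a ^ m - ε' * s' ^ m : R) : F) = s ^ m * (y ^ m - ε) := by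
      push_cast
      ring
    rw [this, map_mul, map_pow, hs1, one_pow, one_mul]
    exact h
  have hs0 : Ideal.Quotient.mk P s' ≠ 0 := by
    rw [Ne, Ideal.Quotient.eq_zero_iff_mem, hP]
    show ¬ W.valuation s < 1
    rw [hs1]
    exact lt_irrefl _
  have key : Ideal.Quotient.mk P s' ∣ Ideal.Quotient.mk P a := by
    rcases ValuationRing.dvd_total (Ideal.Quotient.mk P s') (Ideal.Quotient.mk P a) with
      h1 | ⟨c, hc⟩
    · exact h1
    · have ha0 : Ideal.Quotient.mk P a ≠ 0 := by
        intro h0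
        rw [h0, zero_mul] at hc
        exact hs0 hc
      have h2 : Ideal.Quotient.mk P a ^ m * 1 =
          Ideal.Quotient.mk P a ^ m * (Ideal.Quotient.mk P ε' * c ^ m) := by
        rw [mul_one]
        conv_lhs => rw [hrel, hc]
        ring
      have h1 := mul_left_cancel₀ (pow_ne_zero m ha0) h2
      have hc' : IsUnit c := by
        have : IsUnit (c ^ m) := IsUnit.of_mul_eq_one (Ideal.Quotient.mk P ε') (by
          rw [mul_comm]; exact h1.symm)
        exact (isUnit_pow_iff hm).1 this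
      obtain ⟨u, rfl⟩ := hc'
      exact ⟨((u⁻¹ : (R ⧸ P)ˣ) : R ⧸ P), by rw [hc, mul_assoc, Units.mul_inv, mul_one]⟩
  obtain ⟨c, hc⟩ := key
  obtain ⟨r, rfl⟩ := Ideal.Quotient.mk_surjective c
  refine ⟨r, r.2, ?_⟩
  rw [← map_mul, Ideal.Quotient.eq, hP] at hc
  have h3 : ((a - s' * r : R) : F) = s * (y - r) := by
    push_cast
    ring
  rw [h3, map_mul, hs1, one_mul] at hc
  exact hc

end Fermat.Agent.S36.BP

end
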