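/-
S36, block BP, node DATUM (owner helper163): existence of gluing data at crossing points;
triviality at points lying on one component.
-/
import Mathlib
import Fermat.Agent.S18.Defs
import Fermat.Agent.S36.BP.Defs
import Fermat.Agent.S36.BP.Base
import Fermat.Agent.S36.BP.Normal

set_option autoImplicit false

noncomputable section

namespace Fermat.Agent.S36.BP

open Fermat.Agent.S18 IntermediateField

namespace DatumAux

section API

variable {F : Type*} [Field F] {R : Subring F}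

theorem rUnit_one : RUnit R (1 : F) := ⟨one_ne_zero, R.one_mem, by rw [inv_one]; exact R.one_mem⟩

theorem rUnit_inv {y : F} (h : RUnit R y) : RUnit R y⁻¹ :=
  ⟨inv_ne_zero h.1, h.2.2, by rw [inv_inv]; exact h.2.1⟩

theorem rUnit_mul {y z : F} (h : RUnit R y) (h' : RUnit R z) : RUnit R (y * z) :=
  ⟨mul_ne_zero h.1 h'.1, R.mul_mem h.2.1 h'.2.1, by
    rw [mul_inv]; exact R.mul_mem h.2.2 h'.2.2⟩

theorem rUnit_div {y z : F} (h : RUnit R y) (h' : RUnit R z) : RUnit R (y / z) := by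
  rw [div_eq_mul_inv]; exact rUnit_mul h (rUnit_inv h')

theorem rUnit_pow {y : F} (h : RUnit R y) (n : ℕ) : RUnit R (y ^ n) :=
  ⟨pow_ne_zero _ h.1, R.pow_mem h.2.1 n, by rw [← inv_pow]; exact R.pow_mem h.2.2 n⟩

theorem rUnit_of_pow {r : F} {n : ℕ} (hn : n ≠ 0) (hr : r ∈ R) (h : RUnit R (r ^ n)) :
    RUnit R r := by
  have hr0 : r ≠ 0 := by
    rintro rfl
    exact h.1 (zero_pow hn)
  refine ⟨hr0, hr, ?_⟩
  obtain ⟨k, rfl⟩ := Nat.exists_eq_succ_of_ne_zero hn
  have : r⁻¹ = r ^ k * (r ^ (k + 1))⁻¹ := by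
    rw [pow_succ]; field_simp
  rw [this]
  exact R.mul_mem (R.pow_mem hr k) h.2.2

theorem zero_mem_rad : (0 : F) ∈ rad R := ⟨R.zero_mem, fun h => h.1 rfl⟩

theorem mem_of_mem_rad {y : F} (h : y ∈ rad R) : y ∈ R := h.1

theorem mul_mem_rad {r y : F} (hr : r ∈ R) (hy : y ∈ rad R) : r * y ∈ rad R := by
  refine ⟨R.mul_mem hr hy.1, fun h => hy.2 ?_⟩
  have hy0 : y ≠ 0 := right_ne_zero_of_mul h.1
  have hr0 : r ≠ 0 := left_ne_zero_of_mul h.1
  refine ⟨hy0, hy.1, ?_⟩
  have : y⁻¹ = r * (r * y)⁻¹ := by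
    rw [mul_inv]; field_simp
  rw [this]
  exact R.mul_mem hr h.2.2

theorem neg_mem_rad {y : F} (hy : y ∈ rad R) : -y ∈ rad R := by
  have := mul_mem_rad (R.neg_mem R.one_mem) hy
  simpa using this

theorem mem_rad_of_valuation_lt_one {V : ValuationSubring F} (hle : ∀ r ∈ R, r ∈ V) {y : F}
    (hy : y ∈ R) (h : V.valuation y < 1) : y ∈ rad R := by
  refine ⟨hy, fun hu => ?_⟩
  have h1 : V.valuation y⁻¹ ≤ 1 := (V.valuation_le_one_iff _).mpr (hle _ hu.2.2)
  have h0 : V.valuation y ≠ 0 := (Valuation.ne_zero_iff _).mpr hu.1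
  rw [map_inv₀, inv_le_one₀ (zero_lt_iff.mpr h0)] at h1
  exact absurd h (not_lt.mpr h1)

theorem valuation_eq_one_of_mem {V : ValuationSubring F} {y : F} (h0 : y ≠ 0) (h1 : y ∈ V)
    (h2 : y⁻¹ ∈ V) : V.valuation y = 1 := by
  have a1 : V.valuation y ≤ 1 := (V.valuation_le_one_iff _).mpr h1
  have a2 : V.valuation y⁻¹ ≤ 1 := (V.valuation_le_one_iff _).mpr h2
  have a0 : V.valuation y ≠ 0 := (Valuation.ne_zero_iff _).mpr h0
  rw [map_inv₀, inv_le_one₀ (zero_lt_iff.mpr a0)] at a2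
  exact le_antisymm a1 a2

theorem valuation_eq_one_of_rUnit {V : ValuationSubring F} (hle : ∀ r ∈ R, r ∈ V) {y : F}
    (h : RUnit R y) : V.valuation y = 1 :=
  valuation_eq_one_of_mem h.1 (hle _ h.2.1) (hle _ h.2.2)

theorem mem_of_valuation_eq_one {V : ValuationSubring F} {y : F} (h : V.valuation y = 1) :
    y ∈ V := (V.valuation_le_one_iff _).mp h.le

theorem inv_mem_of_valuation_eq_one {V : ValuationSubring F} {y : F} (h : V.valuation y = 1) :
    y⁻¹ ∈ V := (V.valuation_le_one_iff _).mp (by rw [map_inv₀, h, inv_one])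

theorem not_through_of_away {V : ValuationSubring F} (hA : Away R V) : ¬ Through R V := by
  rintro hT
  obtain ⟨e, he, hlt⟩ := hA
  rw [valuation_eq_one_of_rUnit hT.le he] at hlt
  exact lt_irrefl _ hlt

end API

section Pt

variable {K₀ F : Type*} [Field K₀] [Field F] [Algebra K₀ F] {A₀ : ValuationSubring K₀}
  {R : Subring F}

theorem sub_mem_rad (hR : IsPt A₀ R) {a b : F} (ha : a ∈ rad R) (hb : b ∈ rad R) :
    a - b ∈ rad R := by
  rw [sub_eq_add_neg]; exact hR.add_rad _ ha _ (neg_mem_rad hb)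

theorem rUnit_add_rad (hR : IsPt A₀ R) {ε y : F} (hε : RUnit R ε) (hy : y ∈ rad R) :
    RUnit R (ε + y) := by
  by_contra hcon
  have h1 : ε + y ∈ rad R := ⟨R.add_mem hε.2.1 hy.1, hcon⟩
  have h2 := sub_mem_rad hR h1 hy
  rw [add_sub_cancel_right] at h2
  exact h2.2 hε

theorem rUnit_const (hR : IsPt A₀ R) {a : K₀} (ha : A₀.valuation a = 1) :
    RUnit R (algebraMap K₀ F a) := by
  have ha0 : a ≠ 0 := by
    rintro rfl
    rw [map_zero] at ha
    exact zero_ne_one ha
  refine ⟨by simpa using ha0, hR.const_mem _ (mem_of_valuation_eq_one ha), ?_⟩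
  rw [← map_inv₀]
  exact hR.const_mem _ (inv_mem_of_valuation_eq_one ha)

theorem valuation_lt_one_of_const_mem_rad (hR : IsPt A₀ R) {a : K₀} (ha : a ∈ A₀)
    (h : algebraMap K₀ F a ∈ rad R) : A₀.valuation a < 1 := by
  have h1 : A₀.valuation a ≤ 1 := (A₀.valuation_le_one_iff _).mpr ha
  rcases h1.lt_or_eq with h2 | h2
  · exact h2
  · exact absurd (rUnit_const hR h2) h.2

theorem pow_sub_pow_mem_rad {a b : F} (ha : a ∈ R) (hb : b ∈ R) (h : a - b ∈ rad R) (n : ℕ) :
    a ^ n - b ^ n ∈ rad R := by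
  rw [← (Commute.all a b).geom_sum₂_mul n]
  exact mul_mem_rad (R.sum_mem fun i _ => R.mul_mem (R.pow_mem ha _) (R.pow_mem hb _)) h

end Pt

section Val

variable {F : Type*} [Field F] (V : ValuationSubring F)

/-- `(g₀ / l) ^ n ≡ g₀ ^ n * u` when `l ^ n * u ≡ 1` and `g₀ ^ n * u ∈ V`. -/
theorem div_pow_sub_lt_one {g₀ l u : F} {n : ℕ} (hl : V.valuation l = 1)
    (hlu : V.valuation (l ^ n * u - 1) < 1) (hε : g₀ ^ n * u ∈ V) :
    V.valuation ((g₀ / l) ^ n - g₀ ^ n * u) < 1 := by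
  have hl0 : l ≠ 0 := by
    rintro rfl
    rw [map_zero] at hl
    exact zero_ne_one hl
  have e : (g₀ / l) ^ n - g₀ ^ n * u = -((g₀ / l) ^ n * (l ^ n * u - 1)) := by
    rw [div_pow]; field_simp; ring
  -- `(g₀ / l) ^ n = ε / (l ^ n u)` lies in `V`
  have h1 : V.valuation (l ^ n * u) = 1 := by
    have := Valuation.map_add_eq_of_lt_right V.valuation
      (x := l ^ n * u - 1) (y := 1) (by rwa [map_one])
    rwa [sub_add_cancel, map_one] at this
  have hu : V.valuation u = 1 := by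
    rwa [map_mul, map_pow, hl, one_pow, one_mul] at h1
  have h2 : V.valuation ((g₀ / l) ^ n) ≤ 1 := by
    have h3 : V.valuation (g₀ ^ n * u) ≤ 1 := (V.valuation_le_one_iff _).mpr hε
    rw [map_mul, hu, mul_one] at h3
    rwa [div_pow, map_div₀, map_pow V.valuation l, hl, one_pow, div_one]
  rw [e, Valuation.map_neg, map_mul]
  exact lt_of_le_of_lt (mul_le_of_le_one_left zero_le h2) hlu

theorem pow_sub_pow_lt_one {y r : F} (hr : r ∈ V) (h : V.valuation (y - r) < 1) (n : ℕ) :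
    V.valuation (y ^ n - r ^ n) < 1 := by
  have hy : y ∈ V := by
    have : y = (y - r) + r := by ring
    rw [this]
    exact V.add_mem _ _ ((V.valuation_le_one_iff _).mp h.le) hr
  rw [← (Commute.all y r).geom_sum₂_mul n, map_mul]
  have h1 : V.valuation (∑ i ∈ Finset.range n, y ^ i * r ^ (n - 1 - i)) ≤ 1 :=
    (V.valuation_le_one_iff _).mpr
      (sum_mem fun i _ => V.mul_mem _ _ (pow_mem hy _) (pow_mem hr _))
  exact lt_of_le_of_lt (mul_le_of_le_one_left zero_le h1) h

theorem add_lt_one {a b : F} (ha : V.valuation a < 1) (hb : V.valuation b < 1) :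
    V.valuation (a + b) < 1 :=
  lt_of_le_of_lt (V.valuation.map_add a b) (max_lt ha hb)

theorem div_lt_one {a b : F} (ha : V.valuation a < 1) (hb : V.valuation b = 1) :
    V.valuation (a / b) < 1 := by
  rwa [map_div₀, hb, div_one]

end Val

section Rep

variable {K₀ F : Type*} [Field K₀] [Field F] [Algebra K₀ F] {A₀ : ValuationSubring K₀}
  {R : Subring F}

/-- the common first step: `g₀ / l` is congruent to an element `r` of `R` with
`r ^ n ≡ g₀ ^ n * u` modulo the radical. -/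
theorem exists_rep (hR : IsPt A₀ R) {W : ValuationSubring F} (hT : Through R W) {n : ℕ}
    (hn : n ≠ 0) {u l g₀ : F} (hl : W.valuation l = 1) (hlu : W.valuation (l ^ n * u - 1) < 1)
    (hg₀ : RUnit R (g₀ ^ n * u)) :
    ∃ r ∈ R, W.valuation (g₀ / l - r) < 1 ∧ r ^ n - g₀ ^ n * u ∈ rad R := by
  have h1 := div_pow_sub_lt_one W hl hlu (hT.le _ hg₀.2.1)
  obtain ⟨r, hr, hlt⟩ := Through.normal hR hT hn hg₀.2.1 h1
  refine ⟨r, hr, hlt, ?_⟩
  apply mem_rad_of_valuation_lt_one hT.le (R.sub_mem (R.pow_mem hr n) hg₀.2.1)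
  have h2 := pow_sub_pow_lt_one W (hT.le _ hr) hlt n
  have e : r ^ n - g₀ ^ n * u = -((g₀ / l) ^ n - r ^ n) + ((g₀ / l) ^ n - g₀ ^ n * u) := by ring
  rw [e]
  exact add_lt_one W (by rwa [Valuation.map_neg]) h1

end Rep

end DatumAux

variable {K₀ F : Type*} [Field K₀] [Field F] [Algebra K₀ F]

variable {A₀ : ValuationSubring K₀} {q : ℕ} {V : Fin 3 → ValuationSubring F}

section DATUM

open DatumAux

/-- existence of a gluing datum at a crossing point. -/
theorem exists_datum (hb : BaseHyp A₀ q) {R : Subring F} (hR : IsPt A₀ R)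
    (hT : ∀ c, Through R (V c)) {n : ℕ} (hn : ¬ q ∣ n) {u : F} {lam : Fin 3 → F}
    (hlam : ∀ c, (V c).valuation (lam c) = 1)
    (hlu : ∀ c, (V c).valuation (lam c ^ n * u - 1) < 1) {g₀ : F} (hg₀ : RUnit R (g₀ ^ n * u)) :
    ∃ (g : F) (ζ : Fin 3 → K₀), (∀ c, ζ c ^ n = 1) ∧ Datum V R n u lam g ζ := by
  have hn0 : n ≠ 0 := by
    rintro rfl
    exact hn (dvd_zero q)
  -- the constant `a ≡ ε`
  obtain ⟨a, haA, ha⟩ := hR.res _ hg₀.2.1
  have ha1 : A₀.valuation a = 1 := by
    have h1 : A₀.valuation a ≤ 1 := (A₀.valuation_le_one_iff _).mpr haA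
    rcases h1.lt_or_eq with h2 | h2
    · exfalso
      have h3 := hR.add_rad _ ha _ (hR.const_rad a h2)
      rw [sub_add_cancel] at h3
      exact h3.2 hg₀
    · exact h2
  obtain ⟨b, hba⟩ := hb.root n hn a ha1
  have hb1 : A₀.valuation b = 1 := by
    have h1 : A₀.valuation b ^ n = 1 := by rw [← map_pow, hba, ha1]
    exact (pow_eq_one_iff_of_nonneg zero_le hn0).mp h1
  have hbU : RUnit R (algebraMap K₀ F b) := rUnit_const hR hb1
  have haU : RUnit R (algebraMap K₀ F a) := rUnit_const hR ha1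
  have hbF : algebraMap K₀ F b ^ n = algebraMap K₀ F a := by rw [← map_pow, hba]
  -- the local statement for each component
  have key : ∀ c, ∃ ζ : K₀, ζ ^ n = 1 ∧ ∃ r ∈ R,
      (V c).valuation (g₀ / algebraMap K₀ F b / lam c - r) < 1 ∧
        r - algebraMap K₀ F ζ ∈ rad R := by
    intro c
    obtain ⟨r, hr, hlt, hrad⟩ := exists_rep hR (hT c) hn0 (hlam c) (hlu c) hg₀
    have hr' : r / algebraMap K₀ F b ∈ R := by
      rw [div_eq_mul_inv]; exact R.mul_mem hr hbU.2.2
    -- `(r / b) ^ n - 1 ∈ rad R`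
    have h1 : (r / algebraMap K₀ F b) ^ n - 1 ∈ rad R := by
      have h2 : r ^ n - algebraMap K₀ F a ∈ rad R := by
        have := hR.add_rad _ hrad _ ha
        rwa [sub_add_sub_cancel] at this
      have e : (r / algebraMap K₀ F b) ^ n - 1 =
          (algebraMap K₀ F a)⁻¹ * (r ^ n - algebraMap K₀ F a) := by
        rw [div_pow, hbF]
        have := haU.1
        field_simp
      rw [e]
      exact mul_mem_rad haU.2.2 h2
    obtain ⟨ac, hacA, hac⟩ := hR.res _ hr'
    have hacR : algebraMap K₀ F ac ∈ R := hR.const_mem _ hacA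
    have h3 : algebraMap K₀ F (ac ^ n - 1) ∈ rad R := by
      have h4 := pow_sub_pow_mem_rad hr' hacR hac n
      have h5 := sub_mem_rad hR h1 h4
      have e : algebraMap K₀ F (ac ^ n - 1) = (r / algebraMap K₀ F b) ^ n - 1 -
          ((r / algebraMap K₀ F b) ^ n - algebraMap K₀ F ac ^ n) := by
        rw [map_sub, map_pow, map_one]; ring
      rw [e]
      exact h5
    have h6 : A₀.valuation (ac ^ n - 1) < 1 :=
      valuation_lt_one_of_const_mem_rad hR (A₀.sub_mem (pow_mem hacA n) A₀.one_mem) h3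
    obtain ⟨κ, hκ, hκlt⟩ := hb.exists_root_of_unity_congr (F := K₀) hn A₀
      (fun a ha => ha) h6
    refine ⟨κ, hκ, r / algebraMap K₀ F b, hr', ?_, ?_⟩
    · have e : g₀ / algebraMap K₀ F b / lam c - r / algebraMap K₀ F b =
          (g₀ / lam c - r) / algebraMap K₀ F b := by
        have := hbU.1
        field_simp
      rw [e]
      exact div_lt_one _ hlt (valuation_eq_one_of_rUnit (hT c).le hbU)
    · have h7 : algebraMap K₀ F (ac - κ) ∈ rad R := hR.const_rad _ hκlt
      have := hR.add_rad _ hac _ h7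
      rwa [map_sub, sub_add_sub_cancel] at this
  choose ζ hζ hrep using key
  refine ⟨g₀ / algebraMap K₀ F b, ζ, hζ, ?_, hrep⟩
  have e : (g₀ / algebraMap K₀ F b) ^ n * u = g₀ ^ n * u / algebraMap K₀ F a := by
    rw [div_pow, hbF]; ring
  rw [e]
  exact rUnit_div hg₀ haU

/-- at a point lying on one component only, the gluing datum is trivial. -/
theorem trivDatum_of_single {R : Subring F} (hR : IsPt A₀ R) {c₀ : Fin 3}
    (hA : ∀ c, c ≠ c₀ → Away R (V c)) {n : ℕ} (hn : n ≠ 0) {u : F} {lam : Fin 3 → F}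
    (hlam : ∀ c, (V c).valuation (lam c) = 1)
    (hlu : ∀ c, (V c).valuation (lam c ^ n * u - 1) < 1) {g₀ : F} (hg₀ : RUnit R (g₀ ^ n * u)) :
    TrivDatum V R n u lam := by
  have honly : ∀ c, Through R (V c) → c = c₀ := by
    intro c hc
    by_contra hne
    exact not_through_of_away (hA c hne) hc
  by_cases hT : Through R (V c₀)
  · obtain ⟨r, hr, hlt, hrad⟩ := exists_rep hR hT hn (hlam c₀) (hlu c₀) hg₀
    have hrn : RUnit R (r ^ n) := by
      have := rUnit_add_rad hR hg₀ hrad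
      rwa [add_sub_cancel] at this
    have hrU : RUnit R r := rUnit_of_pow hn hr hrn
    refine ⟨g₀ / r, ?_, ?_⟩
    · have e : (g₀ / r) ^ n * u = g₀ ^ n * u / r ^ n := by
        rw [div_pow]; ring
      rw [e]
      exact rUnit_div hg₀ hrn
    · intro c hc
      obtain rfl := honly c hc
      refine ⟨1, R.one_mem, ?_, by rw [sub_self]; exact zero_mem_rad⟩
      have e : g₀ / r / lam c - 1 = (g₀ / lam c - r) / r := by
        have := hrU.1
        field_simp
      rw [e]
      exact div_lt_one _ hlt (valuation_eq_one_of_rUnit hT.le hrU)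
  · exact ⟨g₀, hg₀, fun c hc => absurd (honly c hc ▸ hc) hT⟩

end DATUM

end Fermat.Agent.S36.BP
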