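/-
S36, block BP, node BP-HOL1 (helper204): the norm-holonomy relation `Half.relation`.
-/
import Mathlib
import Fermat.Agent.S18.Defs
import Fermat.Agent.S36.BP.Defs
import Fermat.Agent.S36.BP.Base

set_option autoImplicit false
set_option linter.unusedVariables false

noncomputable section

namespace Fermat.Agent.S36.BP

open Fermat.Agent.S18

namespace Hol

section Cg

variable {F : Type*} [Field F] {V : ValuationSubring F} {a a' b b' c : F}

/-- congruence modulo the maximal ideal of `V` -/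
def Cg (V : ValuationSubring F) (a b : F) : Prop := V.valuation (a - b) < 1

theorem Cg.refl (a : F) : Cg V a a := by
  unfold Cg
  rw [sub_self, map_zero]
  exact zero_lt_one

theorem Cg.symm (h : Cg V a b) : Cg V b a := by
  unfold Cg at *
  rwa [← neg_sub, Valuation.map_neg]

theorem Cg.trans (h : Cg V a b) (h' : Cg V b c) : Cg V a c := by
  unfold Cg at *
  have := Valuation.map_add_lt _ h h'
  rwa [sub_add_sub_cancel] at this

theorem Cg.le_one (h : Cg V a b) (hb : V.valuation b ≤ 1) : V.valuation a ≤ 1 := by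
  have e : a = (a - b) + b := by ring
  rw [e]
  exact Valuation.map_add_le _ (le_of_lt h) hb

theorem Cg.eq_one (h : Cg V a b) (hb : V.valuation b = 1) : V.valuation a = 1 := by
  have e : a = b + (a - b) := by ring
  rw [e, Valuation.map_add_eq_of_lt_left _ (by rw [hb]; exact h), hb]

theorem Cg.mul (h : Cg V a a') (h' : Cg V b b') (ha' : V.valuation a' ≤ 1)
    (hb : V.valuation b ≤ 1) : Cg V (a * b) (a' * b') := by
  unfold Cg at *
  have e : a * b - a' * b' = (a - a') * b + a' * (b - b') := by ring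
  rw [e]
  refine Valuation.map_add_lt _ ?_ ?_
  · rw [map_mul]
    exact mul_lt_one_of_lt_of_le h hb
  · rw [map_mul, mul_comm]
    exact mul_lt_one_of_lt_of_le h' ha'

theorem Cg.pow (h : Cg V a a') (ha' : V.valuation a' ≤ 1) (k : ℕ) : Cg V (a ^ k) (a' ^ k) := by
  induction k with
  | zero => simpa using Cg.refl (V := V) (1 : F)
  | succ k ih =>
    rw [pow_succ, pow_succ]
    exact ih.mul h (by rw [map_pow]; exact pow_le_one' ha' k) (h.le_one ha')

theorem le_one_of_mem (h : a ∈ V) : V.valuation a ≤ 1 := (V.valuation_le_one_iff a).mpr h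

theorem lt_one_iff_inv_notMem (ha : a ≠ 0) : V.valuation a < 1 ↔ a⁻¹ ∉ V := by
  have h0 : 0 < V.valuation a := zero_lt_iff.mpr ((Valuation.ne_zero_iff _).mpr ha)
  rw [← V.valuation_le_one_iff, map_inv₀, inv_le_one₀ h0, not_le]

end Cg

section Rad

variable {F : Type*} [Field F] {R : Subring F} {a a' b b' c : F}

theorem rad_of_lt {V : ValuationSubring F} (hle : ∀ r ∈ R, r ∈ V) {y : F} (hy : y ∈ R)
    (h : V.valuation y < 1) : y ∈ rad R :=
  ⟨hy, fun hu => (lt_one_iff_inv_notMem hu.1).mp h (hle _ hu.2.2)⟩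

theorem val_eq_one_of_runit {V : ValuationSubring F} (hle : ∀ r ∈ R, r ∈ V) {y : F}
    (hy : RUnit R y) : V.valuation y = 1 := by
  refine le_antisymm (le_one_of_mem (hle _ hy.2.1)) (not_lt.mp fun h => ?_)
  exact (lt_one_iff_inv_notMem hy.1).mp h (hle _ hy.2.2)

theorem zero_mem_rad : (0 : F) ∈ rad R := ⟨R.zero_mem, fun hu => hu.1 rfl⟩

theorem rad_mul (ha : a ∈ rad R) {r : F} (hr : r ∈ R) : r * a ∈ rad R := by
  refine ⟨R.mul_mem hr ha.1, fun hu => ha.2 ?_⟩
  have ha0 : a ≠ 0 := right_ne_zero_of_mul hu.1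
  have hr0 : r ≠ 0 := left_ne_zero_of_mul hu.1
  refine ⟨ha0, ha.1, ?_⟩
  have e : a⁻¹ = r * (r * a)⁻¹ := by
    field_simp
  rw [e]
  exact R.mul_mem hr hu.2.2

theorem rad_neg (ha : a ∈ rad R) : -a ∈ rad R := by
  have := rad_mul ha (R.neg_mem R.one_mem)
  simpa using this

/-- congruence modulo the nonunits of `R` -/
def CgR (R : Subring F) (a b : F) : Prop := a - b ∈ rad R

theorem CgR.refl (a : F) : CgR R a a := by
  unfold CgR
  rw [sub_self]
  exact zero_mem_rad

theorem CgR.symm (h : CgR R a b) : CgR R b a := by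
  unfold CgR at *
  rw [← neg_sub]
  exact rad_neg h

variable (hadd : ∀ a ∈ rad R, ∀ b ∈ rad R, a + b ∈ rad R)
include hadd

theorem CgR.trans (h : CgR R a b) (h' : CgR R b c) : CgR R a c := by
  have := hadd _ h _ h'
  rwa [sub_add_sub_cancel] at this

theorem CgR.mul (h : CgR R a a') (h' : CgR R b b') (ha' : a' ∈ R) (hb : b ∈ R) :
    CgR R (a * b) (a' * b') := by
  have e : a * b - a' * b' = b * (a - a') + a' * (b - b') := by ring
  unfold CgR
  rw [e]
  exact hadd _ (rad_mul h hb) _ (rad_mul h' ha')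

theorem CgR.pow (h : CgR R a a') (ha : a ∈ R) (ha' : a' ∈ R) (k : ℕ) :
    CgR R (a ^ k) (a' ^ k) := by
  induction k with
  | zero => simpa using CgR.refl (R := R) (1 : F)
  | succ k ih =>
    rw [pow_succ, pow_succ]
    exact CgR.mul hadd ih h (R.pow_mem ha' k) ha

end Rad

section HalfLemmas

variable {F : Type*} [Field F] {q : ℕ} {ϖm : F} {E : Subfield F} {N : F →* F}
  {Va Vm Vb : ValuationSubring F}

theorem lt_one_iff (H : Half q ϖm E N Va Vm Vb) {y : F} (hy : y ∈ E) :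
    Va.valuation y < 1 ↔ Vm.valuation y < 1 := by
  by_cases h0 : y = 0
  · subst h0
    simp
  · rw [lt_one_iff_inv_notMem h0, lt_one_iff_inv_notMem h0, H.compat _ (E.inv_mem hy)]

theorem eq_one_iff (H : Half q ϖm E N Va Vm Vb) {y : F} (hy : y ∈ E) :
    Va.valuation y = 1 ↔ Vm.valuation y = 1 := by
  have h1 : Va.valuation y ≤ 1 ↔ Vm.valuation y ≤ 1 := by
    rw [Va.valuation_le_one_iff, Vm.valuation_le_one_iff, H.compat _ hy]
  have h2 := lt_one_iff H hy
  constructor
  · intro h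
    exact le_antisymm (h1.mp h.le) (not_lt.mp fun h' => absurd (h2.mpr h') (by rw [h]; exact lt_irrefl _))
  · intro h
    exact le_antisymm (h1.mpr h.le) (not_lt.mp fun h' => absurd (h2.mp h') (by rw [h]; exact lt_irrefl _))

end HalfLemmas

end Hol

open Hol

variable {K₀ F : Type*} [Field K₀] [Field F] [Algebra K₀ F]

variable {A₀ : ValuationSubring K₀} {q : ℕ} {ϖm : F}

/-- **Norm-holonomy relation** for one degeneracy map: `κ` does not depend on the point. -/
theorem Half.relation (hb : BaseHyp A₀ q) {E : Subfield F} {N : F →* F}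
    {Va Vm Vb : ValuationSubring F} (H : Half q ϖm E N Va Vm Vb)
    (hca : ∀ a ∈ A₀, algebraMap K₀ F a ∈ Va) (hcb : ∀ a ∈ A₀, algebraMap K₀ F a ∈ Vb)
    {n : ℕ} (hn : ¬ q ∣ n) {u la lm lb w : F}
    (hua : Va.valuation u = 1) (hum : Vm.valuation u = 1) (hub : Vb.valuation u = 1)
    (hla : Va.valuation la = 1) (hlm : Vm.valuation lm = 1) (hlb : Vb.valuation lb = 1)
    (ha : Va.valuation (la ^ n * u - 1) < 1) (hm : Vm.valuation (lm ^ n * u - 1) < 1)
    (hb' : Vb.valuation (lb ^ n * u - 1) < 1) (hw : w ∈ E) (hN : N u = w ^ n) :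
    ∃ κ : K₀, κ ^ n = 1 ∧ ∀ (R : Subring F), IsPt A₀ R → (∀ r ∈ R, r ∈ Va) → (∀ r ∈ R, r ∈ Vm) →
      (∀ r ∈ R, r ∈ Vb) → HalfPt E N Va Vm R → ∀ (g : F) (ζa ζm ζb : K₀),
      ζa ^ n = 1 → ζm ^ n = 1 → ζb ^ n = 1 → RUnit R (g ^ n * u) →
      (∃ r ∈ R, Va.valuation (g / la - r) < 1 ∧ r - algebraMap K₀ F ζa ∈ rad R) →
      (∃ r ∈ R, Vm.valuation (g / lm - r) < 1 ∧ r - algebraMap K₀ F ζm ∈ rad R) →
      (∃ r ∈ R, Vb.valuation (g / lb - r) < 1 ∧ r - algebraMap K₀ F ζb ∈ rad R) →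
      ζa * ζm ^ (q - 1) = κ * ζb ^ q := by
  have hn0 : n ≠ 0 := by
    rintro rfl
    exact hn (dvd_zero q)
  -- approximations in `E`
  obtain ⟨la', hla'E, cla⟩ := H.dense_a la ((Va.valuation_le_one_iff _).mp hla.le)
  obtain ⟨ua', hua'E, cua⟩ := H.dense_a u ((Va.valuation_le_one_iff _).mp hua.le)
  obtain ⟨lm', hlm'E, clm⟩ := H.dense_m lm ((Vm.valuation_le_one_iff _).mp hlm.le)
  obtain ⟨um', hum'E, cum⟩ := H.dense_m u ((Vm.valuation_le_one_iff _).mp hum.le)
  change Cg Va la' la at cla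
  change Cg Va ua' u at cua
  change Cg Vm lm' lm at clm
  change Cg Vm um' u at cum
  change Cg Va (la ^ n * u) 1 at ha
  change Cg Vm (lm ^ n * u) 1 at hm
  change Cg Vb (lb ^ n * u) 1 at hb'
  have vla' : Va.valuation la' = 1 := cla.eq_one hla
  have vua' : Va.valuation ua' = 1 := cua.eq_one hua
  have vlm'm : Vm.valuation lm' = 1 := clm.eq_one hlm
  have vum'm : Vm.valuation um' = 1 := cum.eq_one hum
  have vlm' : Va.valuation lm' = 1 := (eq_one_iff H hlm'E).mpr vlm'm
  have vum' : Va.valuation um' = 1 := (eq_one_iff H hum'E).mpr vum'm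
  -- the norm of `u` at `Va`
  have cNu : Cg Va (N u) (ua' * um' ^ (q - 1)) :=
    H.res_a u ua' um' hua hum hua'E hum'E cua cum
  have vNu : Va.valuation (N u) = 1 :=
    cNu.eq_one (by rw [map_mul, map_pow, vua', vum', one_pow, one_mul])
  have vw : Va.valuation w = 1 := by
    rw [hN, map_pow] at vNu
    exact (pow_eq_one_iff.mp vNu).resolve_right hn0
  set T : F := la' * lm' ^ (q - 1) * w with hT
  have cT : Cg Va (T ^ n) 1 := by
    have e1 : T ^ n = (la' ^ n) * (lm' ^ n) ^ (q - 1) * N u := by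
      rw [hT, hN]
      ring
    have c1 : Cg Va (la' ^ n * ua') 1 :=
      ((cla.pow hla.le n).mul cua (by rw [map_pow, hla, one_pow]) vua'.le).trans ha
    have c2m : Cg Vm (lm' ^ n * um') 1 :=
      ((clm.pow hlm.le n).mul cum (by rw [map_pow, hlm, one_pow]) vum'm.le).trans hm
    have c2 : Cg Va (lm' ^ n * um') 1 :=
      (lt_one_iff H (E.sub_mem (E.mul_mem (E.pow_mem hlm'E n) hum'E) E.one_mem)).mpr c2m
    have c3 : Cg Va (T ^ n) ((la' ^ n * ua') * (lm' ^ n * um') ^ (q - 1)) := by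
      have e2 : (la' ^ n * ua') * (lm' ^ n * um') ^ (q - 1) =
          (la' ^ n) * (lm' ^ n) ^ (q - 1) * (ua' * um' ^ (q - 1)) := by ring
      rw [e1, e2]
      exact (Cg.refl _).mul cNu
        (by simp only [map_mul, map_pow, vla', vlm', one_pow, mul_one, le_refl]) vNu.le
    have c4 : Cg Va ((la' ^ n * ua') * (lm' ^ n * um') ^ (q - 1)) (1 * 1 ^ (q - 1)) :=
      c1.mul (c2.pow (by rw [map_one]) _) (by rw [map_one])
        (by simp only [map_mul, map_pow, vum', vlm', one_pow, mul_one, le_refl])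
    have c5 := c3.trans c4
    rwa [one_pow, mul_one] at c5
  obtain ⟨κa, hκa, cκa⟩ := hb.exists_root_of_unity_congr hn Va hca cT
  change Cg Va T (algebraMap K₀ F κa) at cκa
  -- the norm of `u` at `Vb`
  have cNub : Cg Vb (N u) (u ^ q) := H.res_b u hub
  have vNub : Vb.valuation (N u) = 1 := cNub.eq_one (by rw [map_pow, hub, one_pow])
  have vwb : Vb.valuation w = 1 := by
    rw [hN, map_pow] at vNub
    exact (pow_eq_one_iff.mp vNub).resolve_right hn0
  set T' : F := lb ^ q * w with hT'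
  have cT' : Cg Vb (T' ^ n) 1 := by
    have e1 : T' ^ n = (lb ^ n) ^ q * N u := by
      rw [hT', hN]
      ring
    have e2 : (lb ^ n * u) ^ q = (lb ^ n) ^ q * u ^ q := by ring
    have c1 : Cg Vb (T' ^ n) ((lb ^ n * u) ^ q) := by
      rw [e1, e2]
      exact (Cg.refl _).mul cNub (by simp only [map_pow, hlb, one_pow, le_refl]) vNub.le
    have c2 : Cg Vb ((lb ^ n * u) ^ q) (1 ^ q) := hb'.pow (by rw [map_one]) q
    have c3 := c1.trans c2
    rwa [one_pow] at c3
  obtain ⟨κb, hκb, cκb⟩ := hb.exists_root_of_unity_congr hn Vb hcb cT'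
  change Cg Vb T' (algebraMap K₀ F κb) at cκb
  have hκa0 : κa ≠ 0 := by
    rintro rfl
    rw [zero_pow hn0] at hκa
    exact zero_ne_one hκa
  refine ⟨κb * κa⁻¹, by rw [mul_pow, inv_pow, hκa, hκb, inv_one, mul_one], ?_⟩
  intro R hR hRa hRm hRb HP g ζa ζm ζb hζa hζm hζb hgu
  rintro ⟨ra, hraR, cra, hra⟩ ⟨rm, hrmR, crm, hrm⟩ ⟨rb, hrbR, crb, hrb⟩
  change Cg Va (g / la) ra at cra
  change Cg Vm (g / lm) rm at crm
  change Cg Vb (g / lb) rb at crb
  change CgR R ra (algebraMap K₀ F ζa) at hra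
  change CgR R rm (algebraMap K₀ F ζm) at hrm
  change CgR R rb (algebraMap K₀ F ζb) at hrb
  have hadd := hR.add_rad
  -- roots of unity are units of `A₀`
  have rootA : ∀ {ζ : K₀}, ζ ^ n = 1 → A₀.valuation ζ = 1 := by
    intro ζ hζ
    have := congrArg A₀.valuation hζ
    rw [map_pow, map_one] at this
    exact (pow_eq_one_iff.mp this).resolve_right hn0
  have rootR : ∀ {ζ : K₀}, ζ ^ n = 1 → algebraMap K₀ F ζ ∈ R := fun hζ =>
    hR.const_mem _ ((A₀.valuation_le_one_iff _).mp (rootA hζ).le)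
  -- `g` is a unit at the three valuations
  have vg : ∀ {V : ValuationSubring F}, (∀ r ∈ R, r ∈ V) → V.valuation u = 1 →
      V.valuation g = 1 := by
    intro V hV hu
    have := val_eq_one_of_runit hV hgu
    rw [map_mul, map_pow, hu, mul_one] at this
    exact (pow_eq_one_iff.mp this).resolve_right hn0
  have vga := vg hRa hua
  have vgm := vg hRm hum
  have vgb := vg hRb hub
  -- the element `ρ`
  set ρ : F := N g * w with hρ
  have hρn : ρ ^ n = N (g ^ n * u) := by
    rw [hρ, mul_pow, ← hN, map_mul, map_pow]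
  have hρu : RUnit R (ρ ^ n) := hρn ▸ HP.norm_unit _ hgu
  have hρR : ρ ∈ R := by
    refine hR.intClosed ρ (IsIntegral.of_pow (Nat.pos_of_ne_zero hn0) ?_)
    exact isIntegral_algebraMap (x := (⟨ρ ^ n, hρu.2.1⟩ : R))
  obtain ⟨ra', hra'R, hra'E, cra'⟩ := HP.dense_a ra hraR
  obtain ⟨rm', hrm'R, hrm'E, crm'⟩ := HP.dense_m rm hrmR
  change Cg Va ra' ra at cra'
  change Cg Vm rm' rm at crm'
  have nz : ∀ {V : ValuationSubring F} {y : F}, V.valuation y = 1 → y ≠ 0 := by
    intro V y hy h0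
    rw [h0, map_zero] at hy
    exact zero_ne_one hy
  -- a general remark
  have approx : ∀ {V : ValuationSubring F} {l l' r r' : F}, (∀ r ∈ R, r ∈ V) →
      V.valuation l = 1 → Cg V l' l → r ∈ R → r' ∈ R → Cg V r' r → Cg V (g / l) r →
      Cg V (l' * r') g := by
    intro V l l' r r' hV hl cl hr hr' cr cg
    have c1 : Cg V (g / l * l) (r * l) :=
      cg.mul (Cg.refl l) (le_one_of_mem (hV _ hr)) hl.le
    rw [div_mul_cancel₀ _ (nz hl)] at c1
    have c2 : Cg V (l' * r') (l * r) := cl.mul cr hl.le (le_one_of_mem (hV _ hr'))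
    rw [mul_comm l r] at c2
    exact c2.trans c1.symm
  have cga : Cg Va (la' * ra') g := approx hRa hla cla hraR hra'R cra' cra
  have cgm : Cg Vm (lm' * rm') g := approx hRm hlm clm hrmR hrm'R crm' crm
  have cgb : Cg Vb (lb * rb) g := approx hRb hlb (Cg.refl lb) hrbR hrbR (Cg.refl rb) crb
  have cNg : Cg Va (N g) (la' * ra' * (lm' * rm') ^ (q - 1)) :=
    H.res_a g (la' * ra') (lm' * rm') vga vgm (E.mul_mem hla'E hra'E) (E.mul_mem hlm'E hrm'E)
      cga cgm
  have vra' : Va.valuation ra' ≤ 1 := le_one_of_mem (hRa _ hra'R)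
  have vrm' : Va.valuation rm' ≤ 1 := le_one_of_mem (hRa _ hrm'R)
  have vrr : Va.valuation (ra' * rm' ^ (q - 1)) ≤ 1 :=
    le_one_of_mem (hRa _ (R.mul_mem hra'R (R.pow_mem hrm'R _)))
  -- first evaluation of `ρ`
  have c5 : Cg Va ρ (algebraMap K₀ F κa * (ra' * rm' ^ (q - 1))) := by
    have e : la' * ra' * (lm' * rm') ^ (q - 1) * w = T * (ra' * rm' ^ (q - 1)) := by
      rw [hT]
      ring
    have c6 : Cg Va ρ (la' * ra' * (lm' * rm') ^ (q - 1) * w) := by
      refine cNg.mul (Cg.refl w) ?_ vw.le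
      have e' : la' * ra' * (lm' * rm') ^ (q - 1) =
          (la' * lm' ^ (q - 1)) * (ra' * rm' ^ (q - 1)) := by ring
      rw [e', map_mul]
      have e'' : Va.valuation (la' * lm' ^ (q - 1)) = 1 := by
        rw [map_mul, map_pow, vla', vlm', one_pow, one_mul]
      rw [e'', one_mul]
      exact vrr
    rw [e] at c6
    exact c6.trans (cκa.mul (Cg.refl _) (le_one_of_mem (hRa _ (rootR hκa))) vrr)
  have r5 : CgR R ρ (algebraMap K₀ F κa * (ra' * rm' ^ (q - 1))) :=
    rad_of_lt hRa (R.sub_mem hρR (R.mul_mem (rootR hκa)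
      (R.mul_mem hra'R (R.pow_mem hrm'R _)))) c5
  have rra : CgR R ra' (algebraMap K₀ F ζa) :=
    CgR.trans hadd (rad_of_lt hRa (R.sub_mem hra'R hraR) cra') hra
  have rrm : CgR R rm' (algebraMap K₀ F ζm) :=
    CgR.trans hadd (rad_of_lt hRm (R.sub_mem hrm'R hrmR) crm') hrm
  have r6 : CgR R ρ (algebraMap K₀ F κa *
      (algebraMap K₀ F ζa * algebraMap K₀ F ζm ^ (q - 1))) :=
    CgR.trans hadd r5 (CgR.mul hadd (CgR.refl _)
      (CgR.mul hadd rra (CgR.pow hadd rrm hrm'R (rootR hζm) _) (rootR hζa) (R.pow_mem hrm'R _))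
      (rootR hκa) (R.mul_mem hra'R (R.pow_mem hrm'R _)))
  -- second evaluation of `ρ`
  have vrb : Vb.valuation rb ≤ 1 := le_one_of_mem (hRb _ hrbR)
  have c7 : Cg Vb ρ (algebraMap K₀ F κb * rb ^ q) := by
    have c8 : Cg Vb (N g) ((lb * rb) ^ q) :=
      Cg.trans (H.res_b g vgb) (cgb.symm.pow (by rw [map_mul, hlb, one_mul]; exact vrb) q)
    have c9 : Cg Vb ρ ((lb * rb) ^ q * w) := by
      refine c8.mul (Cg.refl w) ?_ vwb.le
      rw [map_pow, map_mul, hlb, one_mul]
      exact pow_le_one' vrb q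
    have e : (lb * rb) ^ q * w = T' * rb ^ q := by
      rw [hT']
      ring
    rw [e] at c9
    exact c9.trans (cκb.mul (Cg.refl _) (le_one_of_mem (hRb _ (rootR hκb)))
      (by rw [map_pow]; exact pow_le_one' vrb q))
  have r7 : CgR R ρ (algebraMap K₀ F κb * rb ^ q) :=
    rad_of_lt hRb (R.sub_mem hρR (R.mul_mem (rootR hκb) (R.pow_mem hrbR _))) c7
  have r8 : CgR R ρ (algebraMap K₀ F κb * algebraMap K₀ F ζb ^ q) :=
    CgR.trans hadd r7 (CgR.mul hadd (CgR.refl _) (CgR.pow hadd hrb hrbR (rootR hζb) _)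
      (rootR hκb) (R.pow_mem hrbR _))
  -- comparison
  have r9 : CgR R (algebraMap K₀ F (κa * (ζa * ζm ^ (q - 1)))) (algebraMap K₀ F (κb * ζb ^ q)) := by
    have := CgR.trans hadd r6.symm r8
    simpa only [map_mul, map_pow] using this
  have hlt : A₀.valuation (κa * (ζa * ζm ^ (q - 1)) - κb * ζb ^ q) < 1 := by
    set c : K₀ := κa * (ζa * ζm ^ (q - 1)) - κb * ζb ^ q with hc
    have hcle : A₀.valuation c ≤ 1 := by
      refine Valuation.map_sub_le _ ?_ ?_ <;>
        simp only [map_mul, map_pow, rootA hκa, rootA hκb, rootA hζa, rootA hζm, rootA hζb,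
          one_pow, mul_one, le_refl]
    refine lt_of_le_of_ne hcle fun h1 => ?_
    have hc0 : c ≠ 0 := by
      intro h0
      rw [h0, map_zero] at h1
      exact zero_ne_one h1
    have hrad : algebraMap K₀ F c ∈ rad R := by
      have := r9
      unfold CgR at this
      rwa [← map_sub] at this
    refine hrad.2 ⟨by rwa [Ne, map_eq_zero], hrad.1, ?_⟩
    rw [← map_inv₀]
    refine hR.const_mem _ ((A₀.valuation_le_one_iff _).mp ?_)
    rw [map_inv₀, h1, inv_one]
  have hfin := hb.root_of_unity_inj hn (ζ := κa * (ζa * ζm ^ (q - 1))) (ζ' := κb * ζb ^ q)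
    (by rw [mul_pow, mul_pow, ← pow_mul, mul_comm (q - 1) n, pow_mul, hκa, hζa, hζm, one_pow,
      mul_one, mul_one])
    (by rw [mul_pow, ← pow_mul, mul_comm q n, pow_mul, hκb, hζb, one_pow, mul_one]) hlt
  calc ζa * ζm ^ (q - 1) = κa⁻¹ * (κa * (ζa * ζm ^ (q - 1))) := by
        rw [← mul_assoc, inv_mul_cancel₀ hκa0, one_mul]
    _ = κb * κa⁻¹ * ζb ^ q := by
        rw [hfin]
        ring

end Fermat.Agent.S36.BP
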