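/-
S36, block BP, node LOC1: the local rings `locSub (chart A₀ x) 𝔫` of the model are points in the
sense of `IsPt`: local, noetherian, integrally closed, with residue field the residue field of `A₀`.
-/
import Mathlib
import Fermat.Agent.S18.Defs
import Fermat.Agent.S18.Chart.Const
import Fermat.Agent.S18.Chart.Unif
import Fermat.Agent.S36.BP.Defs
import Fermat.Agent.S36.BP.Loc.Basic
import Fermat.Agent.S36.BP.Loc.Noeth

set_option autoImplicit false
set_option linter.style.haveILetI false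

noncomputable section

namespace Fermat.Agent.S36.BP

open Fermat.Agent.S18 IntermediateField

variable {K₀ F : Type*} [Field K₀] [Field F] [Algebra K₀ F]

section Res

variable {A₀ : ValuationSubring K₀} {ϖ₀ : K₀} {x : F}

/-- an element of the maximal ideal of `A₀` is a multiple of the uniformiser. -/
theorem exists_eq_unif_mul (h₀ : IsUnif A₀ ϖ₀) {a : K₀} (ha : A₀.valuation a < 1) :
    ∃ a' ∈ A₀, a = ϖ₀ * a' := by
  have hϖ := h₀.ne_zero
  rcases eq_or_ne a 0 with rfl | ha0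
  · exact ⟨0, A₀.zero_mem, by simp⟩
  have hmem : a ∈ A₀ := (A₀.valuation_le_one_iff a).mp ha.le
  have hinv : a⁻¹ ∉ A₀ := by
    intro h
    have h1 : A₀.valuation a⁻¹ ≤ 1 := (A₀.valuation_le_one_iff _).mpr h
    have h2 : A₀.valuation a * A₀.valuation a⁻¹ = 1 := by
      rw [← map_mul, mul_inv_cancel₀ ha0, map_one]
    have h3 : A₀.valuation a * A₀.valuation a⁻¹ < 1 := by
      calc A₀.valuation a * A₀.valuation a⁻¹ ≤ A₀.valuation a * 1 := by gcongr
        _ = A₀.valuation a := mul_one _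
        _ < 1 := ha
    exact absurd h2 h3.ne
  exact ⟨a / ϖ₀, h₀.div_mem hmem hinv, by field_simp⟩

/-- The residue field of a closed point of the special fibre of the chart is the residue field
of `A₀` when the latter is algebraically closed. -/
theorem exists_const_sub_mem [CharZero K₀] (h₀ : IsUnif A₀ ϖ₀)
    (hac : IsAlgClosed (IsLocalRing.ResidueField A₀))
    (hx : Transcendental K₀ x) (hfin : FiniteDimensional K₀⟮x⟯ F)
    (𝔫 : Ideal (chart A₀.toSubring x)) [h𝔫 : 𝔫.IsMaximal]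
    (hϖ : constToChart A₀ x ⟨ϖ₀, h₀.mem⟩ ∈ 𝔫) (b : chart A₀.toSubring x) :
    ∃ a : A₀, b - constToChart A₀ x a ∈ 𝔫 := by
  let g : A₀ →+* chart A₀.toSubring x ⧸ 𝔫 := (Ideal.Quotient.mk 𝔫).comp (constToChart A₀ x)
  have hg : g.FiniteType :=
    (RingHom.FiniteType.of_surjective _ Ideal.Quotient.mk_surjective).comp
      (finiteType_constToChart h₀ hx hfin)
  have hker : ∀ a ∈ IsLocalRing.maximalIdeal A₀, g a = 0 := by
    intro a ha
    have hlt : A₀.valuation (a : K₀) < 1 := (A₀.valuation_lt_one_iff a).mp ha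
    obtain ⟨a', ha', e⟩ := exists_eq_unif_mul h₀ hlt
    have e' : a = ⟨ϖ₀, h₀.mem⟩ * ⟨a', ha'⟩ := Subtype.ext e
    show Ideal.Quotient.mk 𝔫 (constToChart A₀ x a) = 0
    rw [Ideal.Quotient.eq_zero_iff_mem, e', map_mul]
    exact 𝔫.mul_mem_right _ hϖ
  let gbar : IsLocalRing.ResidueField A₀ →+* chart A₀.toSubring x ⧸ 𝔫 :=
    Ideal.Quotient.lift (IsLocalRing.maximalIdeal A₀) g hker
  have hcomp : gbar.comp (IsLocalRing.residue A₀) = g := Ideal.Quotient.lift_comp_mk _ _ _
  have hgbar : gbar.FiniteType := RingHom.FiniteType.of_comp_finiteType (hcomp ▸ hg)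
  letI : Field (chart A₀.toSubring x ⧸ 𝔫) := Ideal.Quotient.field 𝔫
  letI : Algebra (IsLocalRing.ResidueField A₀) (chart A₀.toSubring x ⧸ 𝔫) := gbar.toAlgebra
  haveI : Algebra.FiniteType (IsLocalRing.ResidueField A₀) (chart A₀.toSubring x ⧸ 𝔫) := hgbar
  haveI : Module.Finite (IsLocalRing.ResidueField A₀) (chart A₀.toSubring x ⧸ 𝔫) :=
    finite_of_finite_type_of_isJacobsonRing _ _
  have hbij : Function.Bijective
      (algebraMap (IsLocalRing.ResidueField A₀) (chart A₀.toSubring x ⧸ 𝔫)) :=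
    IsAlgClosed.algebraMap_bijective_of_isIntegral
  obtain ⟨abar, habar⟩ := hbij.2 (Ideal.Quotient.mk 𝔫 b)
  obtain ⟨a, rfl⟩ := IsLocalRing.residue_surjective abar
  refine ⟨a, ?_⟩
  rw [← Ideal.Quotient.eq]
  have h1 : gbar (IsLocalRing.residue A₀ a) = g a := congrArg (fun φ => φ a) hcomp
  have h2 : gbar (IsLocalRing.residue A₀ a) = Ideal.Quotient.mk 𝔫 b := habar
  rw [← h2, h1]
  rfl

end Res

variable {A₀ : ValuationSubring K₀} {q : ℕ} {x : F} {V : Fin 3 → ValuationSubring F} {ϖm : F}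
  {Eα Eβ : Subfield F} {Nα Nβ : F →* F}

section LOC

theorem Model.chart_le (M : Model A₀ q x V ϖm Eα Eβ Nα Nβ) (c : Fin 3) :
    ∀ b ∈ chart A₀.toSubring x, b ∈ V c := by
  intro b hb
  rw [mem_chart_iff_isIntegral] at hb
  have hxc : x ∈ V c := ((V c).valuation_le_one_iff x).mp (M.x_unit c).le
  have hp : ∀ r : polyRing A₀.toSubring x, (r : F) ∈ V c := by
    rintro ⟨r, hr⟩
    rw [mem_polyRing_iff] at hr
    obtain ⟨p, hp, rfl⟩ := hr
    change Polynomial.aeval x p ∈ V c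
    rw [Polynomial.aeval_eq_sum_range]
    refine (V c).sum_mem fun i _ => ?_
    rw [Algebra.smul_def]
    exact (V c).mul_mem _ _ (M.const_mem c _ (hp i)) ((V c).pow_mem hxc i)
  have h1 : IsIntegral (V c) b :=
    isIntegral_of_forall_exists_algebraMap (fun r => ⟨⟨_, hp r⟩, rfl⟩) hb
  obtain ⟨y, rfl⟩ := (IsIntegrallyClosed.isIntegral_iff (R := V c) (K := F)).mp h1
  exact y.2

theorem Model.isPt (M : Model A₀ q x V ϖm Eα Eβ Nα Nβ) (𝔫 : Ideal (chart A₀.toSubring x))
    [𝔫.IsMaximal] (h𝔫 : (q : chart A₀.toSubring x) ∈ 𝔫) :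
    IsPt A₀ (locSub (chart A₀.toSubring x) 𝔫) := by
  haveI := M.base.charZero
  have h₀ := M.base.unif
  have hq : constToChart A₀ x ⟨(q : K₀), h₀.mem⟩ ∈ 𝔫 := by
    have : constToChart A₀ x ⟨(q : K₀), h₀.mem⟩ = (q : chart A₀.toSubring x) := by
      apply Subtype.ext
      rw [coe_constToChart]
      simp
    rw [this]
    exact h𝔫
  have hconst_rad : ∀ a : K₀, A₀.valuation a < 1 →
      algebraMap K₀ F a ∈ rad (locSub (chart A₀.toSubring x) 𝔫) := by
    intro a ha
    obtain ⟨a', ha', e⟩ := exists_eq_unif_mul h₀ ha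
    have h1 : constToChart A₀ x ⟨(q : K₀), h₀.mem⟩ * constToChart A₀ x ⟨a', ha'⟩ ∈ 𝔫 :=
      𝔫.mul_mem_right _ hq
    have h2 := coe_mem_rad_locSub h1
    have h3 : ((constToChart A₀ x ⟨(q : K₀), h₀.mem⟩ * constToChart A₀ x ⟨a', ha'⟩ :
        chart A₀.toSubring x) : F) = algebraMap K₀ F a := by
      push_cast
      rw [coe_constToChart, coe_constToChart, e, map_mul]
    rwa [h3] at h2
  have hres := exists_const_sub_mem h₀ M.base.algClosed M.transc M.finite 𝔫 hq
  refine ⟨fun a ha b hb => add_mem_rad_locSub ha hb, ?_, hconst_rad, ?_, ?_, ?_⟩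
  · intro a ha
    exact le_locSub (constToChart A₀ x ⟨a, ha⟩).2
  · rintro r ⟨b, s, hs, e⟩
    obtain ⟨β, hβ⟩ := hres b
    obtain ⟨σ, hσ⟩ := hres s
    have hs0 := coe_ne_zero_of_notMem hs
    -- `σ` is a unit of `A₀`
    have hσn : constToChart A₀ x σ ∉ 𝔫 := by
      intro h
      apply hs
      have := 𝔫.add_mem hσ h
      simpa using this
    have hσ0 : (σ : K₀) ≠ 0 := by
      intro h
      apply hσn
      have : σ = 0 := Subtype.ext h
      rw [this, map_zero]
      exact 𝔫.zero_mem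
    have hσu : ¬ A₀.valuation (σ : K₀) < 1 := by
      intro hlt
      obtain ⟨a', ha', e'⟩ := exists_eq_unif_mul h₀ hlt
      apply hσn
      have : σ = ⟨(q : K₀), h₀.mem⟩ * ⟨a', ha'⟩ := Subtype.ext e'
      rw [this, map_mul]
      exact 𝔫.mul_mem_right _ hq
    have hσinv : (σ : K₀)⁻¹ ∈ A₀ := by
      rw [← A₀.valuation_le_one_iff, map_inv₀]
      have h1 : A₀.valuation (σ : K₀) = 1 :=
        le_antisymm ((A₀.valuation_le_one_iff _).mpr σ.2) (not_lt.mp hσu)
      rw [h1, inv_one]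
    refine ⟨(β : K₀) * (σ : K₀)⁻¹, A₀.mul_mem _ _ β.2 hσinv, ?_⟩
    rw [mem_rad_locSub_iff]
    refine ⟨(b - constToChart A₀ x β) * constToChart A₀ x σ -
        constToChart A₀ x β * (s - constToChart A₀ x σ), s * constToChart A₀ x σ,
      𝔫.sub_mem (𝔫.mul_mem_right _ hβ) (𝔫.mul_mem_left _ hσ),
      fun h => (Ideal.IsPrime.mem_or_mem inferInstance h).elim hs hσn, ?_⟩
    have hσF : algebraMap K₀ F (σ : K₀) ≠ 0 := (map_ne_zero _).mpr hσ0
    have key : (r - algebraMap K₀ F ((β : K₀) * (σ : K₀)⁻¹)) *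
        ((s : F) * algebraMap K₀ F (σ : K₀)) =
        ((b : F) - algebraMap K₀ F (β : K₀)) * algebraMap K₀ F (σ : K₀) -
          algebraMap K₀ F (β : K₀) * ((s : F) - algebraMap K₀ F (σ : K₀)) := by
      rw [← e, map_mul, map_inv₀]
      field_simp
      ring
    exact key
  · exact mem_locSub_of_isIntegral (fun y hy => mem_chart_of_isIntegral_chart _ _ _ hy)
  · haveI := isNoetherianRing_chart h₀ M.transc M.finite
    exact isNoetherianRing_locSub

end LOC

end Fermat.Agent.S36.BP
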