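/-
S36, block BP, node BP-LOC2: the local form of the `q`-expansion principle.  Owner: helper296.
-/
import Mathlib
import Fermat.Agent.S18.Defs
import Fermat.Agent.S18.Chart.Const
import Fermat.Agent.S36.BP.Defs

set_option autoImplicit false

noncomputable section

namespace Fermat.Agent.S36.BP

open Fermat.Agent.S18 IntermediateField

variable {K₀ F : Type*} [Field K₀] [Field F] [Algebra K₀ F]

namespace LocQep

/-- In a discrete valuation subring, a high power of an element of the maximal ideal kills any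
denominator. -/
theorem exists_pow_mul_mem {W : ValuationSubring F} {ϖ : F} (hU : IsUnif W ϖ) {a : F}
    (ha : W.valuation a < 1) (y : F) : ∃ k : ℕ, a ^ k * y ∈ W := by
  by_cases hy : y = 0
  · exact ⟨0, by rw [hy, mul_zero]; exact W.zero_mem⟩
  by_cases ha0 : a = 0
  · exact ⟨1, by rw [ha0, pow_one, zero_mul]; exact W.zero_mem⟩
  have hϖ0 : ϖ ≠ 0 := by
    intro h
    apply hU.inv_notMem
    rw [h, inv_zero]
    exact W.zero_mem
  have hvϖ0 : W.valuation ϖ ≠ 0 := (Valuation.ne_zero_iff _).2 hϖ0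
  have hvϖ : W.valuation ϖ ≤ 1 := (ValuationSubring.valuation_le_one_iff W ϖ).2 hU.mem
  have key : ∀ z : F, z ≠ 0 → ∃ n : ℤ, W.valuation z = W.valuation ϖ ^ n := by
    intro z hz
    obtain ⟨n, h1, h2⟩ := hU.exists_zpow z hz
    refine ⟨n, ?_⟩
    have h1' := (ValuationSubring.valuation_le_one_iff W _).2 h1
    have h2' := (ValuationSubring.valuation_le_one_iff W _).2 h2
    rw [map_inv₀] at h2'
    have hne : W.valuation (z / ϖ ^ n) ≠ 0 :=
      (Valuation.ne_zero_iff _).2 (div_ne_zero hz (zpow_ne_zero _ hϖ0))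
    have h3 : 1 ≤ W.valuation (z / ϖ ^ n) := by
      rwa [inv_le_one₀ (zero_lt_iff.2 hne)] at h2'
    have h4 : W.valuation (z / ϖ ^ n) = 1 := le_antisymm h1' h3
    rw [map_div₀, map_zpow₀, div_eq_one_iff_eq (zpow_ne_zero _ hvϖ0)] at h4
    exact h4
  obtain ⟨n, hn⟩ := key y hy
  obtain ⟨m, hm⟩ := key a ha0
  have hm1 : 1 ≤ m := by
    by_contra h
    have h0 : m ≤ 0 := by omega
    obtain ⟨j, hj⟩ : ∃ j : ℕ, m = -(j : ℤ) := ⟨(-m).toNat, by omega⟩
    rw [hm, hj, zpow_neg, zpow_natCast] at ha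
    have h5 : W.valuation ϖ ^ j ≤ 1 := pow_le_one' hvϖ j
    have h6 : 1 ≤ (W.valuation ϖ ^ j)⁻¹ :=
      (one_le_inv₀ (zero_lt_iff.2 (pow_ne_zero _ hvϖ0))).2 h5
    exact absurd ha (not_lt.2 h6)
  refine ⟨n.natAbs, ?_⟩
  rw [← ValuationSubring.valuation_le_one_iff, map_mul, map_pow, hn, hm, ← zpow_natCast,
    ← zpow_mul, ← zpow_add₀ hvϖ0]
  obtain ⟨j, hj⟩ : ∃ j : ℕ, m * (n.natAbs : ℤ) + n = (j : ℤ) := by
    refine ⟨(m * (n.natAbs : ℤ) + n).toNat, ?_⟩
    have h7 : (n.natAbs : ℤ) ≤ m * (n.natAbs : ℤ) := by nlinarith [Int.natCast_nonneg n.natAbs]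
    have h8 : -n ≤ (n.natAbs : ℤ) := by omega
    omega
  rw [hj, zpow_natCast]
  exact pow_le_one' hvϖ j

/-- A valuation subring containing the constants `A₀` and `x` contains the chart. -/
theorem chart_le_of {A₀ : ValuationSubring K₀} {x : F} {W : ValuationSubring F}
    (hc : ∀ a ∈ A₀, algebraMap K₀ F a ∈ W) (hx : x ∈ W) :
    ∀ b ∈ chart A₀.toSubring x, b ∈ W := by
  intro b hb
  rw [mem_chart_iff_isIntegral] at hb
  have hp : ∀ r : polyRing A₀.toSubring x, (r : F) ∈ W := by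
    rintro ⟨r, hr⟩
    rw [mem_polyRing_iff] at hr
    obtain ⟨p, hp, rfl⟩ := hr
    change Polynomial.aeval x p ∈ W
    rw [Polynomial.aeval_eq_sum_range]
    refine W.sum_mem fun i _ => ?_
    rw [Algebra.smul_def]
    exact W.mul_mem _ _ (hc _ (hp i)) (W.pow_mem hx i)
  have h1 : IsIntegral W b :=
    isIntegral_of_forall_exists_algebraMap (fun r => ⟨⟨_, hp r⟩, rfl⟩) hb
  obtain ⟨y, rfl⟩ := (IsIntegrallyClosed.isIntegral_iff (R := W) (K := F)).mp h1
  exact y.2

/-- For a component away from the point: an element of `B ∖ 𝔫` in the maximal ideal of `W`. -/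
theorem exists_of_away {B : Subring F} {𝔫 : Ideal B} [h𝔫 : 𝔫.IsPrime] {W : ValuationSubring F}
    (hB : ∀ b ∈ B, b ∈ W) (h : Away (locSub B 𝔫) W) :
    ∃ a : B, a ∉ 𝔫 ∧ W.valuation (a : F) < 1 := by
  obtain ⟨e, ⟨he0, ⟨a, s, hs, h1⟩, ⟨a', s', hs', h2⟩⟩, hlt⟩ := h
  refine ⟨a, ?_, ?_⟩
  · intro ha
    have h3 : a * a' = s * s' := by
      apply Subtype.ext
      push_cast
      rw [← h1, ← h2]
      field_simp
    have h4 : s * s' ∈ 𝔫 := by
      rw [← h3]
      exact 𝔫.mul_mem_right _ ha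
    exact (h𝔫.mem_or_mem h4).elim hs hs'
  · rw [← h1, map_mul]
    have h5 : W.valuation (s : F) ≤ 1 := (ValuationSubring.valuation_le_one_iff W _).2 (hB _ s.2)
    exact lt_of_le_of_lt (mul_le_of_le_one_right' h5) hlt

end LocQep

variable {A₀ : ValuationSubring K₀} {q : ℕ} {x : F} {V : Fin 3 → ValuationSubring F} {ϖm : F}
  {Eα Eβ : Subfield F} {Nα Nβ : F →* F}

/-- the local form of the `q`-expansion principle. -/
theorem Model.qep_loc (M : Model A₀ q x V ϖm Eα Eβ Nα Nβ) (𝔫 : Ideal (chart A₀.toSubring x))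
    [𝔫.IsMaximal] (h𝔫 : (q : chart A₀.toSubring x) ∈ 𝔫) (y : F)
    (h1 : (q : F) * y ∈ locSub (chart A₀.toSubring x) 𝔫)
    (h2 : ∀ c, Through (locSub (chart A₀.toSubring x) 𝔫) (V c) → y ∈ V c) :
    y ∈ locSub (chart A₀.toSubring x) 𝔫 := by
  have hpr : 𝔫.IsPrime := Ideal.IsMaximal.isPrime inferInstance
  have hB : ∀ c, ∀ b ∈ chart A₀.toSubring x, b ∈ V c := fun c =>
    LocQep.chart_le_of (M.const_mem c)
      ((ValuationSubring.valuation_le_one_iff _ _).1 (M.x_unit c).le)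
  have hU : ∀ c, ∃ ϖ : F, IsUnif (V c) ϖ := by
    intro c
    fin_cases c
    · exact ⟨_, M.unif0⟩
    · exact ⟨_, M.unif1⟩
    · exact ⟨_, M.unif2⟩
  have ht : ∀ c, ∃ t : chart A₀.toSubring x, t ∉ 𝔫 ∧ (t : F) * y ∈ V c := by
    intro c
    rcases (M.pts₁ 𝔫 h𝔫).through_or_away c with hT | hA
    · refine ⟨1, fun h => hpr.ne_top ((Ideal.eq_top_iff_one _).2 h), ?_⟩
      rw [Subring.coe_one, one_mul]
      exact h2 c hT
    · obtain ⟨a, ha, hlt⟩ := LocQep.exists_of_away (hB c) hA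
      obtain ⟨ϖ, hϖ⟩ := hU c
      obtain ⟨k, hk⟩ := LocQep.exists_pow_mul_mem hϖ hlt y
      refine ⟨a ^ k, fun h => ha (hpr.mem_of_pow_mem k h), ?_⟩
      rw [Subring.coe_pow]
      exact hk
  choose t ht1 ht2 using ht
  obtain ⟨a, s, hs, has⟩ := h1
  have hT : t 0 * t 1 * t 2 * s ∉ 𝔫 := by
    intro h
    rcases hpr.mem_or_mem h with h | h
    · rcases hpr.mem_or_mem h with h | h
      · rcases hpr.mem_or_mem h with h | h
        · exact ht1 0 h
        · exact ht1 1 h
      · exact ht1 2 h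
    · exact hs h
  have hy' : ((t 0 * t 1 * t 2 * s : chart A₀.toSubring x) : F) * y ∈ chart A₀.toSubring x := by
    apply M.qep₁
    · have e : (q : F) * (((t 0 * t 1 * t 2 * s : chart A₀.toSubring x) : F) * y)
          = ((t 0 * t 1 * t 2 * a : chart A₀.toSubring x) : F) := by
        push_cast
        rw [← has]
        ring
      rw [e]
      exact Subtype.property _
    · intro c
      fin_cases c
      · have e : ((t 0 * t 1 * t 2 * s : chart A₀.toSubring x) : F) * y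
            = ((t 1 * t 2 * s : chart A₀.toSubring x) : F) * ((t 0 : F) * y) := by
          push_cast; ring
        rw [e]
        exact (V 0).mul_mem _ _ (hB 0 _ (Subtype.property _)) (ht2 0)
      · have e : ((t 0 * t 1 * t 2 * s : chart A₀.toSubring x) : F) * y
            = ((t 0 * t 2 * s : chart A₀.toSubring x) : F) * ((t 1 : F) * y) := by
          push_cast; ring
        rw [e]
        exact (V 1).mul_mem _ _ (hB 1 _ (Subtype.property _)) (ht2 1)
      · have e : ((t 0 * t 1 * t 2 * s : chart A₀.toSubring x) : F) * y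
            = ((t 0 * t 1 * s : chart A₀.toSubring x) : F) * ((t 2 : F) * y) := by
          push_cast; ring
        rw [e]
        exact (V 2).mul_mem _ _ (hB 2 _ (Subtype.property _)) (ht2 2)
  exact ⟨⟨_, hy'⟩, t 0 * t 1 * t 2 * s, hT, mul_comm _ _⟩

end Fermat.Agent.S36.BP
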