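/-
S36, block BP, task BP-ROOT (helper29): local `n`-th roots up to units at the closed points of the
model.
-/
import Mathlib
import Fermat.Agent.S18.Defs
import Fermat.Agent.S36.BP.Defs
import Fermat.Agent.S36.BP.Loc
import Fermat.Agent.S36.BP.LocQep
import Fermat.Agent.S36.BP.LocalRoot.Abs

set_option autoImplicit false

namespace Fermat.Agent.S36.BP

open Fermat.Agent.S18 IntermediateField

variable {K₀ F : Type*} [Field K₀] [Field F] [Algebra K₀ F]

variable {A₀ : ValuationSubring K₀} {q : ℕ} {x : F} {V : Fin 3 → ValuationSubring F} {ϖm : F}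
  {Eα Eβ : Subfield F} {Nα Nβ : F →* F}

theorem Model.exists_local_root (M : Model A₀ q x V ϖm Eα Eβ Nα Nβ)
    (𝔫 : Ideal (chart A₀.toSubring x)) [𝔫.IsMaximal] (h𝔫 : (q : chart A₀.toSubring x) ∈ 𝔫)
    {n : ℕ} {u : F} (hu : ∀ c, (V c).valuation u = 1) (hd : HorDiv K₀ n u) :
    ∃ g : F, RUnit (locSub (chart A₀.toSubring x) 𝔫) (g ^ n * u) :=
  LocalRoot.exists_local_root_of M.base.unif (M.isPt 𝔫 h𝔫) V (M.pts₁ 𝔫 h𝔫).princ
    (M.qep_loc 𝔫 h𝔫) hu hd

end Fermat.Agent.S36.BP
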