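/-
S36, block BP, node HOL2 (layer 1 assembly): `ratio_const`, `Datum.trivial`,
`Model.exists_trivial_lambda`.
-/
import Mathlib
import Fermat.Agent.S18.Defs
import Fermat.Agent.S36.BP.Defs
import Fermat.Agent.S36.BP.Symm
import Fermat.Agent.S36.BP.Loc
import Fermat.Agent.S36.BP.LocalRoot
import Fermat.Agent.S36.BP.Residues
import Fermat.Agent.S36.BP.Datum
import Fermat.Agent.S36.BP.Holonomy

set_option autoImplicit false

noncomputable section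

namespace Fermat.Agent.S36.BP

open Fermat.Agent.S18 IntermediateField

variable {K₀ F : Type*} [Field K₀] [Field F] [Algebra K₀ F]

/-! ### pure group theory -/

theorem triv_ratio_aux {p : ℕ} {κ₁ κ₂ A B : K₀} (hA : A ≠ 0)
    (h1 : A = κ₁ * B ^ (p + 1)) (h2 : B = κ₂ * A ^ (p + 1)) :
    A ^ ((p + 1) ^ 2 - 1) * (κ₁ * κ₂ ^ (p + 1)) = 1 := by
  obtain ⟨k, hk⟩ : ∃ k, (p + 1) ^ 2 = k + 1 :=
    ⟨(p + 1) ^ 2 - 1, (Nat.sub_add_cancel (Nat.one_le_pow _ _ (Nat.succ_pos p))).symm⟩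
  have hk' : (p + 1) ^ 2 - 1 = k := by omega
  have h3 : A = κ₁ * κ₂ ^ (p + 1) * A ^ (k + 1) := by
    rw [← hk]
    conv_lhs => rw [h1, h2]
    rw [mul_pow, ← pow_mul, ← sq]; ring
  rw [hk']
  have h4 : A * (A ^ k * (κ₁ * κ₂ ^ (p + 1))) = A * 1 := by
    rw [mul_one]
    conv_rhs => rw [h3]
    ring
  exact mul_left_cancel₀ hA h4

theorem triv_ratio_div {p : ℕ} {κ a m b : K₀} (hm : m ≠ 0)
    (h : a * m ^ p = κ * b ^ (p + 1)) : a / m = κ * (b / m) ^ (p + 1) := by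
  rw [div_pow, ← mul_div_assoc, ← h, pow_succ]
  field_simp

/-- pure group theory in `μ_n`: the two relations make the `(q² - 1)`-th powers of the ratios
constant. -/
theorem ratio_const {q : ℕ} (hq : 0 < q) {κ₁ κ₂ a m b a' m' b' : K₀} (ha : a ≠ 0) (hm : m ≠ 0)
    (hb : b ≠ 0) (ha' : a' ≠ 0) (hm' : m' ≠ 0) (hb' : b' ≠ 0) (hκ₁ : κ₁ ≠ 0) (hκ₂ : κ₂ ≠ 0)
    (h1 : a * m ^ (q - 1) = κ₁ * b ^ q) (h2 : b * m ^ (q - 1) = κ₂ * a ^ q)
    (h1' : a' * m' ^ (q - 1) = κ₁ * b' ^ q) (h2' : b' * m' ^ (q - 1) = κ₂ * a' ^ q) :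
    (a / m) ^ (q ^ 2 - 1) = (a' / m') ^ (q ^ 2 - 1) ∧
      (b / m) ^ (q ^ 2 - 1) = (b' / m') ^ (q ^ 2 - 1) := by
  obtain ⟨p, rfl⟩ : ∃ p, q = p + 1 := ⟨q - 1, (Nat.sub_add_cancel hq).symm⟩
  simp only [Nat.add_sub_cancel] at h1 h2 h1' h2'
  have e1 := triv_ratio_div hm h1
  have e2 := triv_ratio_div hm h2
  have e1' := triv_ratio_div hm' h1'
  have e2' := triv_ratio_div hm' h2'
  have c1 : κ₁ * κ₂ ^ (p + 1) ≠ 0 := mul_ne_zero hκ₁ (pow_ne_zero _ hκ₂)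
  have c2 : κ₂ * κ₁ ^ (p + 1) ≠ 0 := mul_ne_zero hκ₂ (pow_ne_zero _ hκ₁)
  constructor
  · exact mul_right_cancel₀ c1 ((triv_ratio_aux (div_ne_zero ha hm) e1 e2).trans
      (triv_ratio_aux (div_ne_zero ha' hm') e1' e2').symm)
  · exact mul_right_cancel₀ c2 ((triv_ratio_aux (div_ne_zero hb hm) e2 e1).trans
      (triv_ratio_aux (div_ne_zero hb' hm') e2' e1').symm)

/-! ### small API: units, the radical, congruences -/

theorem triv_RUnit_pow {R : Subring F} {y : F} (h : RUnit R y) (k : ℕ) : RUnit R (y ^ k) :=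
  ⟨pow_ne_zero _ h.1, R.pow_mem h.2.1 k, by rw [← inv_pow]; exact R.pow_mem h.2.2 k⟩

theorem triv_zero_mem_rad (R : Subring F) : (0 : F) ∈ rad R :=
  ⟨R.zero_mem, fun h => h.1 rfl⟩

theorem triv_rad_mul {R : Subring F} {a b : F} (ha : a ∈ rad R) (hb : b ∈ R) : a * b ∈ rad R := by
  refine ⟨R.mul_mem ha.1 hb, fun h => ha.2 ?_⟩
  have ha0 : a ≠ 0 := fun h0 => h.1 (by rw [h0, zero_mul])
  have hb0 : b ≠ 0 := fun h0 => h.1 (by rw [h0, mul_zero])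
  refine ⟨ha0, ha.1, ?_⟩
  have : a⁻¹ = b * (a * b)⁻¹ := by
    rw [mul_inv]; field_simp
  rw [this]
  exact R.mul_mem hb h.2.2

theorem triv_rad_pow_sub_pow {A₀ : ValuationSubring K₀} {R : Subring F} (hR : IsPt A₀ R) {r s : F}
    (hr : r ∈ R) (hs : s ∈ R) (h : r - s ∈ rad R) (k : ℕ) : r ^ k - s ^ k ∈ rad R := by
  induction k with
  | zero => simpa using triv_zero_mem_rad R
  | succ k ih =>
    have e : r ^ (k + 1) - s ^ (k + 1) = (r - s) * r ^ k + (r ^ k - s ^ k) * s := by ring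
    rw [e]
    exact hR.add_rad _ (triv_rad_mul h (R.pow_mem hr k)) _ (triv_rad_mul ih hs)

theorem triv_val_pow_sub_pow (W : ValuationSubring F) {a b : F} (hb : b ∈ W)
    (h : W.valuation (a - b) < 1) (k : ℕ) : W.valuation (a ^ k - b ^ k) < 1 := by
  have hb1 : W.valuation b ≤ 1 := (W.valuation_le_one_iff b).2 hb
  have ha1 : W.valuation a ≤ 1 := by
    have : a = (a - b) + b := by ring
    rw [this]
    exact (W.valuation.map_add _ _).trans (max_le h.le hb1)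
  induction k with
  | zero => simp
  | succ k ih =>
    have e : a ^ (k + 1) - b ^ (k + 1) = (a - b) * a ^ k + (a ^ k - b ^ k) * b := by ring
    rw [e]
    refine W.valuation.map_add_lt ?_ ?_
    · rw [map_mul, map_pow]
      exact mul_lt_one_of_lt_of_le h (pow_le_one₀ zero_le ha1)
    · rw [map_mul]
      exact mul_lt_one_of_lt_of_le ih hb1

theorem triv_val_eq_one_of_pow {Γ : Type*} [LinearOrderedCommGroupWithZero Γ] {R : Type*} [Ring R]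
    (v : Valuation R Γ) {n : ℕ} (hn : n ≠ 0) {z : R} (h : z ^ n = 1) : v z = 1 := by
  have h1 : v z ^ n = 1 := by rw [← map_pow, h, map_one]
  exact (pow_eq_one_iff_of_nonneg zero_le hn).1 h1

/-- a datum with ratios `ζ c / ζ 1 = ξ c` becomes trivial after changing `lam c` by `ξ c`. -/
theorem Datum.trivial {A₀ : ValuationSubring K₀} {V : Fin 3 → ValuationSubring F}
    {R : Subring F} (hR : IsPt A₀ R) (hle : ∀ c, ∀ r ∈ R, r ∈ V c)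
    {n : ℕ} (hn : n ≠ 0) {u : F} {lam : Fin 3 → F} {g : F} {ζ ξ : Fin 3 → K₀}
    (hζ : ∀ c, ζ c ^ n = 1)
    (hlam : ∀ c, (V c).valuation (lam c) = 1)
    (hD : Datum V R n u lam g ζ) (k : ℕ) (hξ : ∀ c, (ζ c / ζ 1) ^ k = ξ c) :
    TrivDatum V R n (u ^ k) (fun c => lam c ^ k * algebraMap K₀ F (ξ c)) := by
  obtain ⟨hU, hc⟩ := hD
  have hζ0 : ∀ c, ζ c ≠ 0 := fun c h0 => by
    have := hζ c
    rw [h0, zero_pow hn] at this
    exact zero_ne_one this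
  have hζF : ∀ c, algebraMap K₀ F (ζ c) ≠ 0 := fun c => by
    rw [Ne, map_eq_zero]; exact hζ0 c
  refine ⟨g ^ k * (algebraMap K₀ F (ζ 1) ^ k)⁻¹, ?_, ?_⟩
  · have e : (g ^ k * (algebraMap K₀ F (ζ 1) ^ k)⁻¹) ^ n * u ^ k = (g ^ n * u) ^ k := by
      have h1 : (algebraMap K₀ F (ζ 1) ^ k) ^ n = 1 := by
        rw [← pow_mul, mul_comm, pow_mul, ← map_pow, hζ 1, map_one, one_pow]
      rw [mul_pow, inv_pow, h1, inv_one, mul_one, mul_pow, ← pow_mul, ← pow_mul, mul_comm k n]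
    rw [e]
    exact triv_RUnit_pow hU k
  · intro c _
    obtain ⟨r, hrR, hv, hrad⟩ := hc c
    have hinvA : ((ζ c)⁻¹) ^ k ∈ A₀ := by
      rw [← A₀.valuation_le_one_iff, map_pow, map_inv₀,
        triv_val_eq_one_of_pow A₀.valuation hn (hζ c)]
      simp
    have hinvR : algebraMap K₀ F (((ζ c)⁻¹) ^ k) ∈ R := hR.const_mem _ hinvA
    have hζA : ζ c ∈ A₀ := by
      rw [← A₀.valuation_le_one_iff, triv_val_eq_one_of_pow A₀.valuation hn (hζ c)]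
    have hζR : algebraMap K₀ F (ζ c) ∈ R := hR.const_mem _ hζA
    refine ⟨r ^ k * algebraMap K₀ F (((ζ c)⁻¹) ^ k), R.mul_mem (R.pow_mem hrR k) hinvR, ?_, ?_⟩
    · have hlam0 : lam c ≠ 0 := fun h0 => by
        have := hlam c
        rw [h0, map_zero] at this
        exact zero_ne_one this
      have hξc : algebraMap K₀ F (ξ c) = algebraMap K₀ F (ζ c) ^ k / algebraMap K₀ F (ζ 1) ^ k := by
        rw [← hξ c, div_pow, map_div₀, map_pow, map_pow]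
      have e : g ^ k * (algebraMap K₀ F (ζ 1) ^ k)⁻¹ / (lam c ^ k * algebraMap K₀ F (ξ c)) -
          r ^ k * algebraMap K₀ F (((ζ c)⁻¹) ^ k) =
          ((g / lam c) ^ k - r ^ k) * algebraMap K₀ F (((ζ c)⁻¹) ^ k) := by
        rw [hξc, map_pow, map_inv₀, div_pow, inv_pow]
        have h1 := pow_ne_zero k (hζF 1)
        have h2 := pow_ne_zero k (hζF c)
        have h3 := pow_ne_zero k hlam0
        field_simp
      rw [e, map_mul]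
      exact mul_lt_one_of_lt_of_le (triv_val_pow_sub_pow (V c) (hle c r hrR) hv k)
        (((V c).valuation_le_one_iff _).2 (hle c _ hinvR))
    · have e : r ^ k * algebraMap K₀ F (((ζ c)⁻¹) ^ k) - 1 =
          (r ^ k - algebraMap K₀ F (ζ c) ^ k) * algebraMap K₀ F (((ζ c)⁻¹) ^ k) := by
        rw [map_pow, map_inv₀, inv_pow]
        have h2 := pow_ne_zero k (hζF c)
        field_simp
      rw [e]
      exact triv_rad_mul (triv_rad_pow_sub_pow hR hrR hζR hrad k) hinvR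

variable {A₀ : ValuationSubring K₀} {q : ℕ} {x : F} {V : Fin 3 → ValuationSubring F} {ϖm : F}
  {Eα Eβ : Subfield F} {Nα Nβ : F →* F}

/-- `ζ` is the value vector of a gluing datum of `u` at some crossing point. -/
def TrivRef (A₀ : ValuationSubring K₀) (V : Fin 3 → ValuationSubring F) (Eα Eβ : Subfield F)
    (Nα Nβ : F →* F) (n : ℕ) (u : F) (lam : Fin 3 → F) (ζ : Fin 3 → K₀) : Prop :=
  ∃ (R : Subring F) (g : F), IsPt A₀ R ∧ (∀ c, Through R (V c)) ∧ HalfPt Eα Nα (V 0) (V 1) R ∧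
    HalfPt Eβ Nβ (V 2) (V 1) R ∧ (∀ c, ζ c ^ n = 1) ∧ Datum V R n u lam g ζ

/-- the local step of layer 1, at one closed point of one chart. -/
theorem Model.triv_point (M : Model A₀ q x V ϖm Eα Eβ Nα Nβ) {n : ℕ} (hn : ¬ q ∣ n)
    {u : F} (hu : ∀ c, (V c).valuation u = 1) (hd : HorDiv K₀ n u) {lam : Fin 3 → F}
    (hlam : ∀ c, (V c).valuation (lam c) = 1)
    (hlu : ∀ c, (V c).valuation (lam c ^ n * u - 1) < 1) (k : ℕ) {ξ : Fin 3 → K₀}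
    (hξ : ∀ ζ, TrivRef A₀ V Eα Eβ Nα Nβ n u lam ζ → ∀ c, (ζ c / ζ 1) ^ k = ξ c)
    (hlam' : ∀ c, (V c).valuation (lam c ^ k * algebraMap K₀ F (ξ c)) = 1)
    (hlu' : ∀ c, (V c).valuation ((lam c ^ k * algebraMap K₀ F (ξ c)) ^ n * u ^ k - 1) < 1)
    (𝔫 : Ideal (chart A₀.toSubring x)) [𝔫.IsMaximal] (h𝔫 : (q : chart A₀.toSubring x) ∈ 𝔫) :
    TrivDatum V (locSub (chart A₀.toSubring x) 𝔫) n (u ^ k)
      (fun c => lam c ^ k * algebraMap K₀ F (ξ c)) := by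
  have hn0 : n ≠ 0 := fun h => hn (h ▸ dvd_zero q)
  have hpt := M.isPt 𝔫 h𝔫
  have hP := M.pts₁ 𝔫 h𝔫
  obtain ⟨g₀, hg₀⟩ := M.exists_local_root 𝔫 h𝔫 hu hd
  rcases hP.cross with ⟨c₀, hA⟩ | ⟨hT, hHα, hHβ⟩
  · refine trivDatum_of_single hpt hA hn0 hlam' hlu' (g₀ := g₀ ^ k) ?_
    have e : (g₀ ^ k) ^ n * u ^ k = (g₀ ^ n * u) ^ k := by
      rw [mul_pow, ← pow_mul, ← pow_mul, mul_comm k n]
    rw [e]
    exact triv_RUnit_pow hg₀ k
  · obtain ⟨g, ζ, hζ, hD⟩ := exists_datum M.base hpt hT hn hlam hlu hg₀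
    exact Datum.trivial hpt (fun c => (hT c).le) hn0 hζ hlam hD k
      (hξ ζ ⟨_, g, hpt, hT, hHα, hHβ, hζ, hD⟩)

/-- **Layer 1.** -/
theorem Model.exists_trivial_lambda (M : Model A₀ q x V ϖm Eα Eβ Nα Nβ) {n : ℕ} (hn : ¬ q ∣ n)
    {u : F} (hu : ∀ c, (V c).valuation u = 1) (hd : HorDiv K₀ n u) {lam : Fin 3 → F}
    (hlam : ∀ c, (V c).valuation (lam c) = 1)
    (hlu : ∀ c, (V c).valuation (lam c ^ n * u - 1) < 1)
    (hα : IsConstPow K₀ Eα n (Nα u)) (hβ : IsConstPow K₀ Eβ n (Nβ u)) :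
    ∃ lam' : Fin 3 → F, (∀ c, (V c).valuation (lam' c) = 1) ∧
      (∀ c, (V c).valuation (lam' c ^ n * u ^ (q ^ 2 - 1) - 1) < 1) ∧
      (∀ (𝔫 : Ideal (chart A₀.toSubring x)) [𝔫.IsMaximal], (q : chart A₀.toSubring x) ∈ 𝔫 →
        TrivDatum V (locSub (chart A₀.toSubring x) 𝔫) n (u ^ (q ^ 2 - 1)) lam') ∧
      (∀ (𝔫 : Ideal (chart A₀.toSubring x⁻¹)) [𝔫.IsMaximal], (q : chart A₀.toSubring x⁻¹) ∈ 𝔫 →
        TrivDatum V (locSub (chart A₀.toSubring x⁻¹) 𝔫) n (u ^ (q ^ 2 - 1)) lam') := by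
  have hn0 : n ≠ 0 := fun h => hn (h ▸ dvd_zero q)
  have hq : 0 < q := M.base.prime.pos
  set k : ℕ := q ^ 2 - 1 with hk
  -- the two norm-holonomy relations
  obtain ⟨wα, hwαE, hNα⟩ :=
    M.halfα.exists_norm_root M.base M.constα (M.const_mem 2) M.unif2 hn (hu 2) hα
  obtain ⟨wβ, hwβE, hNβ⟩ :=
    M.halfβ.exists_norm_root M.base M.constβ (M.const_mem 0) M.unif0 hn (hu 0) hβ
  obtain ⟨κ₁, hκ₁n, hrel₁⟩ := M.halfα.relation M.base (M.const_mem 0) (M.const_mem 2) hn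
    (hu 0) (hu 1) (hu 2) (hlam 0) (hlam 1) (hlam 2) (hlu 0) (hlu 1) (hlu 2) hwαE hNα
  obtain ⟨κ₂, hκ₂n, hrel₂⟩ := M.halfβ.relation M.base (M.const_mem 2) (M.const_mem 0) hn
    (hu 2) (hu 1) (hu 0) (hlam 2) (hlam 1) (hlam 0) (hlu 2) (hlu 1) (hlu 0) hwβE hNβ
  have hne : ∀ z : K₀, z ^ n = 1 → z ≠ 0 := fun z hz h0 => by
    rw [h0, zero_pow hn0] at hz
    exact zero_ne_one hz
  -- the ratios do not depend on the crossing point
  have hconst : ∀ ζ ζ', TrivRef A₀ V Eα Eβ Nα Nβ n u lam ζ →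
      TrivRef A₀ V Eα Eβ Nα Nβ n u lam ζ' → ∀ c, (ζ c / ζ 1) ^ k = (ζ' c / ζ' 1) ^ k := by
    rintro ζ ζ' ⟨R, g, hpt, hT, hHα, hHβ, hζ, hD⟩ ⟨R', g', hpt', hT', hHα', hHβ', hζ', hD'⟩
    have h1 : ζ 0 * ζ 1 ^ (q - 1) = κ₁ * ζ 2 ^ q :=
      hrel₁ R hpt (hT 0).le (hT 1).le (hT 2).le hHα g (ζ 0) (ζ 1) (ζ 2) (hζ 0) (hζ 1) (hζ 2)
        hD.1 (hD.2 0) (hD.2 1) (hD.2 2)
    have h2 : ζ 2 * ζ 1 ^ (q - 1) = κ₂ * ζ 0 ^ q :=
      hrel₂ R hpt (hT 2).le (hT 1).le (hT 0).le hHβ g (ζ 2) (ζ 1) (ζ 0) (hζ 2) (hζ 1) (hζ 0)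
        hD.1 (hD.2 2) (hD.2 1) (hD.2 0)
    have h1' : ζ' 0 * ζ' 1 ^ (q - 1) = κ₁ * ζ' 2 ^ q :=
      hrel₁ R' hpt' (hT' 0).le (hT' 1).le (hT' 2).le hHα' g' (ζ' 0) (ζ' 1) (ζ' 2) (hζ' 0) (hζ' 1)
        (hζ' 2) hD'.1 (hD'.2 0) (hD'.2 1) (hD'.2 2)
    have h2' : ζ' 2 * ζ' 1 ^ (q - 1) = κ₂ * ζ' 0 ^ q :=
      hrel₂ R' hpt' (hT' 2).le (hT' 1).le (hT' 0).le hHβ' g' (ζ' 2) (ζ' 1) (ζ' 0) (hζ' 2) (hζ' 1)
        (hζ' 0) hD'.1 (hD'.2 2) (hD'.2 1) (hD'.2 0)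
    have hr := ratio_const hq (hne _ (hζ 0)) (hne _ (hζ 1)) (hne _ (hζ 2)) (hne _ (hζ' 0))
      (hne _ (hζ' 1)) (hne _ (hζ' 2)) (hne _ hκ₁n) (hne _ hκ₂n) h1 h2 h1' h2'
    intro c
    fin_cases c
    · exact hr.1
    · change (ζ 1 / ζ 1) ^ k = (ζ' 1 / ζ' 1) ^ k
      rw [div_self (hne _ (hζ 1)), div_self (hne _ (hζ' 1))]
    · exact hr.2
  -- the correction constants
  obtain ⟨ξ, hξn, hξ⟩ : ∃ ξ : Fin 3 → K₀, (∀ c, ξ c ^ n = 1) ∧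
      ∀ ζ, TrivRef A₀ V Eα Eβ Nα Nβ n u lam ζ → ∀ c, (ζ c / ζ 1) ^ k = ξ c := by
    by_cases hex : ∃ ζ, TrivRef A₀ V Eα Eβ Nα Nβ n u lam ζ
    · obtain ⟨ζ₀, h₀⟩ := hex
      refine ⟨fun c => (ζ₀ c / ζ₀ 1) ^ k, fun c => ?_, fun ζ hζ c => hconst ζ ζ₀ hζ h₀ c⟩
      obtain ⟨R, g, -, -, -, -, hζ, -⟩ := h₀
      change ((ζ₀ c / ζ₀ 1) ^ k) ^ n = 1
      rw [← pow_mul, mul_comm, pow_mul, div_pow, hζ c, hζ 1, div_one, one_pow]
    · exact ⟨fun _ => 1, fun _ => one_pow n, fun ζ hζ => absurd ⟨ζ, hζ⟩ hex⟩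
  have hξV : ∀ c, (V c).valuation (algebraMap K₀ F (ξ c)) = 1 := fun c =>
    triv_val_eq_one_of_pow (V c).valuation hn0 (by rw [← map_pow, hξn c, map_one])
  have hlam' : ∀ c, (V c).valuation (lam c ^ k * algebraMap K₀ F (ξ c)) = 1 := fun c => by
    rw [map_mul, map_pow, hlam c, hξV c, one_pow, one_mul]
  have hlu' : ∀ c, (V c).valuation ((lam c ^ k * algebraMap K₀ F (ξ c)) ^ n * u ^ k - 1) < 1 := by
    intro c
    have e : (lam c ^ k * algebraMap K₀ F (ξ c)) ^ n * u ^ k - 1 = (lam c ^ n * u) ^ k - 1 ^ k := by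
      rw [mul_pow, ← map_pow, hξn c, map_one, mul_one, one_pow, mul_pow, ← pow_mul, ← pow_mul,
        mul_comm k n]
    rw [e]
    exact triv_val_pow_sub_pow (V c) (V c).one_mem (hlu c) k
  refine ⟨fun c => lam c ^ k * algebraMap K₀ F (ξ c), hlam', hlu', ?_, ?_⟩
  · intro 𝔫 _ h𝔫
    exact M.triv_point hn hu hd hlam hlu k hξ hlam' hlu' 𝔫 h𝔫
  · intro 𝔫 _ h𝔫
    exact M.inv.triv_point hn hu hd hlam hlu k hξ hlam' hlu' 𝔫 h𝔫

end Fermat.Agent.S36.BP
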