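/-
S36, block BP (owner helper192): **the abstract form of (B')**, assembled from the blocks
`Orders` (layer 0), `Residues` (layer 0'), `Trivial` (layer 1), `Inj` (layer 2).
-/
import Mathlib
import Fermat.Agent.S18.Defs
import Fermat.Agent.S18.Chart.Const
import Fermat.Agent.S36.BP.Defs
import Fermat.Agent.S36.BP.Symm
import Fermat.Agent.S36.BP.Orders
import Fermat.Agent.S36.BP.Residues
import Fermat.Agent.S36.BP.Trivial
import Fermat.Agent.S36.BP.Inj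

set_option autoImplicit false

noncomputable section

namespace Fermat.Agent.S36.BP

open Fermat.Agent.S18 IntermediateField

variable {K₀ F : Type*} [Field K₀] [Field F] [Algebra K₀ F]

variable {A₀ : ValuationSubring K₀} {q : ℕ} {x : F} {V : Fin 3 → ValuationSubring F} {ϖm : F}
  {Eα Eβ : Subfield F} {Nα Nβ : F →* F}

/-- **The abstract form of (B').** -/
theorem Model.bp_abs (M : Model A₀ q x V ϖm Eα Eβ Nα Nβ) {n : ℕ} (hn : ¬ q ∣ n) {u : F}
    (hu : u ≠ 0) (hd : HorDiv K₀ n u)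
    (hα : IsConstPow K₀ Eα n (Nα u)) (hβ : IsConstPow K₀ Eβ n (Nβ u)) :
    ∃ s : F, s ≠ 0 ∧ IsAlgebraic K₀ (s ^ n * u ^ ((q + 1) * (q - 1) * (q ^ 2 - 1))) := by
  have hq0 : (q : K₀) ≠ 0 := by
    have := M.base.charZero
    exact Nat.cast_ne_zero.mpr M.base.prime.ne_zero
  -- layer 0
  obtain ⟨h, k, hh0, hunit⟩ := M.exists_unit_rep hn hu hα hβ
  have hck : (q : K₀) ^ k ≠ 0 := zpow_ne_zero _ hq0
  set u₂ : F := u ^ (q + 1) * algebraMap K₀ F ((q : K₀) ^ k) * h ^ n with hu₂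
  have hd₂ : HorDiv K₀ n u₂ := ((hd.pow (q + 1)).mul_const hck).mul_pow hh0
  have hNh : ∀ (E : Subfield F) (N : F →* F), (∀ y, N y ∈ E) → IsConstPow K₀ E n (N (h ^ n)) := by
    intro E N hN
    rw [map_pow]
    refine isConstPow_pow E n ?_ (hN h)
    intro h0
    have h1 : N h * N h⁻¹ = 1 := by rw [← map_mul, mul_inv_cancel₀ hh0, map_one]
    rw [h0, zero_mul] at h1
    exact zero_ne_one h1
  have hα₂ : IsConstPow K₀ Eα n (Nα u₂) := by
    rw [hu₂, map_mul, map_mul, map_pow Nα u, M.normα_const, ← map_pow (algebraMap K₀ F)]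
    exact ((hα.pow _).mul (isConstPow_const Eα n (pow_ne_zero _ hck))).mul
      (hNh Eα Nα M.halfα.norm_mem)
  have hβ₂ : IsConstPow K₀ Eβ n (Nβ u₂) := by
    rw [hu₂, map_mul, map_mul, map_pow Nβ u, M.normβ_const, ← map_pow (algebraMap K₀ F)]
    exact ((hβ.pow _).mul (isConstPow_const Eβ n (pow_ne_zero _ hck))).mul
      (hNh Eβ Nβ M.halfβ.norm_mem)
  -- layer 0'
  obtain ⟨lam, hlam, hlu⟩ := M.exists_lambda hn hunit hα₂ hβ₂
  set u₃ : F := u₂ ^ (q - 1) with hu₃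
  have hunit₃ : ∀ c, (V c).valuation u₃ = 1 := fun c => by rw [hu₃, map_pow, hunit c, one_pow]
  have hα₃ : IsConstPow K₀ Eα n (Nα u₃) := by rw [hu₃, map_pow]; exact hα₂.pow _
  have hβ₃ : IsConstPow K₀ Eβ n (Nβ u₃) := by rw [hu₃, map_pow]; exact hβ₂.pow _
  -- layer 1
  obtain ⟨lam', hlam', hlu', ht₁, ht₂⟩ :=
    M.exists_trivial_lambda hn hunit₃ (hd₂.pow _) hlam hlu hα₃ hβ₃
  -- layer 2
  obtain ⟨s, hs0, hs₁, hs₂⟩ := M.inj_multi hn hlam' hlu' ht₁ ht₂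
  have halg : IsAlgebraic K₀ (s ^ n * u₃ ^ (q ^ 2 - 1)) :=
    const_abs M.transc (chart_mono le_top x hs₁) (chart_mono le_top x⁻¹ hs₂)
  -- unwinding
  set e : ℕ := (q - 1) * (q ^ 2 - 1) with he
  refine ⟨s * h ^ e, mul_ne_zero hs0 (pow_ne_zero _ hh0), ?_⟩
  have hc : algebraMap K₀ F (((q : K₀) ^ k) ^ e) ≠ 0 := by
    rw [Ne, map_eq_zero]; exact pow_ne_zero _ hck
  have key : (s * h ^ e) ^ n * u ^ ((q + 1) * (q - 1) * (q ^ 2 - 1)) =
      s ^ n * u₃ ^ (q ^ 2 - 1) * (algebraMap K₀ F (((q : K₀) ^ k) ^ e))⁻¹ := by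
    rw [eq_mul_inv_iff_mul_eq₀ hc, hu₃, hu₂, ← pow_mul, ← he, mul_pow, mul_pow, mul_pow, map_pow,
      ← pow_mul, ← pow_mul, ← pow_mul, mul_assoc (q + 1), ← he, mul_comm e n]
    ring
  rw [key]
  exact halg.mul (isAlgebraic_algebraMap _).inv

end Fermat.Agent.S36.BP
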