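/-
S36, block BP (owner helper192): shared API (second file; `Cong.lean` of helper264 has `Cong`).
* `Cg V a b`  : `a ≡ b` modulo the maximal ideal of the valuation subring `V`;
* `Cr R a b`  : `a ≡ b` modulo the nonunits of the (local) subring `R`;
* calculus of `RUnit`, `rad`.
-/
import Mathlib
import Fermat.Agent.S36.BP.Defs
import Fermat.Agent.S36.BP.Cong

set_option autoImplicit false

namespace Fermat.Agent.S36.BP

variable {F : Type*} [Field F]

section Val

variable {V : ValuationSubring F} {a b c d y : F}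

/-- `a ≡ b` modulo the maximal ideal of `V`. -/
def Cg (V : ValuationSubring F) (a b : F) : Prop := V.valuation (a - b) < 1

theorem cg_def : Cg V a b ↔ V.valuation (a - b) < 1 := Iff.rfl

/-- `Cg` is the same as `Cong` of `Cong.lean`. -/
theorem cg_iff_cong : Cg V a b ↔ Cong V a b := Iff.rfl

theorem mem_iff_val_le : y ∈ V ↔ V.valuation y ≤ 1 := (V.valuation_le_one_iff y).symm

theorem Cg.refl (V : ValuationSubring F) (a : F) : Cg V a a := by
  simp [Cg]

theorem Cg.symm (h : Cg V a b) : Cg V b a := by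
  unfold Cg at *
  rwa [Valuation.map_sub_swap]

theorem Cg.trans (h : Cg V a b) (h' : Cg V b c) : Cg V a c := by
  unfold Cg at *
  have : a - c = (a - b) + (b - c) := by ring
  rw [this]
  exact Valuation.map_add_lt _ h h'

theorem Cg.add (h : Cg V a b) (h' : Cg V c d) : Cg V (a + c) (b + d) := by
  unfold Cg at *
  have : a + c - (b + d) = (a - b) + (c - d) := by ring
  rw [this]
  exact Valuation.map_add_lt _ h h'

theorem Cg.neg (h : Cg V a b) : Cg V (-a) (-b) := by
  unfold Cg at *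
  have : -a - -b = -(a - b) := by ring
  rw [this, Valuation.map_neg]
  exact h

theorem Cg.sub (h : Cg V a b) (h' : Cg V c d) : Cg V (a - c) (b - d) := by
  rw [sub_eq_add_neg, sub_eq_add_neg]
  exact h.add h'.neg

theorem Cg.val_le_one (h : Cg V a b) (hb : V.valuation b ≤ 1) : V.valuation a ≤ 1 := by
  have : a = (a - b) + b := by ring
  rw [this]
  exact Valuation.map_add_le _ h.le hb

theorem Cg.val_eq_one (h : Cg V a b) (hb : V.valuation b = 1) : V.valuation a = 1 := by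
  have : a = b + (a - b) := by ring
  rw [this, Valuation.map_add_eq_of_lt_left _ (by rw [hb]; exact h), hb]

theorem Cg.val_lt_one (h : Cg V a b) (hb : V.valuation b < 1) : V.valuation a < 1 := by
  have : a = (a - b) + b := by ring
  rw [this]
  exact Valuation.map_add_lt _ h hb

theorem cg_zero_iff : Cg V a 0 ↔ V.valuation a < 1 := by
  simp [Cg]

theorem Cg.mul_left (h : Cg V a b) (hc : V.valuation c ≤ 1) : Cg V (c * a) (c * b) := by
  unfold Cg at *
  rw [← mul_sub, map_mul]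
  exact mul_lt_one_of_nonneg_of_lt_one_right hc zero_le h

theorem Cg.mul_right (h : Cg V a b) (hc : V.valuation c ≤ 1) : Cg V (a * c) (b * c) := by
  rw [mul_comm a, mul_comm b]
  exact h.mul_left hc

theorem Cg.mul (h : Cg V a b) (h' : Cg V c d) (hb : V.valuation b ≤ 1) (hc : V.valuation c ≤ 1) :
    Cg V (a * c) (b * d) :=
  (h.mul_right hc).trans (h'.mul_left hb)

theorem Cg.pow (h : Cg V a b) (hb : V.valuation b ≤ 1) (n : ℕ) : Cg V (a ^ n) (b ^ n) := by
  induction n with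
  | zero => simpa using Cg.refl V 1
  | succ n ih =>
    rw [pow_succ, pow_succ]
    refine ih.mul h ?_ (h.val_le_one hb)
    rw [map_pow]
    exact pow_le_one' hb n

theorem ne_zero_of_val_eq_one (h : V.valuation a = 1) : a ≠ 0 := by
  rintro rfl
  simp at h

theorem val_inv_eq_one (h : V.valuation a = 1) : V.valuation a⁻¹ = 1 := by
  rw [map_inv₀, h, inv_one]

theorem val_mul_eq_one (h : V.valuation a = 1) (h' : V.valuation b = 1) :
    V.valuation (a * b) = 1 := by
  rw [map_mul, h, h', one_mul]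

theorem val_div_eq_one (h : V.valuation a = 1) (h' : V.valuation b = 1) :
    V.valuation (a / b) = 1 := by
  rw [map_div₀, h, h', div_one]

theorem val_pow_eq_one (h : V.valuation a = 1) (n : ℕ) : V.valuation (a ^ n) = 1 := by
  rw [map_pow, h, one_pow]

theorem val_zpow_eq_one (h : V.valuation a = 1) (n : ℤ) : V.valuation (a ^ n) = 1 := by
  rw [map_zpow₀, h, one_zpow]

theorem val_eq_one_of_pow {n : ℕ} (hn : n ≠ 0) (h : V.valuation (a ^ n) = 1) :
    V.valuation a = 1 := by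
  rw [map_pow] at h
  exact (pow_eq_one_iff_left hn).1 h

theorem val_le_one_of_pow {n : ℕ} (hn : n ≠ 0) (h : V.valuation (a ^ n) ≤ 1) :
    V.valuation a ≤ 1 := by
  rw [map_pow] at h
  exact (pow_le_one_iff hn).1 h

theorem val_eq_one_iff : V.valuation a = 1 ↔ a ≠ 0 ∧ a ∈ V ∧ a⁻¹ ∈ V := by
  constructor
  · intro h
    exact ⟨ne_zero_of_val_eq_one h, mem_iff_val_le.2 h.le, mem_iff_val_le.2 (val_inv_eq_one h).le⟩
  · rintro ⟨h0, h1, h2⟩
    rw [mem_iff_val_le] at h1 h2
    rw [map_inv₀] at h2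
    refine le_antisymm h1 ?_
    have hv : V.valuation a ≠ 0 := (Valuation.ne_zero_iff _).2 h0
    exact (inv_le_one₀ (zero_lt_iff.2 hv)).1 h2

theorem Cg.inv (h : Cg V a b) (hb : V.valuation b = 1) : Cg V a⁻¹ b⁻¹ := by
  have ha := h.val_eq_one hb
  have ha0 := ne_zero_of_val_eq_one ha
  have hb0 := ne_zero_of_val_eq_one hb
  unfold Cg at *
  have : a⁻¹ - b⁻¹ = -(a - b) * (a⁻¹ * b⁻¹) := by field_simp; ring
  rw [this, map_mul, map_mul, Valuation.map_neg, val_inv_eq_one ha, val_inv_eq_one hb, mul_one,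
    mul_one]
  exact h

theorem Cg.div (h : Cg V a b) (h' : Cg V c d) (hb : V.valuation b ≤ 1) (hd : V.valuation d = 1) :
    Cg V (a / c) (b / d) := by
  rw [div_eq_mul_inv, div_eq_mul_inv]
  exact h.mul (h'.inv hd) hb (val_inv_eq_one (h'.val_eq_one hd)).le

theorem Cg.zpow (h : Cg V a b) (hb : V.valuation b = 1) (n : ℤ) : Cg V (a ^ n) (b ^ n) := by
  cases n with
  | ofNat n => simpa using h.pow hb.le n
  | negSucc n =>
    rw [zpow_negSucc, zpow_negSucc]
    exact (h.pow hb.le _).inv (val_pow_eq_one hb _)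

/-- `a * b ≡ 1` and `b` a unit: `a ≡ b⁻¹`. -/
theorem Cg.eq_inv_of_mul (h : Cg V (a * b) 1) (hb : V.valuation b = 1) : Cg V a b⁻¹ := by
  have hb0 := ne_zero_of_val_eq_one hb
  have := h.mul_right (c := b⁻¹) (val_inv_eq_one hb).le
  rwa [mul_assoc, mul_inv_cancel₀ hb0, mul_one, one_mul] at this

/-- a product of elements of valuation `≤ 1` which has valuation `< 1` has a factor of valuation
`< 1`. -/
theorem exists_val_lt_one_of_prod {ι : Type*} (s : Finset ι) (f : ι → F)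
    (hf : ∀ i ∈ s, V.valuation (f i) ≤ 1) (h : V.valuation (∏ i ∈ s, f i) < 1) :
    ∃ i ∈ s, V.valuation (f i) < 1 := by
  by_contra hcon
  push Not at hcon
  have : ∀ i ∈ s, V.valuation (f i) = 1 := fun i hi => le_antisymm (hf i hi) (hcon i hi)
  rw [map_prod, Finset.prod_congr rfl this, Finset.prod_const_one] at h
  exact lt_irrefl _ h

end Val

section Rad

variable {R : Subring F} {a b c d y : F}

theorem RUnit.ne_zero (h : RUnit R a) : a ≠ 0 := h.1

theorem RUnit.mem (h : RUnit R a) : a ∈ R := h.2.1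

theorem RUnit.inv_mem (h : RUnit R a) : a⁻¹ ∈ R := h.2.2

theorem RUnit.one (R : Subring F) : RUnit R 1 := ⟨one_ne_zero, R.one_mem, by simp [R.one_mem]⟩

theorem RUnit.mul (h : RUnit R a) (h' : RUnit R b) : RUnit R (a * b) :=
  ⟨mul_ne_zero h.1 h'.1, R.mul_mem h.mem h'.mem, by
    rw [mul_inv]; exact R.mul_mem h.inv_mem h'.inv_mem⟩

theorem RUnit.inv (h : RUnit R a) : RUnit R a⁻¹ :=
  ⟨inv_ne_zero h.1, h.inv_mem, by rw [inv_inv]; exact h.mem⟩

theorem RUnit.div (h : RUnit R a) (h' : RUnit R b) : RUnit R (a / b) := by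
  rw [div_eq_mul_inv]; exact h.mul h'.inv

theorem RUnit.pow (h : RUnit R a) (n : ℕ) : RUnit R (a ^ n) :=
  ⟨pow_ne_zero _ h.1, R.pow_mem h.mem n, by rw [← inv_pow]; exact R.pow_mem h.inv_mem n⟩

theorem RUnit.neg (h : RUnit R a) : RUnit R (-a) :=
  ⟨neg_ne_zero.2 h.1, R.neg_mem h.mem, by rw [inv_neg]; exact R.neg_mem h.inv_mem⟩

/-- a factor (in `R`) of a unit is a unit. -/
theorem RUnit.of_mul_left (ha : a ∈ R) (hb : b ∈ R) (h : RUnit R (a * b)) : RUnit R a := by
  have ha0 : a ≠ 0 := left_ne_zero_of_mul h.1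
  have hb0 : b ≠ 0 := right_ne_zero_of_mul h.1
  refine ⟨ha0, ha, ?_⟩
  have : a⁻¹ = b * (a * b)⁻¹ := by field_simp
  rw [this]
  exact R.mul_mem hb h.inv_mem

theorem RUnit.of_pow {n : ℕ} (hn : n ≠ 0) (ha : a ∈ R) (h : RUnit R (a ^ n)) : RUnit R a := by
  obtain ⟨k, rfl⟩ := Nat.exists_eq_succ_of_ne_zero hn
  rw [pow_succ'] at h
  exact RUnit.of_mul_left ha (R.pow_mem ha k) h

theorem RUnit.val_eq_one {V : ValuationSubring F} (hle : ∀ r ∈ R, r ∈ V) (h : RUnit R a) :
    V.valuation a = 1 :=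
  val_eq_one_iff.2 ⟨h.1, hle _ h.mem, hle _ h.inv_mem⟩

theorem mem_rad_iff : y ∈ rad R ↔ y ∈ R ∧ ¬ RUnit R y := Iff.rfl

theorem mem_of_mem_rad (h : y ∈ rad R) : y ∈ R := h.1

theorem zero_mem_rad (R : Subring F) : (0 : F) ∈ rad R := ⟨R.zero_mem, fun h => h.1 rfl⟩

theorem runit_or_mem_rad (h : y ∈ R) : RUnit R y ∨ y ∈ rad R := by
  by_cases hu : RUnit R y
  · exact Or.inl hu
  · exact Or.inr ⟨h, hu⟩

theorem mul_mem_rad (ha : a ∈ R) (hy : y ∈ rad R) : a * y ∈ rad R :=
  ⟨R.mul_mem ha hy.1, fun h => hy.2 (by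
    rw [mul_comm] at h
    exact RUnit.of_mul_left hy.1 ha h)⟩

theorem neg_mem_rad (hy : y ∈ rad R) : -y ∈ rad R :=
  ⟨R.neg_mem hy.1, fun h => hy.2 (by simpa using h.neg)⟩

/-- an element of `R` in the maximal ideal of a valuation subring containing `R` is a nonunit. -/
theorem mem_rad_of_val_lt {V : ValuationSubring F} (hle : ∀ r ∈ R, r ∈ V) (hy : y ∈ R)
    (h : V.valuation y < 1) : y ∈ rad R :=
  ⟨hy, fun hu => by rw [hu.val_eq_one hle] at h; exact lt_irrefl _ h⟩

/-- `a ≡ b` modulo the nonunits of `R`. -/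
def Cr (R : Subring F) (a b : F) : Prop := a - b ∈ rad R

theorem cr_def : Cr R a b ↔ a - b ∈ rad R := Iff.rfl

theorem Cr.refl (R : Subring F) (a : F) : Cr R a a := by
  unfold Cr; rw [sub_self]; exact zero_mem_rad R

theorem Cr.symm (h : Cr R a b) : Cr R b a := by
  unfold Cr at *
  have := neg_mem_rad h
  rwa [neg_sub] at this

theorem Cr.mul_left (h : Cr R a b) (hc : c ∈ R) : Cr R (c * a) (c * b) := by
  unfold Cr at *
  rw [← mul_sub]; exact mul_mem_rad hc h

theorem Cr.mul_right (h : Cr R a b) (hc : c ∈ R) : Cr R (a * c) (b * c) := by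
  rw [mul_comm a, mul_comm b]; exact h.mul_left hc

theorem Cr.mem (h : Cr R a b) (hb : b ∈ R) : a ∈ R := by
  have : a = (a - b) + b := by ring
  rw [this]; exact R.add_mem h.1 hb

/-- congruent modulo `𝔪_V` inside `R ⊆ V` implies congruent modulo the nonunits of `R`. -/
theorem Cg.cr {V : ValuationSubring F} (hle : ∀ r ∈ R, r ∈ V) (h : Cg V a b) (ha : a ∈ R)
    (hb : b ∈ R) : Cr R a b :=
  mem_rad_of_val_lt hle (R.sub_mem ha hb) h

end Rad

section Pt

variable {K₀ : Type*} [Field K₀] [Algebra K₀ F] {A₀ : ValuationSubring K₀} {R : Subring F}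
  {a b c d y : F}

theorem IsPt.cr_trans (hR : IsPt A₀ R) (h : Cr R a b) (h' : Cr R b c) : Cr R a c := by
  unfold Cr at *
  have : a - c = (a - b) + (b - c) := by ring
  rw [this]; exact hR.add_rad _ h _ h'

theorem IsPt.cr_add (hR : IsPt A₀ R) (h : Cr R a b) (h' : Cr R c d) : Cr R (a + c) (b + d) := by
  unfold Cr at *
  have : a + c - (b + d) = (a - b) + (c - d) := by ring
  rw [this]; exact hR.add_rad _ h _ h'

theorem IsPt.cr_mul (hR : IsPt A₀ R) (h : Cr R a b) (h' : Cr R c d) (hb : b ∈ R) (hc : c ∈ R) :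
    Cr R (a * c) (b * d) :=
  hR.cr_trans (h.mul_right hc) (h'.mul_left hb)

theorem IsPt.cr_pow (hR : IsPt A₀ R) (h : Cr R a b) (hb : b ∈ R) (n : ℕ) :
    Cr R (a ^ n) (b ^ n) := by
  induction n with
  | zero => simpa using Cr.refl R 1
  | succ n ih =>
    rw [pow_succ, pow_succ]
    exact hR.cr_mul ih h (R.pow_mem hb n) (h.mem hb)

/-- congruent to a unit: unit. -/
theorem IsPt.runit_of_cr (hR : IsPt A₀ R) (h : Cr R a b) (hb : RUnit R b) : RUnit R a := by
  rcases runit_or_mem_rad (h.mem hb.mem) with hu | hr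
  · exact hu
  · exfalso
    have h1 : b ∈ rad R := by
      have : b = a + -(a - b) := by ring
      rw [this]; exact hR.add_rad _ hr _ (neg_mem_rad h)
    exact h1.2 hb

theorem IsPt.cr_inv (hR : IsPt A₀ R) (h : Cr R a b) (hb : RUnit R b) : Cr R a⁻¹ b⁻¹ := by
  have ha := hR.runit_of_cr h hb
  unfold Cr at *
  have : a⁻¹ - b⁻¹ = (a⁻¹ * b⁻¹) * -(a - b) := by
    have := ha.1; have := hb.1; field_simp; ring
  rw [this]
  exact mul_mem_rad (R.mul_mem ha.inv_mem hb.inv_mem) (neg_mem_rad h)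

/-- units of `A₀` are units of `R`. -/
theorem IsPt.runit_const (hR : IsPt A₀ R) {e : K₀} (he : A₀.valuation e = 1) :
    RUnit R (algebraMap K₀ F e) := by
  obtain ⟨h0, h1, h2⟩ := val_eq_one_iff.1 he
  exact ⟨by simpa using h0, hR.const_mem _ h1, by rw [← map_inv₀]; exact hR.const_mem _ h2⟩

/-- `rad R ∩ A₀ = 𝔪(A₀)`. -/
theorem IsPt.val_lt_one_of_const_mem_rad (hR : IsPt A₀ R) {e : K₀} (he : e ∈ A₀)
    (h : algebraMap K₀ F e ∈ rad R) : A₀.valuation e < 1 := by
  rcases lt_or_eq_of_le (mem_iff_val_le.1 he) with hlt | heq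
  · exact hlt
  · exact absurd (hR.runit_const heq) h.2

theorem IsPt.mem_of_pow_mem (hR : IsPt A₀ R) {n : ℕ} (hn : n ≠ 0) (h : y ^ n ∈ R) : y ∈ R := by
  apply hR.intClosed
  refine ⟨Polynomial.X ^ n - Polynomial.C (⟨y ^ n, h⟩ : R),
    Polynomial.monic_X_pow_sub_C _ hn, ?_⟩
  simp only [Polynomial.eval₂_sub, Polynomial.eval₂_pow, Polynomial.eval₂_X, Polynomial.eval₂_C]
  exact sub_self _

theorem IsPt.runit_of_pow (hR : IsPt A₀ R) {n : ℕ} (hn : n ≠ 0) (h : RUnit R (y ^ n)) :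
    RUnit R y :=
  RUnit.of_pow hn (hR.mem_of_pow_mem hn h.mem) h

end Pt

end Fermat.Agent.S36.BP
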