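/-
S36, block BP / APPROX (owner helper217): weak approximation, prescribed orders at finitely many
distinct discrete valuation subrings of a field.  Mathlib + S18/Defs + S18/Chart/Unif only.
-/
import Mathlib
import Fermat.Agent.S18.Defs
import Fermat.Agent.S18.Chart.Unif

set_option autoImplicit false

noncomputable section

namespace Fermat.Agent.S36.BP

open Fermat.Agent.S18 Filter

variable {K₀ F : Type*} [Field K₀] [Field F] [Algebra K₀ F]

section APPROX

theorem approx_val_unif_lt_one {W : ValuationSubring F} {ϖ : F} (hU : IsUnif W ϖ) :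
    W.valuation ϖ < 1 := by
  by_contra h
  rw [not_lt] at h
  apply hU.inv_notMem
  rw [← ValuationSubring.valuation_le_one_iff, map_inv₀]
  exact inv_le_one_of_one_le₀ h

theorem approx_val_le_unif {W : ValuationSubring F} {ϖ : F} (hU : IsUnif W ϖ) {a : F}
    (ha : W.valuation a < 1) : W.valuation a ≤ W.valuation ϖ := by
  rcases eq_or_ne a 0 with rfl | ha0
  · rw [map_zero]; exact zero_le
  have hmem : a ∈ W := (W.valuation_le_one_iff a).mp ha.le
  have hinv : a⁻¹ ∉ W := by
    intro h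
    have h1 := (W.valuation_le_one_iff _).mpr h
    rw [map_inv₀] at h1
    have h2 : W.valuation a ≠ 0 := (Valuation.ne_zero_iff _).mpr ha0
    have h3 : 1 ≤ W.valuation a := (inv_le_one₀ (zero_lt_iff.mpr h2)).mp h1
    exact absurd ha (not_lt.mpr h3)
  have h := (W.valuation_le_one_iff _).mpr (hU.div_mem hmem hinv)
  rw [map_div₀] at h
  have hϖ : W.valuation ϖ ≠ 0 := (Valuation.ne_zero_iff _).mpr hU.ne_zero
  exact (div_le_one₀ (zero_lt_iff.mpr hϖ)).mp h

/-- the archimedean property of a discrete valuation -/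
theorem approx_eventually_lt_one {W : ValuationSubring F} {ϖ : F} (hU : IsUnif W ϖ) {a : F}
    (ha : W.valuation a < 1) (b : F) : ∀ᶠ r : ℕ in atTop, W.valuation (a ^ r * b) < 1 := by
  obtain ⟨r₀, hr₀⟩ := hU.exists_pow_mul_mem b
  have h0 := (W.valuation_le_one_iff _).mpr hr₀
  rw [map_mul, map_pow] at h0
  filter_upwards [eventually_gt_atTop r₀] with r hr
  obtain ⟨s, rfl⟩ : ∃ s, r = (s + 1) + r₀ := ⟨r - r₀ - 1, by omega⟩
  calc W.valuation (a ^ (s + 1 + r₀) * b)
      = W.valuation a ^ (s + 1 + r₀) * W.valuation b := by rw [map_mul, map_pow]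
    _ ≤ W.valuation ϖ ^ (s + 1 + r₀) * W.valuation b :=
        mul_le_mul' (pow_le_pow_left' (approx_val_le_unif hU ha) _) le_rfl
    _ = W.valuation ϖ ^ (s + 1) * (W.valuation ϖ ^ r₀ * W.valuation b) := by
        rw [pow_add, mul_assoc]
    _ ≤ W.valuation ϖ ^ (s + 1) * 1 := mul_le_mul' le_rfl h0
    _ < 1 := by
        rw [mul_one]
        exact pow_lt_one' (approx_val_unif_lt_one hU) (Nat.succ_ne_zero s)

/-- a discrete valuation ring is a maximal proper subring -/
theorem approx_not_le {W W' : ValuationSubring F} {ϖ ϖ' : F} (hU : IsUnif W ϖ)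
    (hU' : IsUnif W' ϖ') (hne : W ≠ W') : ¬ W ≤ W' := by
  intro hle
  obtain ⟨y, hy', hy⟩ := SetLike.exists_of_lt (lt_of_le_of_ne hle hne)
  have hyinv : y⁻¹ ∈ W := (W.mem_or_inv_mem y).resolve_left hy
  have hy0 : y ≠ 0 := by
    rintro rfl
    exact hy W.zero_mem
  have h1 : y⁻¹ / ϖ ∈ W := hU.div_mem hyinv (by rwa [inv_inv])
  have h2 : ϖ⁻¹ ∈ W' := by
    have e : ϖ⁻¹ = y * (y⁻¹ / ϖ) := by
      field_simp
    rw [e]
    exact W'.mul_mem _ _ hy' (hle h1)
  apply hU'.inv_notMem
  obtain ⟨r, hr⟩ := hU.exists_pow_mul_mem ϖ'⁻¹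
  have e : ϖ'⁻¹ = ϖ⁻¹ ^ r * (ϖ ^ r * ϖ'⁻¹) := by
    rw [← mul_assoc, ← mul_pow, inv_mul_cancel₀ hU.ne_zero, one_pow, one_mul]
  rw [e]
  exact W'.mul_mem _ _ (W'.pow_mem h2 r) (hle hr)

theorem approx_pair {W W' : ValuationSubring F} {ϖ ϖ' : F} (hU : IsUnif W ϖ)
    (hU' : IsUnif W' ϖ') (hne : W ≠ W') :
    ∃ a : F, 1 < W.valuation a ∧ W'.valuation a < 1 := by
  obtain ⟨a, ha', ha⟩ := SetLike.not_le_iff_exists.mp (approx_not_le hU' hU hne.symm)
  obtain ⟨b, hb, hb'⟩ := SetLike.not_le_iff_exists.mp (approx_not_le hU hU' hne)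
  have hb0 : b ≠ 0 := by
    rintro rfl
    exact hb' W'.zero_mem
  rw [← ValuationSubring.valuation_le_one_iff] at ha ha' hb hb'
  rw [not_le] at ha hb'
  have h1 : W.valuation b ≠ 0 := (Valuation.ne_zero_iff _).mpr hb0
  have h2 : W'.valuation b ≠ 0 := (Valuation.ne_zero_iff _).mpr hb0
  refine ⟨a / b, ?_, ?_⟩
  · rw [map_div₀, one_lt_div₀ (zero_lt_iff.mpr h1)]
    exact lt_of_le_of_lt hb ha
  · rw [map_div₀, div_lt_one₀ (zero_lt_iff.mpr h2)]
    exact lt_of_le_of_lt ha' hb'

theorem approx_val_div_one_add_of_gt {W : ValuationSubring F} {x : F} (hx : 1 < W.valuation x) :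
    W.valuation (x / (1 + x)) = 1 := by
  have h1 : W.valuation (1 + x) = W.valuation x :=
    Valuation.map_add_eq_of_lt_right _ (by rwa [map_one])
  rw [map_div₀, h1]
  exact div_self (ne_of_gt (lt_trans zero_lt_one hx))

theorem approx_val_div_one_add_of_lt {W : ValuationSubring F} {x : F} (hx : W.valuation x < 1) :
    W.valuation (x / (1 + x)) = W.valuation x := by
  rw [map_div₀, Valuation.map_one_add_of_lt _ hx, div_one]

variable {ι : Type*} (W : ι → ValuationSubring F) (ϖ : ι → F)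

theorem approx_sep (hU : ∀ c, IsUnif (W c) (ϖ c)) (hinj : Function.Injective W) (c : ι)
    (S : Finset ι) (hc : c ∉ S) :
    ∃ a : F, 1 < (W c).valuation a ∧ ∀ j ∈ S, (W j).valuation a < 1 := by
  classical
  induction S using Finset.induction_on with
  | empty =>
    refine ⟨(ϖ c)⁻¹, ?_, by simp⟩
    rw [map_inv₀]
    have hϖ : (W c).valuation (ϖ c) ≠ 0 := (Valuation.ne_zero_iff _).mpr (hU c).ne_zero
    exact (one_lt_inv₀ (zero_lt_iff.mpr hϖ)).mpr (approx_val_unif_lt_one (hU c))
  | insert m S hm ih =>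
    rw [Finset.mem_insert, not_or] at hc
    obtain ⟨a, hac, haS⟩ := ih hc.2
    obtain ⟨b, hbc, hbm⟩ := approx_pair (hU c) (hU m) (fun h => hc.1 (hinj h))
    have hev : ∀ᶠ r : ℕ in atTop, ∀ j ∈ S, (W j).valuation (a ^ r * b) < 1 :=
      (Filter.eventually_all_finset S).mpr fun j hj =>
        approx_eventually_lt_one (hU j) (haS j hj) b
    obtain ⟨r, hr, hr1⟩ := (hev.and (eventually_ge_atTop 1)).exists
    have hr0 : r ≠ 0 := by omega
    rcases le_or_gt ((W m).valuation a) 1 with hle | hgt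
    · refine ⟨a ^ r * b, ?_, ?_⟩
      · rw [map_mul, map_pow]
        exact lt_of_lt_of_le hbc (le_mul_of_one_le_left' (one_le_pow_of_one_le' hac.le r))
      · intro j hj
        rcases Finset.mem_insert.mp hj with rfl | hj
        · rw [map_mul, map_pow]
          exact lt_of_le_of_lt (mul_le_of_le_one_left' (pow_le_one' hle r)) hbm
        · exact hr j hj
    · refine ⟨a ^ r / (1 + a ^ r) * b, ?_, ?_⟩
      · rw [map_mul, approx_val_div_one_add_of_gt (by rw [map_pow]; exact one_lt_pow' hac hr0),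
          one_mul]
        exact hbc
      · intro j hj
        rcases Finset.mem_insert.mp hj with rfl | hj
        · rw [map_mul, approx_val_div_one_add_of_gt (by rw [map_pow]; exact one_lt_pow' hgt hr0),
            one_mul]
          exact hbm
        · rw [map_mul, approx_val_div_one_add_of_lt
            (by rw [map_pow]; exact pow_lt_one' (haS j hj) hr0), ← map_mul]
          exact hr j hj

/-- weak approximation: prescribed orders at finitely many distinct discrete valuation subrings. -/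
theorem exists_prescribed_orders {ι : Type*} [Finite ι] (W : ι → ValuationSubring F) (ϖ : ι → F)
    (hU : ∀ c, IsUnif (W c) (ϖ c)) (hinj : Function.Injective W) (k : ι → ℤ) :
    ∃ h : F, h ≠ 0 ∧ ∀ c, (W c).valuation h = (W c).valuation (ϖ c) ^ k c := by
  classical
  cases nonempty_fintype ι
  rcases isEmpty_or_nonempty ι with hι | ⟨⟨c₀⟩⟩
  · exact ⟨1, one_ne_zero, fun c => (hι.false c).elim⟩
  choose a hac haj using fun c => approx_sep W ϖ hU hinj c (Finset.univ.erase c) (by simp)
  have hϖ0 : ∀ c, ϖ c ^ k c ≠ 0 := fun c => zpow_ne_zero _ (hU c).ne_zero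
  have hev : ∀ᶠ r : ℕ in atTop, ∀ c ∈ (Finset.univ : Finset ι), ∀ j ∈ Finset.univ.erase c,
      (W c).valuation (a j ^ r * (ϖ j ^ k j / ϖ c ^ k c)) < 1 :=
    (Filter.eventually_all_finset _).mpr fun c _ =>
      (Filter.eventually_all_finset _).mpr fun j hj =>
        approx_eventually_lt_one (hU c)
          (haj j c (by
            rw [Finset.mem_erase] at hj ⊢
            exact ⟨hj.1.symm, Finset.mem_univ _⟩)) _
  obtain ⟨r, hr, hr1⟩ := (hev.and (eventually_ge_atTop 1)).exists
  have hr0 : r ≠ 0 := by omega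
  have key : ∀ c, (W c).valuation (∑ j, ϖ j ^ k j * (a j ^ r / (1 + a j ^ r)))
      = (W c).valuation (ϖ c) ^ k c := by
    intro c
    have hmain : (W c).valuation (ϖ c ^ k c * (a c ^ r / (1 + a c ^ r)))
        = (W c).valuation (ϖ c) ^ k c := by
      rw [map_mul, approx_val_div_one_add_of_gt (by rw [map_pow]; exact one_lt_pow' (hac c) hr0),
        mul_one, map_zpow₀]
    have hne : (W c).valuation (ϖ c) ^ k c ≠ 0 :=
      zpow_ne_zero _ ((Valuation.ne_zero_iff _).mpr (hU c).ne_zero)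
    have hrest : (W c).valuation (∑ j ∈ Finset.univ.erase c,
        ϖ j ^ k j * (a j ^ r / (1 + a j ^ r))) < (W c).valuation (ϖ c) ^ k c := by
      refine Valuation.map_sum_lt _ hne fun j hj => ?_
      have hjc : (W c).valuation (a j) < 1 := haj j c (by
        rw [Finset.mem_erase] at hj ⊢
        exact ⟨hj.1.symm, Finset.mem_univ _⟩)
      have h1 := hr c (Finset.mem_univ c) j hj
      rw [map_mul, map_div₀, map_zpow₀ _ (ϖ c), ← mul_div_assoc,
        div_lt_one₀ (zero_lt_iff.mpr hne)] at h1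
      rw [map_mul, approx_val_div_one_add_of_lt (by rw [map_pow]; exact pow_lt_one' hjc hr0),
        mul_comm]
      exact h1
    rw [← Finset.add_sum_erase _ _ (Finset.mem_univ c),
      Valuation.map_add_eq_of_lt_left _ (by rw [hmain]; exact hrest), hmain]
  refine ⟨_, ?_, key⟩
  intro h0
  have := key c₀
  rw [h0, map_zero] at this
  exact zpow_ne_zero _ ((Valuation.ne_zero_iff _).mpr (hU c₀).ne_zero) this.symm

end APPROX

end Fermat.Agent.S36.BP

end
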